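import Mathlib
import Fermat.Agent.S48x.Nebentypus.Hecke
import Fermat.Prelude.Def_ModularCurve_PeriodHomPair

/-!
# P-S48, G1 (b1.1): the group `±Γ₁(M)` (helper4)

* `lr M g` : the lower right entry of `g` modulo `M`;
* `Gamma1pm M = ±Γ₁(M)` : the elements of `Γ₀(M)` with lower right entry `≡ ±1 mod M`;
  `Γ₁(M) ≤ ±Γ₁(M) ≤ Γ₀(M)`, `-1 ∈ ±Γ₁(M)`, finite index, normal in `Γ₀(M)`;
* `exists_lowerRight_eq` : for `d` prime to `M` there is `σ ∈ Γ₀(M)` with `σ 1 1 = d`;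
* `conjBy σ` (`σ ∈ Γ₀(M)`) and `jConj1` : automorphisms of `±Γ₁(M)`.
-/

set_option autoImplicit false

namespace Fermat.Agent.S48x.G1

open CongruenceSubgroup Matrix.SpecialLinearGroup
open Fermat.Agent.S48x.Nebentypus (lowerRight_mul upperLeft_mul_lowerRight)
open scoped MatrixGroups

/-- The lower right entry modulo `M`. -/
def lr (M : ℕ) (g : SL(2, ℤ)) : ZMod M := ((g 1 1 : ℤ) : ZMod M)

theorem lr_one (M : ℕ) : lr M 1 = 1 := by simp [lr]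

theorem lr_neg_one (M : ℕ) : lr M (-1) = -1 := by simp [lr]

theorem lr_mul {M : ℕ} {g : SL(2, ℤ)} (hg : g ∈ Gamma0 M) (h : SL(2, ℤ)) :
    lr M (g * h) = lr M g * lr M h := lowerRight_mul hg h

theorem lr_mul_lr_inv {M : ℕ} {g : SL(2, ℤ)} (hg : g ∈ Gamma0 M) : lr M g * lr M g⁻¹ = 1 := by
  rw [← lr_mul hg, mul_inv_cancel, lr_one]

theorem lr_inv_mul_lr {M : ℕ} {g : SL(2, ℤ)} (hg : g ∈ Gamma0 M) : lr M g⁻¹ * lr M g = 1 := by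
  rw [mul_comm, lr_mul_lr_inv hg]

theorem lr_conj {M : ℕ} {σ g : SL(2, ℤ)} (hσ : σ ∈ Gamma0 M) (hg : g ∈ Gamma0 M) :
    lr M (σ * g * σ⁻¹) = lr M g := by
  rw [lr_mul ((Gamma0 M).mul_mem hσ hg), lr_mul hσ, mul_comm (lr M σ), mul_assoc,
    lr_mul_lr_inv hσ, mul_one]

/-- `±Γ₁(M)`. -/
def Gamma1pm (M : ℕ) : Subgroup SL(2, ℤ) where
  carrier := {g | g ∈ Gamma0 M ∧ (lr M g = 1 ∨ lr M g = -1)}
  one_mem' := ⟨(Gamma0 M).one_mem, Or.inl (lr_one M)⟩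
  mul_mem' := by
    rintro g h ⟨hg, hg'⟩ ⟨hh, hh'⟩
    refine ⟨(Gamma0 M).mul_mem hg hh, ?_⟩
    rw [lr_mul hg]
    rcases hg' with e | e <;> rcases hh' with e' | e' <;> rw [e, e'] <;> simp
  inv_mem' := by
    rintro g ⟨hg, hg'⟩
    refine ⟨(Gamma0 M).inv_mem hg, ?_⟩
    have h := lr_mul_lr_inv hg
    rcases hg' with e | e
    · left; rw [e, one_mul] at h; exact h
    · right; rw [e] at h; linear_combination -h

theorem mem_Gamma1pm_iff {M : ℕ} {g : SL(2, ℤ)} :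
    g ∈ Gamma1pm M ↔ g ∈ Gamma0 M ∧ (lr M g = 1 ∨ lr M g = -1) := Iff.rfl

theorem Gamma1pm_le_Gamma0 (M : ℕ) : Gamma1pm M ≤ Gamma0 M := fun _ h => h.1

theorem Gamma1_le_Gamma1pm (M : ℕ) : Gamma1 M ≤ Gamma1pm M := by
  intro g hg
  exact ⟨Gamma1_in_Gamma0 M hg, Or.inl ((Gamma1_mem M g).mp hg).2.1⟩

theorem neg_one_mem_Gamma1pm (M : ℕ) : (-1 : SL(2, ℤ)) ∈ Gamma1pm M := by
  refine ⟨?_, Or.inr (lr_neg_one M)⟩
  rw [Gamma0_mem]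
  simp

instance (M : ℕ) [NeZero M] : (Gamma1pm M).FiniteIndex :=
  Subgroup.finiteIndex_of_le (Gamma1_le_Gamma1pm M)

/-- `±Γ₁(M)` is normalised by `Γ₀(M)`. -/
theorem conj_mem_Gamma1pm {M : ℕ} {σ g : SL(2, ℤ)} (hσ : σ ∈ Gamma0 M) (hg : g ∈ Gamma1pm M) :
    σ * g * σ⁻¹ ∈ Gamma1pm M := by
  refine ⟨(Gamma0 M).mul_mem ((Gamma0 M).mul_mem hσ hg.1) ((Gamma0 M).inv_mem hσ), ?_⟩
  rw [lr_conj hσ hg.1]
  exact hg.2

/-- Elements of `Γ₀(M)` with prescribed lower right entry. -/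
theorem exists_lowerRight_eq (M : ℕ) {d : ℤ} (hd : IsCoprime d (M : ℤ)) :
    ∃ σ : SL(2, ℤ), σ ∈ Gamma0 M ∧ σ 1 1 = d := by
  obtain ⟨a, b, hab⟩ := hd
  refine ⟨⟨!![a, -b; (M : ℤ), d], ?_⟩, ?_, ?_⟩
  · rw [Matrix.det_fin_two_of]; linarith
  · rw [Gamma0_mem]; simp
  · simp

/-- Conjugation by `σ ∈ Γ₀(M)` on `±Γ₁(M)`. -/
def conjBy {M : ℕ} (σ : Gamma0 M) : Gamma1pm M →* Gamma1pm M where
  toFun g := ⟨(σ : SL(2, ℤ)) * g * (σ : SL(2, ℤ))⁻¹, conj_mem_Gamma1pm σ.2 g.2⟩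
  map_one' := by
    apply Subtype.ext
    simp
  map_mul' g h := by
    apply Subtype.ext
    simp [mul_assoc]

@[simp] theorem conjBy_coe {M : ℕ} (σ : Gamma0 M) (g : Gamma1pm M) :
    ((conjBy σ g : Gamma1pm M) : SL(2, ℤ)) = (σ : SL(2, ℤ)) * g * (σ : SL(2, ℤ))⁻¹ := rfl

open ModularCurve.Period in
theorem jConjSL_mem_Gamma1pm {M : ℕ} {g : SL(2, ℤ)} (hg : g ∈ Gamma1pm M) :
    jConjSL g ∈ Gamma1pm M := by
  refine ⟨jConjSL_mem_Gamma0 hg.1, ?_⟩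
  have : lr M (jConjSL g) = lr M g := by
    simp [lr, jConjSL_coe]
  rw [this]
  exact hg.2

open ModularCurve.Period in
/-- The involution `γ ↦ diag(1,-1) γ diag(1,-1)` on `±Γ₁(M)`. -/
def jConj1 (M : ℕ) : Gamma1pm M →* Gamma1pm M where
  toFun g := ⟨jConjSL g, jConjSL_mem_Gamma1pm g.2⟩
  map_one' := by
    apply Subtype.ext
    show jConjSL ((1 : Gamma1pm M) : SL(2, ℤ)) = _
    rw [OneMemClass.coe_one, map_one]
  map_mul' g h := by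
    apply Subtype.ext
    show jConjSL ((g * h : Gamma1pm M) : SL(2, ℤ)) = _
    rw [MulMemClass.coe_mul, map_mul]; rfl

open ModularCurve.Period in
@[simp] theorem jConj1_coe (M : ℕ) (g : Gamma1pm M) :
    ((jConj1 M g : Gamma1pm M) : SL(2, ℤ)) = jConjSL g := rfl

open ModularCurve.Period in
theorem jConj1_jConj1 (M : ℕ) (g : Gamma1pm M) : jConj1 M (jConj1 M g) = g := by
  apply Subtype.ext
  rw [jConj1_coe, jConj1_coe, jConjSL_jConjSL]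

end Fermat.Agent.S48x.G1
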