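import Fermat.Agent.S48x.G1.Final
import Fermat.Agent.S48x.HeckeFF.ESBridge

/-!
# P-S48, G1 final glue (helper23): the `es` and `diam_gal` fields of `G1Inputs` from the landed
Kummer layer

* `C1At δ p hp` : (C1') at `p`, the `q`-expansion norm formula with diamond twist
  (`Kummer1.NormQExpFormulaD`, producer `Ana/LevelPInst.normQExpFormulaD_gamma1`) for the naive pair
  `(V_p, α)` of `gamma1Field M`;
* `es_of_C1` : the field `G1Inputs.es` (naive Eichler–Shimura with diamond twist) from (C1'),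
  (Hnorm), (C0) and the commutation of the diamonds with the coefficientwise Galois action, through
  helper38's `HeckeFF/ESBridge.eichlerShimura_naive`
  (= helper54's `Kummer1.frobenius_quadratic_of_torsion_diamond_root`);
* `diam_gal_of_commute` : the field `G1Inputs.diam_gal` from `Kummer1.DiamondGaloisCommute`.
-/

set_option autoImplicit false
set_option linter.unusedSectionVars false
set_option linter.style.haveILetI false

noncomputable section

open scoped MatrixGroups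
open CongruenceSubgroup ModularCurve AlgebraicCurve IntermediateField

namespace Fermat.Agent.S48x.G1.Final

open Fermat.Agent.Gateway.Hecke Fermat.Agent.Gateway.Kummer
open Fermat.Agent.S48x.G1 Fermat.Agent.S48x.G1.Export
open Fermat.Agent.S48x.Model
open Fermat.Agent.S48x.HeckeFF Fermat.Agent.S48x.Kummer1

local notation "Γℚ" => (AlgebraicClosure ℚ ≃ₐ[ℚ] AlgebraicClosure ℚ)
local notation "Qb" => AlgebraicClosure ℚ

variable {M : ℕ} [NeZero M]

/-- **(C1') at `p`** for the naive pair `(V_p, α)` of `gamma1Field M` over `ℚ̄`, with diamond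
twist `δ`. -/
def C1At (δ : F1 M Qb ≃ₐ[Qb] F1 M Qb) (p : ℕ) (hp : p.Prime) : Prop :=
  haveI : NeZero p := ⟨hp.ne_zero⟩
  ∃ ζ : Qbˣ, IsPrimitiveRoot ζ p ∧
    NormQExpFormulaD (gamma1Field M) (alphaL (gamma1Field M) p Qb) (betaL (gamma1Field M) p Qb)
      p δ ζ

/-- **The field `G1Inputs.diam_gal`** from the commutation on functions. -/
theorem diam_gal_of_commute (diamK : (ZMod M)ˣ →* (F1 M Qb ≃ₐ[Qb] F1 M Qb))
    (hgal : ∀ d, DiamondGaloisCommute (gamma1Field M) (diamK d))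
    (σ : Γℚ) (d : (ZMod M)ˣ) (x : J1 M) :
    σ • picAut (diamK d) x = picAut (diamK d) (σ • x) := by
  rw [galois_smul_pic0_def, galois_smul_pic0_def]
  exact smul_picAut_comm _ _ (fun u => (hgal d σ u).symm) x

/-- **The field `G1Inputs.es`** from (C1'), (Hnorm), (C0). -/
theorem es_of_C1 {ℓ : ℕ} (hℓ : ℓ ≠ 0) (hj : jq ∈ gamma1Field M)
    (finK : FiniteDimensional Qb⟮jG Qb hj⟯ (F1 M Qb))
    (diamK : (ZMod M)ˣ →* (F1 M Qb ≃ₐ[Qb] F1 M Qb))
    (hgal : ∀ d, DiamondGaloisCommute (gamma1Field M) (diamK d))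
    (hC1 : ∀ (p : ℕ) (hp : p.Prime) (hpM : ¬ p ∣ M), C1At (diamK (unitOfPrime hp hpM)⁻¹) p hp)
    (hnorm : ∀ q : ℕ, q.Prime → ¬ q ∣ M → ∀ A : ValuationSubring Qb, A.LiesOverPrime q →
      GaussNormalisable (gamma1Field M) A)
    (hC0 : ∀ n q : ℕ, q.Prime → ¬ q ∣ M → ∀ A : ValuationSubring Qb, A.LiesOverPrime q →
      KummerRedInj (gamma1Field M) A (ℓ ^ n))
    (n p : ℕ) (hp : p.Prime) (hpM : ¬ p ∣ M) (A : ValuationSubring Qb)
    (hA : A.LiesOverPrime p) (σ : Γℚ) (hσ : A.IsFrobeniusAt σ p) (x : J1 M)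
    (hx : ℓ ^ n • x = 0) :
    picAut (diamK (unitOfPrime hp hpM)⁻¹) (σ • σ • x)
      - heckeNaive Qb hj finK p hp (σ • x) + p • x = 0 := by
  haveI : NeZero p := ⟨hp.ne_zero⟩
  haveI : Fact p.Prime := ⟨hp⟩
  haveI := finK
  obtain ⟨ζ, hζ, hC1'⟩ := hC1 p hp hpM
  have hx' : ((ℓ ^ n : ℕ) : ℤ) • x = 0 := by
    rw [natCast_zsmul]
    exact hx
  exact eichlerShimura_naive (ffInputs_levelField Qb p hp hj) (pow_ne_zero n hℓ) A hA ζ hζ hC1'
    (hgal _) (hnorm p hp hpM A hA) (hC0 n p hp hpM A hA) σ hσ hx'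

end Fermat.Agent.S48x.G1.Final
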