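import Fermat.Agent.S48x.G1.D5Std
import Fermat.Agent.S48x.G1.ESInst
import Fermat.Agent.S48x.Ana.Emb1BaseChange
import Fermat.Agent.S48x.Ana.DegreeF1
import Fermat.Agent.S48x.Ana.LevelPInst
import Fermat.Agent.S48x.HeckeFF.ThetaInst

/-!
# P-S48, G1 final glue (helper23): the instance of `G1Inputs M ℓ` from the landed layers, modulo
layer (c)

For `8 ≤ M`: every field of `G1.Final.G1Inputs M ℓ` except the two inputs of layer (c)
(`RedInputs1 M ℓ` = (Hnorm) + (C0) at all primes `q ∤ M`, in the shapes of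
`Kummer1.GaussNormalisable`, `Kummer1.KummerRedInj`) is discharged from the landed producers:

* `hj`, `finK`, `finC` : `Ana/DegreeF1` (helper80);
* `yC`, `D`, `lvl`, `hcusp` : `Ana/Emb1Inst.embDataC`, `hcusp_embDataC` (helper8), `lvl = M`;
* `diamK`, `diamC`, `diam_iota`, `diam_emb`, `diam_gal` : `Ana/Diamond.diamondHom` for
  `Emb1Slash.slashData1` / `slashDataC` (helper77, helper8), `Ana/Emb1BaseChange` (helper62);
* `d5` : `G1/D5Std.d5_of_normConjAt` from `HeckeFF/ThetaInst.normConjFormula_levelField` (helper4,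
  helper48);
* `es` : `G1/ESInst.es_of_C1` from `Ana/LevelPInst.normQExpFormulaD_gamma1` (helper48) and
  `HeckeFF/ESBridge.eichlerShimura_naive` (helper38, helper54).

`g1_main_of_red hM hℓ R : ∃ H D, D.diamInv = false` is `DS2.G1Statement` at `(M, ℓ)` modulo `R`.
-/

set_option autoImplicit false
set_option linter.unusedSectionVars false
set_option linter.style.haveILetI false

noncomputable section

open scoped MatrixGroups
open CongruenceSubgroup ModularCurve AlgebraicCurve IntermediateField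

namespace Fermat.Agent.S48x.G1.InputsInst

open Fermat.Agent.S48x.G1.Final
open Fermat.Agent.S24 Fermat.Agent.S24.Setup Fermat.Agent.S24.CuspOrd
open Fermat.Agent.Gateway.Hecke Fermat.Agent.Gateway.Kummer
open Fermat.Agent.Gateway.Dict.ConjAbs
open Fermat.Agent.S27x.Theta
open Fermat.Agent.S48x.DS2 Fermat.Agent.S48x.G1 Fermat.Agent.S48x.G1.Export
open Fermat.Agent.S48x.Model Fermat.Agent.S48x.PPack
open Fermat.Agent.S48x.HeckeFF Fermat.Agent.S48x.HeckeFF.ThetaEq Fermat.Agent.S48x.Kummer1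
open Fermat.Agent.S48x.G1.Xi
open Fermat.Agent.S48x.Ana Fermat.Agent.S48x.Ana.Emb1 Fermat.Agent.S48x.Ana.Emb1BC
open Fermat.Agent.S48x.Ana.DegreeF1 Fermat.Agent.S48x.Ana.LevelP

attribute [local instance] Fermat.Agent.Gateway.BaseChange.Modular.algKbarC

local notation "Γℚ" => (AlgebraicClosure ℚ ≃ₐ[ℚ] AlgebraicClosure ℚ)
local notation "Qb" => AlgebraicClosure ℚ

variable {M : ℕ} [NeZero M]

/-- **The inputs from layer (c)** (good reduction of `X₁(M)` at the primes not dividing `M`). -/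
structure RedInputs1 (M : ℕ) [NeZero M] (ℓ : ℕ) : Prop where
  hnorm : ∀ q : ℕ, q.Prime → ¬ q ∣ M → ∀ A : ValuationSubring Qb, A.LiesOverPrime q →
    GaussNormalisable (gamma1Field M) A
  hC0 : ∀ n q : ℕ, q.Prime → ¬ q ∣ M → ∀ A : ValuationSubring Qb, A.LiesOverPrime q →
    KummerRedInj (gamma1Field M) A (ℓ ^ n)

/-- the chosen primitive `M`-th root of unity of `ℚ̄` mapping to `exp(2πi/M)`. -/
def zetaQb (M : ℕ) [NeZero M] : Qb := (exists_zeta (algebraMap Qb ℂ) M).choose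

theorem zetaQb_spec (M : ℕ) [NeZero M] : IsPrimitiveRoot (zetaQb M) M :=
  (exists_zeta (algebraMap Qb ℂ) M).choose_spec.1

theorem zetaQb_map (M : ℕ) [NeZero M] : algebraMap Qb ℂ (zetaQb M) = zetaM M :=
  (exists_zeta (algebraMap Qb ℂ) M).choose_spec.2

/-- the diamond automorphisms over `ℚ̄`. -/
def diamQb (hM : 8 ≤ M) : (ZMod M)ˣ →* (F1 M Qb ≃ₐ[Qb] F1 M Qb) :=
  Diamond.diamondHom (zetaQb_spec M)
    (slashData1 (algebraMap Qb ℂ) (zetaQb M) hM (zetaQb_spec M) (zetaQb_map M))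

/-- the diamond automorphisms over `ℂ`. -/
def diamCx (hM : 8 ≤ M) : (ZMod M)ˣ →* (F1 M ℂ ≃ₐ[ℂ] F1 M ℂ) :=
  Diamond.diamondHom (CycloUnit.isPrimitiveRoot_zetaM M) (slashDataC hM)

theorem diamQb_commute (hM : 8 ≤ M) (d : (ZMod M)ˣ) :
    DiamondGaloisCommute (gamma1Field M) (diamQb hM d) := fun σ u =>
  (Diamond.arithmeticRingAut_diamond (zetaQb_spec M)
    (slashData1 (algebraMap Qb ℂ) (zetaQb M) hM (zetaQb_spec M) (zetaQb_map M)) σ d u).symm

theorem normConjAt_embDataC (hM : 8 ≤ M) (p : ℕ) (hp : p.Prime) (hpM : ¬ p ∣ M) :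
    NormConjAt (jq_mem_gamma1Field M)
      (finiteDimensional_jG (algebraMap Qb ℂ) hM (jq_mem_gamma1Field M))
      (finiteDimensional_jG (RingHom.id ℂ) hM (jq_mem_gamma1Field M))
      (embDataC hM) (Nat.pos_of_ne_zero (NeZero.ne M)) (hcusp_embDataC hM) p hp hpM := by
  haveI : Fact p.Prime := ⟨hp⟩
  haveI : NeZero p := ⟨hp.ne_zero⟩
  haveI := finiteDimensional_jG (algebraMap Qb ℂ) hM (jq_mem_gamma1Field M)
  haveI := finiteDimensional_jG (RingHom.id ℂ) hM (jq_mem_gamma1Field M)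
  haveI := G1a.isCurveOver_FC (Fq := gamma1Field M)
    (transcendental_jG Qb (jq_mem_gamma1Field M))
  haveI : Algebra.IsAlgebraic ↥ℂ⟮alphaL (gamma1Field M) p ℂ (jF1R ℂ M)⟯
      ↥(laurentBaseChange ℂ (levelField (gamma1Field M) p)) :=
    isAlgebraic_levelField (F₀ := gamma1Field M) (p := p) (jq_mem_gamma1Field M)
  exact normConjFormula_levelField hpM (embDataC hM) (Nat.pos_of_ne_zero (NeZero.ne M))
    (hcusp_embDataC hM)
    (fun f => by
      have h := hasQ_embDataC hM f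
      have h2 : coeffMap (RingHom.id ℂ) (f : LaurentSeries ℂ) = f := by
        ext n
        rfl
      rwa [h2])
    (Dvd.intro _ rfl) _

/-- **The instance of `G1Inputs`**, modulo layer (c). -/
def g1Inputs (hM : 8 ≤ M) {ℓ : ℕ} (hℓ : ℓ ≠ 0) (R : RedInputs1 M ℓ) : G1Inputs M ℓ where
  hj := jq_mem_gamma1Field M
  finK := finiteDimensional_jG (algebraMap Qb ℂ) hM (jq_mem_gamma1Field M)
  finC := finiteDimensional_jG (RingHom.id ℂ) hM (jq_mem_gamma1Field M)
  yC := jF1R ℂ M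
  D := embDataC hM
  lvl := M
  lvl_pos := Nat.pos_of_ne_zero (NeZero.ne M)
  hcusp := hcusp_embDataC hM
  diamK := diamQb hM
  diamC := diamCx hM
  diam_iota := fun d f => iotaG_diamond hM (zetaQb_spec M) (zetaQb_map M) d f
  diam_emb := fun d => by
    obtain ⟨τ, hτ, hd⟩ := Diamond.exists_mem_Gamma0_lr_eq d
    exact ⟨⟨τ, hτ⟩, hd, fun f => embDataC_emb_diamond hM d hτ hd f⟩
  diam_gal := diam_gal_of_commute (diamQb hM) (diamQb_commute hM)
  d5 := d5_of_normConjAt _ _ _ _ _ _ (diamCx hM)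
    (fun d => by
      obtain ⟨τ, hτ, hd⟩ := Diamond.exists_mem_Gamma0_lr_eq d
      exact ⟨⟨τ, hτ⟩, hd, fun f => embDataC_emb_diamond hM d hτ hd f⟩)
    (normConjAt_embDataC hM)
  es := es_of_C1 hℓ _ _ (diamQb hM) (diamQb_commute hM)
    (fun p hp hpM => by
      haveI : NeZero p := ⟨hp.ne_zero⟩
      obtain ⟨ζp, hζp⟩ := Fermat.Agent.Gateway.HK1.exists_primitiveRoot_unit (L := Qb) p
      exact ⟨ζp, hζp, normQExpFormulaD_gamma1 p (algebraMap Qb ℂ) hM hp hpM (zetaQb_spec M)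
        (zetaQb_map M) hζp⟩)
    R.hnorm R.hC0
  hnorm := R.hnorm
  hC0 := R.hC0

/-- **G1 modulo layer (c)**. -/
theorem g1_main_of_red (hM : 8 ≤ M) {ℓ : ℕ} (hℓ : ℓ.Prime) (R : RedInputs1 M ℓ) :
    ∃ (H : HeckeOps1 M 2) (D : TorsionHeckeData1 H ℓ M.primeFactors), D.diamInv = false :=
  g1_main_of_inputs hℓ (g1Inputs hM hℓ.ne_zero R)

end Fermat.Agent.S48x.G1.InputsInst
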