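/-
P-S48 (Deligne-Serre), G1 export (task 357, helper3): the consumer structure
`DS2.TorsionHeckeData1` (helper52, `S48x/DS2/Contract.lean`) from an ABSTRACT producer contract
`ExportInputs`.

This is the `Γ₁(M)`-with-diamonds analogue of `Gateway/Export/{Contract,Main}.lean` (helper88),
written once and for all in abstract form: no modular curve, no function field and no cohomology
group appears; the producers (layers (a), (b), (c) of the `Γ₁`-gateway) only have to provide

* a lattice `Q` (free of finite rank) with a period isomorphism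
  `P : S₂(Γ₁(M)) × S₂(Γ₁(M)) ≃ Hom(Q, ℂ)`,
* endomorphisms `uT p`, `uD d` of `Q` realising `T_p` and `⟨d⟩`,
* an abelian group `J` with a Galois action, endomorphisms `TJ p`, `DJ d`, and isomorphisms
  `xi n : J[ℓ ^ n] ≃ Hom(Q, ℤ/ℓ ^ n)` compatible with these,
* Galois equivariance of `TJ`, `DJ`, finite level, the Eichler-Shimura relation and
  unramifiedness on the torsion points.

The Hecke ring is `TT = H.algebra S` (the Hecke algebra of cusp forms, with diamond operators).
-/
import Mathlib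
import Fermat.Agent.Gateway.Export.Lattice
import Fermat.Agent.S48x.DS2.Contract

set_option autoImplicit false

open CongruenceSubgroup
open scoped MatrixGroups ModularForm

namespace Fermat.Agent.S48x.G1.Export

open Fermat.Agent.Gateway.Export Fermat.Agent.S48x.DS2

local notation "Γℚ" => (AlgebraicClosure ℚ ≃ₐ[ℚ] AlgebraicClosure ℚ)
local notation "Qb" => AlgebraicClosure ℚ

/-- The `m`-torsion subgroup of an abelian group. -/
def tors (J : Type) [AddCommGroup J] (m : ℕ) : AddSubgroup J where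
  carrier := {x | m • x = 0}
  zero_mem' := smul_zero m
  add_mem' := fun {a b} ha hb => by
    show m • (a + b) = 0
    rw [smul_add, ha, hb, add_zero]
  neg_mem' := fun {a} ha => by
    show m • (-a) = 0
    rw [smul_neg, ha, neg_zero]

theorem mem_tors {J : Type} [AddCommGroup J] {m : ℕ} {x : J} : x ∈ tors J m ↔ m • x = 0 :=
  Iff.rfl

theorem map_mem_tors {J : Type} [AddCommGroup J] {m : ℕ} (f : J →+ J) {x : J}
    (hx : x ∈ tors J m) : f x ∈ tors J m := by
  rw [mem_tors] at hx ⊢
  rw [← map_nsmul, hx, map_zero]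

/-- The unit of `ZMod M` attached to a prime not dividing `M`. -/
def unitOfPrime {M p : ℕ} (hp : p.Prime) (hpM : ¬ p ∣ M) : (ZMod M)ˣ :=
  ZMod.unitOfCoprime p ((Nat.Prime.coprime_iff_not_dvd hp).mpr hpM)

/-- **The producer contract of the `Γ₁`-gateway**, in abstract form. -/
structure ExportInputs {M : ℕ} [NeZero M] (H : HeckeOps1 M 2) (ℓ : ℕ) (S : Finset ℕ) :
    Type 1 where
  /-- the lattice (first homology of the compact curve) -/
  Q : Type
  [instQ : AddCommGroup Q]
  [freeQ : Module.Free ℤ Q]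
  [finiteQ : Module.Finite ℤ Q]
  /-- the period isomorphism -/
  P : (CuspForm (Gamma1 M) 2 × CuspForm (Gamma1 M) 2) →ₗ[ℂ] (Q →+ ℂ)
  P_injective : Function.Injective P
  P_surjective : Function.Surjective P
  /-- the Hecke operators on the lattice -/
  uT : ℕ → Module.End ℤ Q
  /-- the diamond operators on the lattice -/
  uD : (ZMod M)ˣ → Module.End ℤ Q
  realises_T : ∀ p : ℕ, p.Prime → ¬ p ∣ M → p ∉ S → Realises P (H.T p) (uT p)
  realises_D : ∀ d : (ZMod M)ˣ, Realises P (H.diam d) (uD d)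
  /-- the group of points of the Jacobian -/
  J : Type
  [instJ : AddCommGroup J]
  /-- the Galois action -/
  galJ : Γℚ →* AddMonoid.End J
  /-- the Hecke correspondences -/
  TJ : ℕ → J →+ J
  /-- the diamond automorphisms -/
  DJ : (ZMod M)ˣ → J →+ J
  /-- torsion `=` `Hom(Q, ℤ/ℓ ^ n)` -/
  xi : ∀ n : ℕ, tors J (ℓ ^ n) ≃+ (Q →+ ZMod (ℓ ^ n))
  xi_T : ∀ (n p : ℕ), p.Prime → ¬ p ∣ M → p ∉ S → ∀ x : tors J (ℓ ^ n),
    xi n ⟨TJ p x, map_mem_tors (TJ p) x.2⟩ = (xi n x).comp (uT p).toAddMonoidHom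
  xi_D : ∀ (n : ℕ) (d : (ZMod M)ˣ) (x : tors J (ℓ ^ n)),
    xi n ⟨DJ d x, map_mem_tors (DJ d) x.2⟩ = (xi n x).comp (uD d).toAddMonoidHom
  gal_T : ∀ (σ : Γℚ) (p : ℕ), p.Prime → ¬ p ∣ M → p ∉ S → ∀ x : J,
    galJ σ (TJ p x) = TJ p (galJ σ x)
  gal_D : ∀ (σ : Γℚ) (d : (ZMod M)ˣ) (x : J), galJ σ (DJ d x) = DJ d (galJ σ x)
  gal_level : ∀ (n : ℕ) (x : J), ℓ ^ n • x = 0 →
    ∃ L : IntermediateField ℚ Qb, FiniteDimensional ℚ L ∧
      ∀ σ : Γℚ, (∀ a ∈ L, σ a = a) → galJ σ x = x
  /-- the normalisation of the Eichler-Shimura relation -/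
  diamInv : Bool
  eichlerShimura : ∀ (n p : ℕ) (hp : p.Prime) (hpM : ¬ p ∣ M), p ∉ S →
    ∀ A : ValuationSubring Qb, A.LiesOverPrime p → ∀ σ : Γℚ, A.IsFrobeniusAt σ p →
    ∀ x : J, ℓ ^ n • x = 0 →
      galJ σ (galJ σ x) - TJ p (galJ σ x)
        + p • DJ (if diamInv then (unitOfPrime hp hpM)⁻¹ else unitOfPrime hp hpM) x = 0
  unram : ∀ (n q : ℕ), q.Prime → q ∉ S → ∀ A : ValuationSubring Qb, A.LiesOverPrime q →
    ∀ τ ∈ A.inertiaSubgroupIn ℚ, ∀ x : J, ℓ ^ n • x = 0 → galJ τ x = x

attribute [instance] ExportInputs.instQ ExportInputs.freeQ ExportInputs.finiteQ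
  ExportInputs.instJ

/-! ### The Hecke algebra is commutative -/

section Comm

variable {M : ℕ} [NeZero M] (H : HeckeOps1 M 2) (S : Finset ℕ)

theorem generators_commute :
    ∀ a ∈ H.generators (↑S : Set ℕ), ∀ b ∈ H.generators (↑S : Set ℕ), a * b = b * a := by
  rintro a (⟨p, hp, hpM, -, rfl⟩ | ⟨d, rfl⟩) b (⟨q, hq, hqM, -, rfl⟩ | ⟨e, rfl⟩)
  · exact (H.comm_T_T p q hp hq hpM hqM).eq
  · exact (H.comm_T_diam p e hp hpM).eq
  · exact (H.comm_T_diam q d hq hqM).eq.symm
  · rw [← map_mul, ← map_mul, mul_comm]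

/-- The Hecke algebra with diamond operators, as a commutative ring. -/
@[instance_reducible] noncomputable def algebraCommRing : CommRing (H.algebra (↑S : Set ℕ)) :=
  { (inferInstance : Ring (H.algebra (↑S : Set ℕ))) with
    mul_comm := fun a b =>
      (Algebra.isMulCommutative_adjoin ℤ (generators_commute H S)).is_comm.comm a b }

/-- `T_p` as an element of the Hecke algebra (zero if `p` is not an admissible prime). -/
noncomputable def telOf (p : ℕ) : H.algebra (↑S : Set ℕ) := by
  classical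
  exact if h : p.Prime ∧ ¬ p ∣ M ∧ p ∉ (↑S : Set ℕ) then H.Tel (↑S : Set ℕ) h.1 h.2.1 h.2.2 else 0

theorem telOf_eq {p : ℕ} (hp : p.Prime) (hpM : ¬ p ∣ M) (hpS : p ∉ (↑S : Set ℕ)) :
    telOf H S p = H.Tel (↑S : Set ℕ) hp hpM hpS := by
  unfold telOf
  rw [dif_pos ⟨hp, hpM, hpS⟩]

/-- the diamond operators as a monoid homomorphism into the Hecke algebra -/
noncomputable def delHom : (ZMod M)ˣ →* H.algebra (↑S : Set ℕ) where
  toFun d := H.Del (↑S : Set ℕ) d
  map_one' := Subtype.ext (map_one H.diam)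
  map_mul' d e := Subtype.ext (map_mul H.diam d e)

theorem closure_generators_eq_top :
    Subring.closure ({t : H.algebra (↑S : Set ℕ) | ∃ p : ℕ, p.Prime ∧ ¬ p ∣ M ∧ p ∉ S ∧
      t = telOf H S p} ∪ Set.range (delHom H S)) = ⊤ := by
  rw [eq_top_iff]
  rintro ⟨t, ht⟩ -
  induction ht using Algebra.adjoin_induction with
  | mem x hx =>
    apply Subring.subset_closure
    rcases hx with ⟨p, hp, hpM, hpS, rfl⟩ | ⟨d, rfl⟩
    · exact Or.inl ⟨p, hp, hpM, hpS, (telOf_eq H S hp hpM hpS).symm⟩
    · exact Or.inr ⟨d, rfl⟩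
  | algebraMap r =>
    have h0 : (⟨algebraMap ℤ _ r, Subalgebra.algebraMap_mem _ r⟩ : H.algebra (↑S : Set ℕ))
        = (r : H.algebra (↑S : Set ℕ)) := by
      apply Subtype.ext
      simp
    rw [h0]
    exact intCast_mem _ r
  | add x y hx hy hx' hy' =>
    have h0 : (⟨x + y, Subalgebra.add_mem _ hx hy⟩ : H.algebra (↑S : Set ℕ))
        = ⟨x, hx⟩ + ⟨y, hy⟩ := rfl
    rw [h0]
    exact add_mem hx' hy'
  | mul x y hx hy hx' hy' =>
    have h0 : (⟨x * y, Subalgebra.mul_mem _ hx hy⟩ : H.algebra (↑S : Set ℕ))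
        = ⟨x, hx⟩ * ⟨y, hy⟩ := rfl
    rw [h0]
    exact mul_mem hx' hy'

end Comm

/-! ### The Hecke action on the lattice and on the torsion -/

section Action

variable {M : ℕ} [NeZero M] {H : HeckeOps1 M 2} {ℓ : ℕ} {S : Finset ℕ} (I : ExportInputs H ℓ S)

theorem algebra_le_realAlg : H.algebra (↑S : Set ℕ) ≤ realAlg I.P := by
  refine adjoin_le_realAlg I.P ?_
  rintro t (⟨p, hp, hpM, hpS, rfl⟩ | ⟨d, rfl⟩)
  · exact ⟨_, I.realises_T p hp hpM hpS⟩
  · exact ⟨_, I.realises_D d⟩

/-- the lattice action of the Hecke algebra (additive, anti-multiplicative, injective). -/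
noncomputable def latHom : H.algebra (↑S : Set ℕ) →+ Module.End ℤ I.Q :=
  (realHom I.P I.P_surjective).comp
    (Subalgebra.inclusion (algebra_le_realAlg I)).toRingHom.toAddMonoidHom

theorem latHom_apply (t : H.algebra (↑S : Set ℕ)) :
    latHom I t = real I.P (Subalgebra.inclusion (algebra_le_realAlg I) t) := rfl

theorem latHom_mul (a b : H.algebra (↑S : Set ℕ)) :
    latHom I (a * b) = latHom I b * latHom I a := by
  rw [latHom_apply, latHom_apply, latHom_apply, map_mul]
  exact real_mul I.P I.P_surjective _ _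

theorem latHom_one : latHom I 1 = 1 := by
  rw [latHom_apply, map_one]
  exact real_one I.P I.P_surjective

theorem latHom_injective : Function.Injective (latHom I) := by
  intro a b hab
  have h1 := realHom_injective I.P I.P_surjective I.P_injective hab
  exact Subalgebra.inclusion_injective (algebra_le_realAlg I) h1

theorem latHom_Tel {p : ℕ} (hp : p.Prime) (hpM : ¬ p ∣ M) (hpS : p ∉ (↑S : Set ℕ)) :
    latHom I (H.Tel (↑S : Set ℕ) hp hpM hpS) = I.uT p := by
  rw [latHom_apply]
  exact real_eq I.P I.P_surjective _ (I.realises_T p hp hpM hpS)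

theorem latHom_Del (d : (ZMod M)ˣ) : latHom I (H.Del (↑S : Set ℕ) d) = I.uD d := by
  rw [latHom_apply]
  exact real_eq I.P I.P_surjective _ (I.realises_D d)

/-- the action of the Hecke algebra on `Hom(Q, B)`, by precomposition. -/
noncomputable def homAct (B : Type) [AddCommGroup B] :
    H.algebra (↑S : Set ℕ) →+* AddMonoid.End (I.Q →+ B) where
  toFun t :=
    { toFun := fun φ => φ.comp (latHom I t).toAddMonoidHom
      map_zero' := rfl
      map_add' := fun _ _ => rfl }
  map_one' := by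
    refine AddMonoidHom.ext fun φ => ?_
    show φ.comp (latHom I 1).toAddMonoidHom = φ
    rw [latHom_one]
    rfl
  map_mul' a b := by
    refine AddMonoidHom.ext fun φ => ?_
    show φ.comp (latHom I (a * b)).toAddMonoidHom
      = (φ.comp (latHom I b).toAddMonoidHom).comp (latHom I a).toAddMonoidHom
    rw [latHom_mul]
    rfl
  map_zero' := by
    refine AddMonoidHom.ext fun φ => ?_
    show φ.comp (latHom I 0).toAddMonoidHom = 0
    rw [map_zero]
    refine AddMonoidHom.ext fun x => ?_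
    show φ ((0 : Module.End ℤ I.Q) x) = 0
    rw [LinearMap.zero_apply, map_zero]
  map_add' a b := by
    refine AddMonoidHom.ext fun φ => ?_
    show φ.comp (latHom I (a + b)).toAddMonoidHom
      = φ.comp (latHom I a).toAddMonoidHom + φ.comp (latHom I b).toAddMonoidHom
    rw [map_add]
    refine AddMonoidHom.ext fun x => ?_
    show φ (latHom I a x + latHom I b x) = _
    rw [map_add]
    rfl

theorem homAct_apply (B : Type) [AddCommGroup B] (t : H.algebra (↑S : Set ℕ))
    (φ : I.Q →+ B) : homAct I B t φ = φ.comp (latHom I t).toAddMonoidHom := rfl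

/-- transport of an endomorphism ring along an additive equivalence. -/
def endConj {X Y : Type*} [AddCommGroup X] [AddCommGroup Y] (e : X ≃+ Y) :
    AddMonoid.End Y →+* AddMonoid.End X where
  toFun f := (e.symm.toAddMonoidHom.comp f).comp e.toAddMonoidHom
  map_one' := by
    refine AddMonoidHom.ext fun x => ?_
    show e.symm (e x) = x
    exact e.symm_apply_apply x
  map_mul' f g := by
    refine AddMonoidHom.ext fun x => ?_
    show e.symm (f (g (e x))) = e.symm (f (e (e.symm (g (e x)))))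
    rw [e.apply_symm_apply]
  map_zero' := by
    refine AddMonoidHom.ext fun x => ?_
    show e.symm ((0 : AddMonoid.End Y) (e x)) = 0
    exact map_zero e.symm
  map_add' f g := by
    refine AddMonoidHom.ext fun x => ?_
    show e.symm (f (e x) + g (e x)) = e.symm (f (e x)) + e.symm (g (e x))
    exact map_add e.symm _ _

theorem endConj_apply {X Y : Type*} [AddCommGroup X] [AddCommGroup Y] (e : X ≃+ Y)
    (f : AddMonoid.End Y) (x : X) : endConj e f x = e.symm (f (e x)) := rfl

/-- the Hecke action on the `ℓ ^ n`-torsion. -/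
noncomputable def heckeTors (n : ℕ) :
    H.algebra (↑S : Set ℕ) →+* AddMonoid.End (tors I.J (ℓ ^ n)) :=
  (endConj (I.xi n)).comp (homAct I (ZMod (ℓ ^ n)))

theorem xi_heckeTors (n : ℕ) (t : H.algebra (↑S : Set ℕ)) (x : tors I.J (ℓ ^ n)) :
    I.xi n (heckeTors I n t x) = (I.xi n x).comp (latHom I t).toAddMonoidHom := by
  show (I.xi n) ((I.xi n).symm _) = _
  rw [AddEquiv.apply_symm_apply]
  rfl

/-- the generator `T_p` acts on the torsion as the Hecke correspondence. -/
theorem heckeTors_Tel (n : ℕ) {p : ℕ} (hp : p.Prime) (hpM : ¬ p ∣ M) (hpS : p ∉ (↑S : Set ℕ))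
    (x : tors I.J (ℓ ^ n)) :
    ((heckeTors I n (H.Tel (↑S : Set ℕ) hp hpM hpS) x : tors I.J (ℓ ^ n)) : I.J) = I.TJ p x := by
  have key : heckeTors I n (H.Tel (↑S : Set ℕ) hp hpM hpS) x
      = ⟨I.TJ p x, map_mem_tors (I.TJ p) x.2⟩ := by
    apply (I.xi n).injective
    rw [xi_heckeTors, latHom_Tel, I.xi_T n p hp hpM hpS x]
  rw [key]

/-- the generator `⟨d⟩` acts on the torsion as the diamond automorphism. -/
theorem heckeTors_Del (n : ℕ) (d : (ZMod M)ˣ) (x : tors I.J (ℓ ^ n)) :
    ((heckeTors I n (H.Del (↑S : Set ℕ) d) x : tors I.J (ℓ ^ n)) : I.J) = I.DJ d x := by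
  have key : heckeTors I n (H.Del (↑S : Set ℕ) d) x
      = ⟨I.DJ d x, map_mem_tors (I.DJ d) x.2⟩ := by
    apply (I.xi n).injective
    rw [xi_heckeTors, latHom_Del, I.xi_D n d x]
  rw [key]

/-- the Galois action on the torsion. -/
noncomputable def galTors (n : ℕ) : Γℚ →* AddMonoid.End (tors I.J (ℓ ^ n)) where
  toFun σ := ((I.galJ σ).comp (tors I.J (ℓ ^ n)).subtype).codRestrict (tors I.J (ℓ ^ n))
    fun x => map_mem_tors (I.galJ σ) x.2
  map_one' := by
    refine AddMonoidHom.ext fun x => Subtype.ext ?_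
    show I.galJ 1 (x : I.J) = x
    rw [map_one]
    rfl
  map_mul' σ τ := by
    refine AddMonoidHom.ext fun x => Subtype.ext ?_
    show I.galJ (σ * τ) (x : I.J) = I.galJ σ (I.galJ τ x)
    rw [map_mul]
    rfl

theorem coe_galTors (n : ℕ) (σ : Γℚ) (x : tors I.J (ℓ ^ n)) :
    ((galTors I n σ x : tors I.J (ℓ ^ n)) : I.J) = I.galJ σ x := rfl

/-- the subring of Hecke operators commuting with a given endomorphism of the torsion. -/
noncomputable def commAlg (n : ℕ) (g : AddMonoid.End (tors I.J (ℓ ^ n))) :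
    Subalgebra ℤ (H.algebra (↑S : Set ℕ)) where
  carrier := {t | Commute g (heckeTors I n t)}
  mul_mem' := by
    intro a b ha hb
    show Commute g (heckeTors I n (a * b))
    rw [map_mul]
    exact Commute.mul_right ha hb
  add_mem' := by
    intro a b ha hb
    show Commute g (heckeTors I n (a + b))
    rw [map_add]
    exact Commute.add_right ha hb
  algebraMap_mem' k := by
    show Commute g (heckeTors I n (algebraMap ℤ _ k))
    rw [eq_intCast, map_intCast]
    exact Int.commute_cast _ k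

/-- Galois commutes with the Hecke action on the torsion. -/
theorem commute_galTors_heckeTors (n : ℕ) (σ : Γℚ) (t : H.algebra (↑S : Set ℕ)) :
    Commute (galTors I n σ) (heckeTors I n t) := by
  have htop : Algebra.adjoin ℤ
      ((↑) ⁻¹' H.generators (↑S : Set ℕ) :
        Set (Algebra.adjoin ℤ (H.generators (↑S : Set ℕ)))) = ⊤ :=
    Algebra.adjoin_adjoin_coe_preimage
  have hle : Algebra.adjoin ℤ
      ((↑) ⁻¹' H.generators (↑S : Set ℕ) :
        Set (Algebra.adjoin ℤ (H.generators (↑S : Set ℕ))))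
      ≤ commAlg I n (galTors I n σ) := by
    refine Algebra.adjoin_le ?_
    rintro ⟨T, hT⟩ hmem
    rcases hmem with ⟨p, hp, hpM, hpS, rfl⟩ | ⟨d, rfl⟩
    · refine DFunLike.ext _ _ fun x => Subtype.ext ?_
      show ((galTors I n σ (heckeTors I n (H.Tel (↑S : Set ℕ) hp hpM hpS) x) :
          tors I.J (ℓ ^ n)) : I.J)
        = ((heckeTors I n (H.Tel (↑S : Set ℕ) hp hpM hpS) (galTors I n σ x) :
          tors I.J (ℓ ^ n)) : I.J)
      rw [coe_galTors, heckeTors_Tel, heckeTors_Tel, coe_galTors]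
      exact I.gal_T σ p hp hpM hpS x
    · refine DFunLike.ext _ _ fun x => Subtype.ext ?_
      show ((galTors I n σ (heckeTors I n (H.Del (↑S : Set ℕ) d) x) :
          tors I.J (ℓ ^ n)) : I.J)
        = ((heckeTors I n (H.Del (↑S : Set ℕ) d) (galTors I n σ x) :
          tors I.J (ℓ ^ n)) : I.J)
      rw [coe_galTors, heckeTors_Del, heckeTors_Del, coe_galTors]
      exact I.gal_D σ d x
  have : t ∈ commAlg I n (galTors I n σ) := hle (htop ▸ Algebra.mem_top)
  exact this

/-- `ℓ`-adic faithfulness of the Hecke action on the torsion. -/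
theorem exists_faithful (hℓ : ℓ.Prime) :
    ∃ c0 : ℕ, ∀ (y : H.algebra (↑S : Set ℕ)) (n : ℕ),
      heckeTors I (n + c0) y = 0 → ∃ y' : H.algebra (↑S : Set ℕ), y = ((ℓ : ℤ) ^ n) • y' := by
  obtain ⟨c0, hc0⟩ := exists_padic_faithful (latHom I) (latHom_injective I) ℓ hℓ
  refine ⟨c0, fun y n hy => ?_⟩
  have hkill : ∀ φ : I.Q →+ ZMod (ℓ ^ (n + c0)), φ.comp (latHom I y).toAddMonoidHom = 0 := by
    intro φ
    have h1 := DFunLike.congr_fun hy ((I.xi (n + c0)).symm φ)
    have h2 := xi_heckeTors I (n + c0) y ((I.xi (n + c0)).symm φ)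
    rw [AddEquiv.apply_symm_apply] at h2
    rw [← h2, h1]
    exact map_zero _
  obtain ⟨u', hu'⟩ := exists_eq_smul_of_comp_eq_zero (pow_pos hℓ.pos _).ne' (latHom I y) hkill
  refine hc0 y n u' ?_
  rw [hu']
  push_cast
  rfl

/-- a quadratic relation in an endomorphism ring, checked pointwise. -/
theorem end_relation_of_pointwise {X : Type*} [AddCommGroup X] (a b d : AddMonoid.End X) (p : ℕ)
    (h : ∀ x, a (a x) - b (a x) + p • d x = 0) :
    a * a - b * a + (p : AddMonoid.End X) * d = 0 := by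
  refine DFunLike.ext _ _ fun x => ?_
  have e1 : (a * a - b * a + (p : AddMonoid.End X) * d) x = a (a x) - b (a x) + p • d x := by
    show a (a x) - b (a x) + (p : AddMonoid.End X) (d x) = _
    rw [AddMonoid.End.natCast_apply]
  rw [e1, h]
  rfl

/-- the Eichler-Shimura relation in operator form. -/
theorem es_tors (n : ℕ) {p : ℕ} (hp : p.Prime) (hpM : ¬ p ∣ M) (hpS : p ∉ (↑S : Set ℕ))
    (A : ValuationSubring Qb) (hA : A.LiesOverPrime p) (σ : Γℚ) (hσ : A.IsFrobeniusAt σ p) :
    galTors I n σ * galTors I n σ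
      - heckeTors I n (H.Tel (↑S : Set ℕ) hp hpM hpS) * galTors I n σ
      + (p : AddMonoid.End (tors I.J (ℓ ^ n))) *
        heckeTors I n (H.Del (↑S : Set ℕ)
          (if I.diamInv then (unitOfPrime hp hpM)⁻¹ else unitOfPrime hp hpM)) = 0 := by
  refine end_relation_of_pointwise _ _ _ _ fun x => Subtype.ext ?_
  have h0 := I.eichlerShimura n p hp hpM hpS A hA σ hσ x x.2
  rw [AddSubgroup.coe_add, AddSubgroup.coe_sub, AddSubgroup.coe_nsmul, heckeTors_Tel,
    heckeTors_Del, coe_galTors, coe_galTors]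
  exact h0

theorem finite_tors (hℓ : ℓ.Prime) (n : ℕ) : Finite (tors I.J (ℓ ^ n)) := by
  have : NeZero (ℓ ^ n) := ⟨(pow_pos hℓ.pos n).ne'⟩
  have hfin : Finite (I.Q →+ ZMod (ℓ ^ n)) := by
    let b := Module.Free.chooseBasis ℤ I.Q
    have : Finite (Module.Free.ChooseBasisIndex ℤ I.Q) := Finite.of_fintype _
    refine Finite.of_injective
      (fun φ : I.Q →+ ZMod (ℓ ^ n) => fun i => φ (b i)) ?_
    intro φ ψ h
    have h' : φ.toIntLinearMap = ψ.toIntLinearMap := b.ext fun i => congrFun h i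
    exact AddMonoidHom.ext fun x => LinearMap.congr_fun h' x
  exact Finite.of_equiv _ (I.xi n).symm.toEquiv

/-- uniform finite level of the Galois action on the torsion. -/
theorem galTors_level (hℓ : ℓ.Prime) (n : ℕ) :
    ∃ L : IntermediateField ℚ Qb, FiniteDimensional ℚ L ∧
      ∀ σ : Γℚ, (∀ x ∈ L, σ x = x) → galTors I n σ = 1 := by
  have := finite_tors I hℓ n
  have hpt : ∀ x : tors I.J (ℓ ^ n), ∃ L : IntermediateField ℚ Qb, FiniteDimensional ℚ L ∧
      ∀ σ : Γℚ, (∀ a ∈ L, σ a = a) → I.galJ σ (x : I.J) = x := fun x =>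
    I.gal_level n x x.2
  choose K hK hKx using hpt
  refine ⟨⨆ x, K x, ?_, fun σ hσ => ?_⟩
  · have : ∀ x, FiniteDimensional ℚ (K x) := hK
    exact IntermediateField.finiteDimensional_iSup_of_finite
  · refine DFunLike.ext _ _ fun x => Subtype.ext ?_
    show I.galJ σ (x : I.J) = x
    exact hKx x σ fun a ha => hσ a ((le_iSup K x) ha)

end Action

/-! ### The export -/

section Export

variable {M : ℕ} [NeZero M] {H : HeckeOps1 M 2} {ℓ : ℕ} {S : Finset ℕ}

/-- **The G1 export**: the torsion of the Jacobian with its Galois and Hecke actions, in the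
shape consumed by `DS2`. -/
noncomputable def torsionHeckeData1 (I : ExportInputs H ℓ S) (hℓ : ℓ.Prime) :
    TorsionHeckeData1 H ℓ S :=
  letI := algebraCommRing H S
  { TT := H.algebra (↑S : Set ℕ)
    Tel := telOf H S
    Del := delHom H S
    toForms := (H.algebra (↑S : Set ℕ)).val.toRingHom
    toForms_Tel := fun p hp hpM hpS => by
      rw [telOf_eq H S hp hpM hpS]
      rfl
    toForms_Del := fun d => rfl
    generated := closure_generators_eq_top H S
    Mod := fun n => tors I.J (ℓ ^ n)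
    instFinite := finite_tors I hℓ
    pow_smul := fun n x => Subtype.ext (by
      rw [AddSubgroup.coe_nsmul]
      exact x.2)
    gal := galTors I
    gal_level := galTors_level I hℓ
    hecke := heckeTors I
    comm := commute_galTors_heckeTors I
    diamInv := I.diamInv
    eichlerShimura := fun n p hp hpM hpS A hA σ hσ => by
      have h := es_tors I n hp hpM hpS A hA σ hσ
      rw [telOf_eq H S hp hpM hpS]
      exact h
    unram := fun n q hq hqS A hA τ hτ => by
      refine DFunLike.ext _ _ fun x => Subtype.ext ?_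
      show I.galJ τ (x : I.J) = x
      exact I.unram n q hq hqS A hA τ hτ x x.2
    faithful := exists_faithful I hℓ }

end Export

end Fermat.Agent.S48x.G1.Export
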