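/-
P-S48 (Deligne-Serre), G1 export, LATTICE VARIANT (task 357, helper3; requested by helper52).

The consumer structure `DS2.TorsionHeckeData1` (helper52, `S48x/DS2/Contract.lean`) from an
abstract producer contract `LatticeInputs` in which the period map is only INJECTIVE and
EQUIVARIANT (no surjectivity, hence no dimension formula for `S₂(Γ₁(M))`):

* a lattice `Q` (free of finite rank) with commuting endomorphisms `uT p`, `uD d`
  (`uD` multiplicative),
* an injective additive map `P : S₂(Γ₁(M)) → Hom(Q, ℂ)` with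
  `P (T_p f) = P f ∘ uT p`, `P (⟨d⟩ f) = P f ∘ uD d`,
* an abelian group `J` with a Galois action, endomorphisms `TJ p`, `DJ d`, and isomorphisms
  `xi n : J[ℓ ^ n] ≃ Hom(Q, ℤ/ℓ ^ n)` compatible with these,
* Galois equivariance of `TJ`, `DJ`, finite level, the Eichler-Shimura relation and
  unramifiedness on the torsion points.

The Hecke ring is `TT =` the subring of `End_ℤ(Q)` generated by the `uT p` (`p ∤ M`, `p ∉ S`) and
the `uD d`.  It acts on cusp forms through `toForms t =` the unique endomorphism `s` of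
`S₂(Γ₁(M))` with `P (s f) = P f ∘ t`.  Faithfulness is by saturation
(`Gateway/Export/Lattice.exists_padic_faithful`).
-/
import Mathlib
import Fermat.Agent.S48x.G1.ExportAbstract

set_option autoImplicit false

open CongruenceSubgroup
open scoped MatrixGroups ModularForm

namespace Fermat.Agent.S48x.G1.ExportL

open Fermat.Agent.Gateway.Export Fermat.Agent.S48x.DS2 Fermat.Agent.S48x.G1.Export

local notation "Γℚ" => (AlgebraicClosure ℚ ≃ₐ[ℚ] AlgebraicClosure ℚ)
local notation "Qb" => AlgebraicClosure ℚ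

/-- **The producer contract of the `Γ₁`-gateway, lattice variant.** -/
structure LatticeInputs {M : ℕ} [NeZero M] (H : HeckeOps1 M 2) (ℓ : ℕ) (S : Finset ℕ) :
    Type 1 where
  /-- the lattice (first homology of the compact curve) -/
  Q : Type
  [instQ : AddCommGroup Q]
  [freeQ : Module.Free ℤ Q]
  [finiteQ : Module.Finite ℤ Q]
  /-- the period map (only injective) -/
  P : CuspForm (Gamma1 M) 2 →+ (Q →+ ℂ)
  P_injective : Function.Injective P
  /-- the Hecke operators on the lattice -/
  uT : ℕ → Module.End ℤ Q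
  /-- the diamond operators on the lattice -/
  uD : (ZMod M)ˣ → Module.End ℤ Q
  uD_one : uD 1 = 1
  uD_mul : ∀ d e : (ZMod M)ˣ, uD (d * e) = uD d * uD e
  comm_T_T : ∀ p q : ℕ, p.Prime → ¬ p ∣ M → p ∉ S → q.Prime → ¬ q ∣ M → q ∉ S →
    Commute (uT p) (uT q)
  comm_T_D : ∀ (p : ℕ) (d : (ZMod M)ˣ), p.Prime → ¬ p ∣ M → p ∉ S → Commute (uT p) (uD d)
  P_T : ∀ p : ℕ, p.Prime → ¬ p ∣ M → p ∉ S → ∀ f : CuspForm (Gamma1 M) 2,
    P (H.T p f) = (P f).comp (uT p).toAddMonoidHom
  P_D : ∀ (d : (ZMod M)ˣ) (f : CuspForm (Gamma1 M) 2),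
    P (H.diam d f) = (P f).comp (uD d).toAddMonoidHom
  /-- the group of points of the Jacobian -/
  J : Type
  [instJ : AddCommGroup J]
  /-- the Galois action -/
  galJ : Γℚ →* AddMonoid.End J
  /-- the Hecke correspondences -/
  TJ : ℕ → J →+ J
  /-- the diamond automorphisms -/
  DJ : (ZMod M)ˣ → J →+ J
  /-- torsion `=` `Hom(Q, ℤ/ℓ ^ n)` -/
  xi : ∀ n : ℕ, tors J (ℓ ^ n) ≃+ (Q →+ ZMod (ℓ ^ n))
  xi_T : ∀ (n p : ℕ), p.Prime → ¬ p ∣ M → p ∉ S → ∀ x : tors J (ℓ ^ n),
    xi n ⟨TJ p x, map_mem_tors (TJ p) x.2⟩ = (xi n x).comp (uT p).toAddMonoidHom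
  xi_D : ∀ (n : ℕ) (d : (ZMod M)ˣ) (x : tors J (ℓ ^ n)),
    xi n ⟨DJ d x, map_mem_tors (DJ d) x.2⟩ = (xi n x).comp (uD d).toAddMonoidHom
  gal_T : ∀ (σ : Γℚ) (p : ℕ), p.Prime → ¬ p ∣ M → p ∉ S → ∀ x : J,
    galJ σ (TJ p x) = TJ p (galJ σ x)
  gal_D : ∀ (σ : Γℚ) (d : (ZMod M)ˣ) (x : J), galJ σ (DJ d x) = DJ d (galJ σ x)
  gal_level : ∀ (n : ℕ) (x : J), ℓ ^ n • x = 0 →
    ∃ L : IntermediateField ℚ Qb, FiniteDimensional ℚ L ∧
      ∀ σ : Γℚ, (∀ a ∈ L, σ a = a) → galJ σ x = x
  /-- the normalisation of the Eichler-Shimura relation -/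
  diamInv : Bool
  eichlerShimura : ∀ (n p : ℕ) (hp : p.Prime) (hpM : ¬ p ∣ M), p ∉ S →
    ∀ A : ValuationSubring Qb, A.LiesOverPrime p → ∀ σ : Γℚ, A.IsFrobeniusAt σ p →
    ∀ x : J, ℓ ^ n • x = 0 →
      galJ σ (galJ σ x) - TJ p (galJ σ x)
        + p • DJ (if diamInv then (unitOfPrime hp hpM)⁻¹ else unitOfPrime hp hpM) x = 0
  unram : ∀ (n q : ℕ), q.Prime → q ∉ S → ∀ A : ValuationSubring Qb, A.LiesOverPrime q →
    ∀ τ ∈ A.inertiaSubgroupIn ℚ, ∀ x : J, ℓ ^ n • x = 0 → galJ τ x = x

attribute [instance] LatticeInputs.instQ LatticeInputs.freeQ LatticeInputs.finiteQ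
  LatticeInputs.instJ

variable {M : ℕ} [NeZero M] {H : HeckeOps1 M 2} {ℓ : ℕ} {S : Finset ℕ}

/-! ### The Hecke ring -/

section Ring

variable (I : LatticeInputs H ℓ S)

/-- the generators of the Hecke ring on the lattice. -/
def gens : Set (Module.End ℤ I.Q) :=
  {t | ∃ p : ℕ, p.Prime ∧ ¬ p ∣ M ∧ p ∉ S ∧ t = I.uT p} ∪ Set.range I.uD

theorem gens_commute : ∀ a ∈ gens I, ∀ b ∈ gens I, a * b = b * a := by
  rintro a (⟨p, hp, hpM, hpS, rfl⟩ | ⟨d, rfl⟩) b (⟨q, hq, hqM, hqS, rfl⟩ | ⟨e, rfl⟩)
  · exact (I.comm_T_T p q hp hpM hpS hq hqM hqS).eq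
  · exact (I.comm_T_D p e hp hpM hpS).eq
  · exact (I.comm_T_D q d hq hqM hqS).eq.symm
  · rw [← I.uD_mul, ← I.uD_mul, mul_comm]

/-- the Hecke ring: the subring of `End_ℤ(Q)` generated by the `uT p` and the `uD d`. -/
def heckeRing : Subring (Module.End ℤ I.Q) := Subring.closure (gens I)

/-- the Hecke ring is commutative. -/
@[instance_reducible] noncomputable def heckeCommRing : CommRing (heckeRing I) :=
  { (inferInstance : Ring (heckeRing I)) with
    mul_comm := fun a b =>
      (Subring.isMulCommutative_closure (gens_commute I)).is_comm.comm a b }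

theorem heckeRing_mul_comm (a b : heckeRing I) : a * b = b * a :=
  (Subring.isMulCommutative_closure (gens_commute I)).is_comm.comm a b

/-- `T_p` as an element of the Hecke ring (zero if `p` is not an admissible prime). -/
noncomputable def telOf (p : ℕ) : heckeRing I := by
  classical
  exact if h : p.Prime ∧ ¬ p ∣ M ∧ p ∉ S then
    ⟨I.uT p, Subring.subset_closure (Or.inl ⟨p, h.1, h.2.1, h.2.2, rfl⟩)⟩ else 0

theorem coe_telOf {p : ℕ} (hp : p.Prime) (hpM : ¬ p ∣ M) (hpS : p ∉ S) :
    ((telOf I p : heckeRing I) : Module.End ℤ I.Q) = I.uT p := by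
  unfold telOf
  rw [dif_pos ⟨hp, hpM, hpS⟩]

/-- the diamond operators as a monoid homomorphism into the Hecke ring. -/
noncomputable def delHom : (ZMod M)ˣ →* heckeRing I where
  toFun d := ⟨I.uD d, Subring.subset_closure (Or.inr ⟨d, rfl⟩)⟩
  map_one' := Subtype.ext I.uD_one
  map_mul' d e := Subtype.ext (I.uD_mul d e)

theorem coe_delHom (d : (ZMod M)ˣ) :
    ((delHom I d : heckeRing I) : Module.End ℤ I.Q) = I.uD d := rfl

theorem closure_generators_eq_top :
    Subring.closure ({t : heckeRing I | ∃ p : ℕ, p.Prime ∧ ¬ p ∣ M ∧ p ∉ S ∧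
      t = telOf I p} ∪ Set.range (delHom I)) = ⊤ := by
  rw [eq_top_iff]
  rintro ⟨t, ht⟩ -
  induction ht using Subring.closure_induction with
  | mem x hx =>
    apply Subring.subset_closure
    rcases hx with ⟨p, hp, hpM, hpS, rfl⟩ | ⟨d, rfl⟩
    · exact Or.inl ⟨p, hp, hpM, hpS, Subtype.ext (coe_telOf I hp hpM hpS).symm⟩
    · exact Or.inr ⟨d, rfl⟩
  | zero => exact zero_mem _
  | one => exact one_mem _
  | add x y hx hy hx' hy' =>
    have h0 : (⟨x + y, add_mem hx hy⟩ : heckeRing I) = ⟨x, hx⟩ + ⟨y, hy⟩ := rfl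
    rw [h0]
    exact add_mem hx' hy'
  | neg x hx hx' =>
    have h0 : (⟨-x, neg_mem hx⟩ : heckeRing I) = -⟨x, hx⟩ := rfl
    rw [h0]
    exact neg_mem hx'
  | mul x y hx hy hx' hy' =>
    have h0 : (⟨x * y, mul_mem hx hy⟩ : heckeRing I) = ⟨x, hx⟩ * ⟨y, hy⟩ := rfl
    rw [h0]
    exact mul_mem hx' hy'

end Ring

/-! ### The action on cusp forms -/

section Forms

variable (I : LatticeInputs H ℓ S)

/-- the endomorphism `s` of cusp forms lifts the lattice endomorphism `t` along `P`. -/
def Lifts (t : Module.End ℤ I.Q) (s : Module.End ℂ (CuspForm (Gamma1 M) 2)) : Prop :=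
  ∀ f, I.P (s f) = (I.P f).comp t.toAddMonoidHom

theorem Lifts.unique {t : Module.End ℤ I.Q} {s s' : Module.End ℂ (CuspForm (Gamma1 M) 2)}
    (h : Lifts I t s) (h' : Lifts I t s') : s = s' :=
  LinearMap.ext fun f => I.P_injective (by rw [h f, h' f])

theorem Lifts.add {t t' : Module.End ℤ I.Q} {s s' : Module.End ℂ (CuspForm (Gamma1 M) 2)}
    (h : Lifts I t s) (h' : Lifts I t' s') : Lifts I (t + t') (s + s') := by
  intro f
  rw [LinearMap.add_apply, map_add, h f, h' f]
  refine AddMonoidHom.ext fun x => ?_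
  show (I.P f) (t x) + (I.P f) (t' x) = (I.P f) (t x + t' x)
  rw [map_add]

theorem Lifts.neg {t : Module.End ℤ I.Q} {s : Module.End ℂ (CuspForm (Gamma1 M) 2)}
    (h : Lifts I t s) : Lifts I (-t) (-s) := by
  intro f
  rw [LinearMap.neg_apply, map_neg, h f]
  refine AddMonoidHom.ext fun x => ?_
  show -((I.P f) (t x)) = (I.P f) (-(t x))
  rw [map_neg]

theorem Lifts.zero : Lifts I 0 0 := by
  intro f
  rw [LinearMap.zero_apply, map_zero]
  refine AddMonoidHom.ext fun x => ?_
  show (0 : ℂ) = (I.P f) ((0 : Module.End ℤ I.Q) x)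
  rw [LinearMap.zero_apply, map_zero]

theorem Lifts.one : Lifts I 1 1 := by
  intro f
  rfl

/-- lifting is anti-multiplicative. -/
theorem Lifts.mul {t t' : Module.End ℤ I.Q} {s s' : Module.End ℂ (CuspForm (Gamma1 M) 2)}
    (h : Lifts I t s) (h' : Lifts I t' s') : Lifts I (t * t') (s' * s) := by
  intro f
  have h1 : (s' * s) f = s' (s f) := rfl
  rw [h1, h' (s f), h f]
  rfl

/-- the subring of liftable endomorphisms of the lattice. -/
def liftRing : Subring (Module.End ℤ I.Q) where
  carrier := {t | ∃ s, Lifts I t s}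
  mul_mem' := by
    rintro a b ⟨sa, ha⟩ ⟨sb, hb⟩
    exact ⟨_, ha.mul I hb⟩
  one_mem' := ⟨1, Lifts.one I⟩
  add_mem' := by
    rintro a b ⟨sa, ha⟩ ⟨sb, hb⟩
    exact ⟨_, ha.add I hb⟩
  zero_mem' := ⟨0, Lifts.zero I⟩
  neg_mem' := by
    rintro a ⟨sa, ha⟩
    exact ⟨_, ha.neg I⟩

theorem heckeRing_le_liftRing : heckeRing I ≤ liftRing I := by
  refine Subring.closure_le.mpr ?_
  rintro t (⟨p, hp, hpM, hpS, rfl⟩ | ⟨d, rfl⟩)
  · exact ⟨H.T p, I.P_T p hp hpM hpS⟩
  · exact ⟨H.diam d, I.P_D d⟩

/-- the lift of an element of the Hecke ring to cusp forms. -/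
noncomputable def lift (t : heckeRing I) : Module.End ℂ (CuspForm (Gamma1 M) 2) :=
  (heckeRing_le_liftRing I t.2).choose

theorem lifts_lift (t : heckeRing I) : Lifts I (t : Module.End ℤ I.Q) (lift I t) :=
  (heckeRing_le_liftRing I t.2).choose_spec

theorem lift_eq (t : heckeRing I) {s : Module.End ℂ (CuspForm (Gamma1 M) 2)}
    (h : Lifts I (t : Module.End ℤ I.Q) s) : lift I t = s :=
  (lifts_lift I t).unique I h

/-- the action of the Hecke ring on cusp forms. -/
noncomputable def toForms :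
    letI := heckeCommRing I
    heckeRing I →+* Module.End ℂ (CuspForm (Gamma1 M) 2) :=
  letI := heckeCommRing I
  { toFun := lift I
    map_one' := lift_eq I 1 (Lifts.one I)
    map_mul' := fun a b => by
      refine lift_eq I (a * b) ?_
      have h := (lifts_lift I b).mul I (lifts_lift I a)
      have h2 : ((a * b : heckeRing I) : Module.End ℤ I.Q)
          = (b : Module.End ℤ I.Q) * (a : Module.End ℤ I.Q) := by
        rw [heckeRing_mul_comm I a b]
        rfl
      rw [h2]
      exact h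
    map_zero' := lift_eq I 0 (Lifts.zero I)
    map_add' := fun a b => lift_eq I (a + b) ((lifts_lift I a).add I (lifts_lift I b)) }

theorem toForms_telOf {p : ℕ} (hp : p.Prime) (hpM : ¬ p ∣ M) (hpS : p ∉ S) :
    lift I (telOf I p) = H.T p := by
  refine lift_eq I _ ?_
  rw [coe_telOf I hp hpM hpS]
  exact I.P_T p hp hpM hpS

theorem toForms_delHom (d : (ZMod M)ˣ) : lift I (delHom I d) = H.diam d :=
  lift_eq I _ (I.P_D d)

end Forms

/-! ### The Hecke action on the torsion -/

section Action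

variable (I : LatticeInputs H ℓ S)

/-- the action of the Hecke ring on `Hom(Q, B)`, by precomposition. -/
noncomputable def homAct (B : Type) [AddCommGroup B] :
    letI := heckeCommRing I
    heckeRing I →+* AddMonoid.End (I.Q →+ B) :=
  letI := heckeCommRing I
  { toFun := fun t =>
      { toFun := fun φ => φ.comp (t : Module.End ℤ I.Q).toAddMonoidHom
        map_zero' := rfl
        map_add' := fun _ _ => rfl }
    map_one' := by
      refine AddMonoidHom.ext fun φ => ?_
      rfl
    map_mul' := fun a b => by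
      refine AddMonoidHom.ext fun φ => ?_
      show φ.comp ((a * b : heckeRing I) : Module.End ℤ I.Q).toAddMonoidHom
        = (φ.comp (b : Module.End ℤ I.Q).toAddMonoidHom).comp
          (a : Module.End ℤ I.Q).toAddMonoidHom
      rw [heckeRing_mul_comm I a b]
      rfl
    map_zero' := by
      refine AddMonoidHom.ext fun φ => ?_
      refine AddMonoidHom.ext fun x => ?_
      show φ ((0 : Module.End ℤ I.Q) x) = 0
      rw [LinearMap.zero_apply, map_zero]
    map_add' := fun a b => by
      refine AddMonoidHom.ext fun φ => ?_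
      refine AddMonoidHom.ext fun x => ?_
      show φ ((a : Module.End ℤ I.Q) x + (b : Module.End ℤ I.Q) x) = _
      rw [map_add]
      rfl }

theorem homAct_apply (B : Type) [AddCommGroup B] (t : heckeRing I) (φ : I.Q →+ B) :
    homAct I B t φ = φ.comp (t : Module.End ℤ I.Q).toAddMonoidHom := rfl

/-- the Hecke action on the `ℓ ^ n`-torsion. -/
noncomputable def heckeTors (n : ℕ) :
    letI := heckeCommRing I
    heckeRing I →+* AddMonoid.End (tors I.J (ℓ ^ n)) :=
  letI := heckeCommRing I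
  (endConj (I.xi n)).comp (homAct I (ZMod (ℓ ^ n)))

theorem xi_heckeTors (n : ℕ) (t : heckeRing I) (x : tors I.J (ℓ ^ n)) :
    I.xi n (heckeTors I n t x) = (I.xi n x).comp (t : Module.End ℤ I.Q).toAddMonoidHom := by
  show (I.xi n) ((I.xi n).symm _) = _
  rw [AddEquiv.apply_symm_apply]
  rfl

/-- the generator `T_p` acts on the torsion as the Hecke correspondence. -/
theorem heckeTors_telOf (n : ℕ) {p : ℕ} (hp : p.Prime) (hpM : ¬ p ∣ M) (hpS : p ∉ S)
    (x : tors I.J (ℓ ^ n)) :
    ((heckeTors I n (telOf I p) x : tors I.J (ℓ ^ n)) : I.J) = I.TJ p x := by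
  have key : heckeTors I n (telOf I p) x = ⟨I.TJ p x, map_mem_tors (I.TJ p) x.2⟩ := by
    apply (I.xi n).injective
    rw [xi_heckeTors, coe_telOf I hp hpM hpS, I.xi_T n p hp hpM hpS x]
  rw [key]

/-- the generator `⟨d⟩` acts on the torsion as the diamond automorphism. -/
theorem heckeTors_delHom (n : ℕ) (d : (ZMod M)ˣ) (x : tors I.J (ℓ ^ n)) :
    ((heckeTors I n (delHom I d) x : tors I.J (ℓ ^ n)) : I.J) = I.DJ d x := by
  have key : heckeTors I n (delHom I d) x = ⟨I.DJ d x, map_mem_tors (I.DJ d) x.2⟩ := by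
    apply (I.xi n).injective
    rw [xi_heckeTors, coe_delHom, I.xi_D n d x]
  rw [key]

/-- the Galois action on the torsion. -/
noncomputable def galTors (n : ℕ) : Γℚ →* AddMonoid.End (tors I.J (ℓ ^ n)) where
  toFun σ := ((I.galJ σ).comp (tors I.J (ℓ ^ n)).subtype).codRestrict (tors I.J (ℓ ^ n))
    fun x => map_mem_tors (I.galJ σ) x.2
  map_one' := by
    refine AddMonoidHom.ext fun x => Subtype.ext ?_
    show I.galJ 1 (x : I.J) = x
    rw [map_one]
    rfl
  map_mul' σ τ := by
    refine AddMonoidHom.ext fun x => Subtype.ext ?_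
    show I.galJ (σ * τ) (x : I.J) = I.galJ σ (I.galJ τ x)
    rw [map_mul]
    rfl

theorem coe_galTors (n : ℕ) (σ : Γℚ) (x : tors I.J (ℓ ^ n)) :
    ((galTors I n σ x : tors I.J (ℓ ^ n)) : I.J) = I.galJ σ x := rfl

/-- the subring of Hecke operators commuting with a given endomorphism of the torsion. -/
noncomputable def commRing (n : ℕ) (g : AddMonoid.End (tors I.J (ℓ ^ n))) :
    Subring (heckeRing I) where
  carrier := {t | Commute g (heckeTors I n t)}
  mul_mem' := by
    intro a b ha hb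
    show Commute g (heckeTors I n (a * b))
    have h : heckeTors I n (a * b) = heckeTors I n a * heckeTors I n b :=
      letI := heckeCommRing I
      map_mul (heckeTors I n) a b
    rw [h]
    exact Commute.mul_right ha hb
  one_mem' := by
    show Commute g (heckeTors I n 1)
    have h : heckeTors I n 1 = 1 :=
      letI := heckeCommRing I
      map_one (heckeTors I n)
    rw [h]
    exact Commute.one_right g
  add_mem' := by
    intro a b ha hb
    show Commute g (heckeTors I n (a + b))
    have h : heckeTors I n (a + b) = heckeTors I n a + heckeTors I n b :=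
      letI := heckeCommRing I
      map_add (heckeTors I n) a b
    rw [h]
    exact Commute.add_right ha hb
  zero_mem' := by
    show Commute g (heckeTors I n 0)
    have h : heckeTors I n 0 = 0 :=
      letI := heckeCommRing I
      map_zero (heckeTors I n)
    rw [h]
    exact Commute.zero_right g
  neg_mem' := by
    intro a ha
    show Commute g (heckeTors I n (-a))
    have h : heckeTors I n (-a) = -heckeTors I n a :=
      letI := heckeCommRing I
      map_neg (heckeTors I n) a
    rw [h]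
    exact Commute.neg_right ha

/-- Galois commutes with the Hecke action on the torsion. -/
theorem commute_galTors_heckeTors (n : ℕ) (σ : Γℚ) (t : heckeRing I) :
    Commute (galTors I n σ) (heckeTors I n t) := by
  have hle : Subring.closure ({t : heckeRing I | ∃ p : ℕ, p.Prime ∧ ¬ p ∣ M ∧ p ∉ S ∧
      t = telOf I p} ∪ Set.range (delHom I)) ≤ commRing I n (galTors I n σ) := by
    refine Subring.closure_le.mpr ?_
    rintro T (⟨p, hp, hpM, hpS, rfl⟩ | ⟨d, rfl⟩)
    · refine DFunLike.ext _ _ fun x => Subtype.ext ?_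
      show ((galTors I n σ (heckeTors I n (telOf I p) x) : tors I.J (ℓ ^ n)) : I.J)
        = ((heckeTors I n (telOf I p) (galTors I n σ x) : tors I.J (ℓ ^ n)) : I.J)
      rw [coe_galTors, heckeTors_telOf I n hp hpM hpS, heckeTors_telOf I n hp hpM hpS,
        coe_galTors]
      exact I.gal_T σ p hp hpM hpS x
    · refine DFunLike.ext _ _ fun x => Subtype.ext ?_
      show ((galTors I n σ (heckeTors I n (delHom I d) x) : tors I.J (ℓ ^ n)) : I.J)
        = ((heckeTors I n (delHom I d) (galTors I n σ x) : tors I.J (ℓ ^ n)) : I.J)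
      rw [coe_galTors, heckeTors_delHom, heckeTors_delHom, coe_galTors]
      exact I.gal_D σ d x
  have : t ∈ commRing I n (galTors I n σ) :=
    hle ((closure_generators_eq_top I) ▸ Subring.mem_top t)
  exact this

/-- `ℓ`-adic faithfulness of the Hecke action on the torsion. -/
theorem exists_faithful (hℓ : ℓ.Prime) :
    ∃ c0 : ℕ, ∀ (y : heckeRing I) (n : ℕ),
      heckeTors I (n + c0) y = 0 → ∃ y' : heckeRing I, y = ((ℓ : ℤ) ^ n) • y' := by
  obtain ⟨c0, hc0⟩ := exists_padic_faithful (heckeRing I).subtype.toAddMonoidHom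
    Subtype.val_injective ℓ hℓ
  refine ⟨c0, fun y n hy => ?_⟩
  have hkill : ∀ φ : I.Q →+ ZMod (ℓ ^ (n + c0)),
      φ.comp (y : Module.End ℤ I.Q).toAddMonoidHom = 0 := by
    intro φ
    have h1 := DFunLike.congr_fun hy ((I.xi (n + c0)).symm φ)
    have h2 := xi_heckeTors I (n + c0) y ((I.xi (n + c0)).symm φ)
    rw [AddEquiv.apply_symm_apply] at h2
    rw [← h2, h1]
    exact map_zero _
  obtain ⟨u', hu'⟩ := exists_eq_smul_of_comp_eq_zero (pow_pos hℓ.pos _).ne'
    (y : Module.End ℤ I.Q) hkill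
  refine hc0 y n u' ?_
  show (y : Module.End ℤ I.Q) = _
  rw [hu']
  push_cast
  rfl

/-- the Eichler-Shimura relation in operator form. -/
theorem es_tors (n : ℕ) {p : ℕ} (hp : p.Prime) (hpM : ¬ p ∣ M) (hpS : p ∉ S)
    (A : ValuationSubring Qb) (hA : A.LiesOverPrime p) (σ : Γℚ) (hσ : A.IsFrobeniusAt σ p) :
    galTors I n σ * galTors I n σ
      - heckeTors I n (telOf I p) * galTors I n σ
      + (p : AddMonoid.End (tors I.J (ℓ ^ n))) *
        heckeTors I n (delHom I
          (if I.diamInv then (unitOfPrime hp hpM)⁻¹ else unitOfPrime hp hpM)) = 0 := by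
  refine end_relation_of_pointwise _ _ _ _ fun x => Subtype.ext ?_
  have h0 := I.eichlerShimura n p hp hpM hpS A hA σ hσ x x.2
  rw [AddSubgroup.coe_add, AddSubgroup.coe_sub, AddSubgroup.coe_nsmul,
    heckeTors_telOf I n hp hpM hpS, heckeTors_delHom, coe_galTors, coe_galTors]
  exact h0

theorem finite_tors (hℓ : ℓ.Prime) (n : ℕ) : Finite (tors I.J (ℓ ^ n)) := by
  have : NeZero (ℓ ^ n) := ⟨(pow_pos hℓ.pos n).ne'⟩
  have hfin : Finite (I.Q →+ ZMod (ℓ ^ n)) := by
    let b := Module.Free.chooseBasis ℤ I.Q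
    have : Finite (Module.Free.ChooseBasisIndex ℤ I.Q) := Finite.of_fintype _
    refine Finite.of_injective
      (fun φ : I.Q →+ ZMod (ℓ ^ n) => fun i => φ (b i)) ?_
    intro φ ψ h
    have h' : φ.toIntLinearMap = ψ.toIntLinearMap := b.ext fun i => congrFun h i
    exact AddMonoidHom.ext fun x => LinearMap.congr_fun h' x
  exact Finite.of_equiv _ (I.xi n).symm.toEquiv

/-- uniform finite level of the Galois action on the torsion. -/
theorem galTors_level (hℓ : ℓ.Prime) (n : ℕ) :
    ∃ L : IntermediateField ℚ Qb, FiniteDimensional ℚ L ∧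
      ∀ σ : Γℚ, (∀ x ∈ L, σ x = x) → galTors I n σ = 1 := by
  have := finite_tors I hℓ n
  have hpt : ∀ x : tors I.J (ℓ ^ n), ∃ L : IntermediateField ℚ Qb, FiniteDimensional ℚ L ∧
      ∀ σ : Γℚ, (∀ a ∈ L, σ a = a) → I.galJ σ (x : I.J) = x := fun x =>
    I.gal_level n x x.2
  choose K hK hKx using hpt
  refine ⟨⨆ x, K x, ?_, fun σ hσ => ?_⟩
  · have : ∀ x, FiniteDimensional ℚ (K x) := hK
    exact IntermediateField.finiteDimensional_iSup_of_finite
  · refine DFunLike.ext _ _ fun x => Subtype.ext ?_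
    show I.galJ σ (x : I.J) = x
    exact hKx x σ fun a ha => hσ a ((le_iSup K x) ha)

end Action

/-! ### The export -/

section Export

/-- **The G1 export, lattice variant**: the torsion of the Jacobian with its Galois and Hecke
actions, in the shape consumed by `DS2`; the Hecke ring is the subring of `End_ℤ(Q)` generated by
the Hecke and diamond operators. -/
noncomputable def torsionHeckeData1 (I : LatticeInputs H ℓ S) (hℓ : ℓ.Prime) :
    TorsionHeckeData1 H ℓ S :=
  letI := heckeCommRing I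
  { TT := heckeRing I
    Tel := telOf I
    Del := delHom I
    toForms := toForms I
    toForms_Tel := fun _ hp hpM hpS => toForms_telOf I hp hpM hpS
    toForms_Del := fun d => toForms_delHom I d
    generated := closure_generators_eq_top I
    Mod := fun n => tors I.J (ℓ ^ n)
    instFinite := finite_tors I hℓ
    pow_smul := fun n x => Subtype.ext (by
      rw [AddSubgroup.coe_nsmul]
      exact x.2)
    gal := galTors I
    gal_level := galTors_level I hℓ
    hecke := heckeTors I
    comm := commute_galTors_heckeTors I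
    diamInv := I.diamInv
    eichlerShimura := fun n p hp hpM hpS A hA σ hσ => es_tors I n hp hpM hpS A hA σ hσ
    unram := fun n q hq hqS A hA τ hτ => by
      refine DFunLike.ext _ _ fun x => Subtype.ext ?_
      show I.galJ τ (x : I.J) = x
      exact I.unram n q hq hqS A hA τ hτ x x.2
    faithful := exists_faithful I hℓ }

theorem nonempty_torsionHeckeData1 (hℓ : ℓ.Prime) (h : Nonempty (LatticeInputs H ℓ S)) :
    Nonempty (TorsionHeckeData1 H ℓ S) :=
  h.elim fun I => ⟨torsionHeckeData1 I hℓ⟩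

/-- the normalisation flag is propagated unchanged. -/
@[simp] theorem torsionHeckeData1_diamInv (I : LatticeInputs H ℓ S) (hℓ : ℓ.Prime) :
    (torsionHeckeData1 I hℓ).diamInv = I.diamInv := rfl

/-- the shape consumed by `DS2/MainCore`: a torsion datum with `diamInv = false`. -/
theorem exists_torsionHeckeData1_diamInv_false (hℓ : ℓ.Prime) (I : LatticeInputs H ℓ S)
    (hI : I.diamInv = false) : ∃ D : TorsionHeckeData1 H ℓ S, D.diamInv = false :=
  ⟨torsionHeckeData1 I hℓ, hI⟩

end Export

end Fermat.Agent.S48x.G1.ExportL
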