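/-
P-S48 (Deligne-Serre), G1 final adapter, cohomological half (helper3).

`ExportL.LatticeInputs H ℓ S` (the producer contract of the lattice variant of the G1 export) from

* helper14's instance data `Coh/TT1.lean`: the lattice `QLat1 M = ±Γ₁(M)^ab / ⟨parabolic, elliptic⟩`
  with the commuting endomorphisms `uT M p`, `uD M d` and the injective period map `periodQ1 M`;
* `[Module.Free ℤ (QLat1 M)]` (from the count of layer (a));
* `FormsSide1 H S`: equivariance of `periodMap1` for `H.T p`, `H.diam d` in the shape proved by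
  `CohPeriod1` (against helper4's `heckeHom1`, `diamHom`);
* `JSide1 M ℓ S`: the Jacobian side (Galois action, Hecke correspondences, diamond automorphisms,
  `xi n : J[ℓ ^ n] ≃ Hom(Q, ℤ/ℓ ^ n)`, Eichler-Shimura, unramifiedness), with the compatibility
  of `xi` stated on additive characters of `±Γ₁(M)` (`peRes` form).
-/
import Mathlib
import Fermat.Agent.S48x.G1.ExportLattice
import Fermat.Agent.S48x.Coh.TT1

set_option autoImplicit false

open CongruenceSubgroup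
open scoped MatrixGroups ModularForm

namespace Fermat.Agent.S48x.G1.Final

open Fermat.Agent.Gateway.A2 Fermat.Agent.Gateway.A2.Count
open Fermat.Agent.S48x.DS2 Fermat.Agent.S48x.G1 Fermat.Agent.S48x.G1.Export
  Fermat.Agent.S48x.G1.ExportL Fermat.Agent.S48x.Coh

local notation "Γℚ" => (AlgebraicClosure ℚ ≃ₐ[ℚ] AlgebraicClosure ℚ)
local notation "Qb" => AlgebraicClosure ℚ

/-- **Forms side**: the period map `periodMap1` intertwines the Hecke and diamond operators on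
cusp forms (`H : HeckeOps1 M 2`) with the cohomological operators `heckeHom1`, `diamHom`
(for some twist, resp. some `τ ∈ Γ₀(M)` with lower right entry `± d`). -/
structure FormsSide1 {M : ℕ} [NeZero M] (H : HeckeOps1 M 2) (S : Finset ℕ) : Prop where
  period_T : ∀ (p : ℕ) [Fact p.Prime] (hpM : ¬ p ∣ M), p ∉ S → ∃ t : Twist M p,
    ∀ f : CuspForm (Gamma1 M) 2,
      periodMap1 M (H.T p f) = heckeHom1 hpM t ℂ (periodMap1 M f)
  period_D : ∀ d : (ZMod M)ˣ, ∃ τ : Gamma0 M,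
    (lr M (τ : SL(2, ℤ)) = (d : ZMod M) ∨ lr M (τ : SL(2, ℤ)) = -(d : ZMod M)) ∧
    ∀ f : CuspForm (Gamma1 M) 2,
      periodMap1 M (H.diam d f) = diamHom τ ℂ (periodMap1 M f)

/-- **Jacobian side** of the `Γ₁`-gateway, against the lattice `QLat1 M`. -/
structure JSide1 (M : ℕ) [NeZero M] (ℓ : ℕ) (S : Finset ℕ) : Type 1 where
  /-- the group of points of the Jacobian -/
  J : Type
  [instJ : AddCommGroup J]
  /-- the Galois action -/
  galJ : Γℚ →* AddMonoid.End J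
  /-- the Hecke correspondences -/
  TJ : ℕ → J →+ J
  /-- the diamond automorphisms -/
  DJ : (ZMod M)ˣ → J →+ J
  /-- torsion `=` `Hom(Q, ℤ/ℓ ^ n)` -/
  xi : ∀ n : ℕ, tors J (ℓ ^ n) ≃+ (QLat1 M →+ ZMod (ℓ ^ n))
  xi_T : ∀ (n p : ℕ) [Fact p.Prime] (hpM : ¬ p ∣ M), p ∉ S → ∃ t : Twist M p,
    ∀ x : tors J (ℓ ^ n),
      peRes (Gamma1pm M) ℤ (ZMod (ℓ ^ n)) (xi n ⟨TJ p x, map_mem_tors (TJ p) x.2⟩)
        = heckeHom1 hpM t (ZMod (ℓ ^ n)) (peRes (Gamma1pm M) ℤ (ZMod (ℓ ^ n)) (xi n x))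
  xi_D : ∀ (n : ℕ) (d : (ZMod M)ˣ), ∃ τ : Gamma0 M,
    (lr M (τ : SL(2, ℤ)) = (d : ZMod M) ∨ lr M (τ : SL(2, ℤ)) = -(d : ZMod M)) ∧
    ∀ x : tors J (ℓ ^ n),
      peRes (Gamma1pm M) ℤ (ZMod (ℓ ^ n)) (xi n ⟨DJ d x, map_mem_tors (DJ d) x.2⟩)
        = diamHom τ (ZMod (ℓ ^ n)) (peRes (Gamma1pm M) ℤ (ZMod (ℓ ^ n)) (xi n x))
  gal_T : ∀ (σ : Γℚ) (p : ℕ), p.Prime → ¬ p ∣ M → p ∉ S → ∀ x : J,
    galJ σ (TJ p x) = TJ p (galJ σ x)
  gal_D : ∀ (σ : Γℚ) (d : (ZMod M)ˣ) (x : J), galJ σ (DJ d x) = DJ d (galJ σ x)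
  gal_level : ∀ (n : ℕ) (x : J), ℓ ^ n • x = 0 →
    ∃ L : IntermediateField ℚ Qb, FiniteDimensional ℚ L ∧
      ∀ σ : Γℚ, (∀ a ∈ L, σ a = a) → galJ σ x = x
  /-- the normalisation of the Eichler-Shimura relation -/
  diamInv : Bool
  eichlerShimura : ∀ (n p : ℕ) (hp : p.Prime) (hpM : ¬ p ∣ M), p ∉ S →
    ∀ A : ValuationSubring Qb, A.LiesOverPrime p → ∀ σ : Γℚ, A.IsFrobeniusAt σ p →
    ∀ x : J, ℓ ^ n • x = 0 →
      galJ σ (galJ σ x) - TJ p (galJ σ x)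
        + p • DJ (if diamInv then (unitOfPrime hp hpM)⁻¹ else unitOfPrime hp hpM) x = 0
  unram : ∀ (n q : ℕ), q.Prime → q ∉ S → ∀ A : ValuationSubring Qb, A.LiesOverPrime q →
    ∀ τ ∈ A.inertiaSubgroupIn ℚ, ∀ x : J, ℓ ^ n • x = 0 → galJ τ x = x

attribute [instance] JSide1.instJ

variable {M : ℕ} [NeZero M] {H : HeckeOps1 M 2} {ℓ : ℕ} {S : Finset ℕ}

/-- the period map intertwines `H.T p` and `uT M p`. -/
theorem periodQ1_heckeT (hF : FormsSide1 H S) {p : ℕ} (hp : p.Prime) (hpM : ¬ p ∣ M)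
    (hpS : p ∉ S) (f : CuspForm (Gamma1 M) 2) :
    periodQ1 M (H.T p f) = (periodQ1 M f).comp (uT M p).toAddMonoidHom := by
  have : Fact p.Prime := ⟨hp⟩
  obtain ⟨t, ht⟩ := hF.period_T p hpM hpS
  exact periodQ1_T M hpM t f (H.T p f) (ht f)

/-- the period map intertwines `H.diam d` and `uD M d`. -/
theorem periodQ1_diam (hF : FormsSide1 H S) (d : (ZMod M)ˣ) (f : CuspForm (Gamma1 M) 2) :
    periodQ1 M (H.diam d f) = (periodQ1 M f).comp (uD M d).toAddMonoidHom := by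
  obtain ⟨τ, hτ, h⟩ := hF.period_D d
  exact periodQ1_D M d τ hτ f (H.diam d f) (h f)

/-- `xi` intertwines the Hecke correspondence and `uT M p`. -/
theorem JSide1.xi_TJ (Jd : JSide1 M ℓ S) (n : ℕ) {p : ℕ} (hp : p.Prime) (hpM : ¬ p ∣ M)
    (hpS : p ∉ S) (x : tors Jd.J (ℓ ^ n)) :
    Jd.xi n ⟨Jd.TJ p x, map_mem_tors (Jd.TJ p) x.2⟩
      = (Jd.xi n x).comp (uT M p).toAddMonoidHom := by
  have : Fact p.Prime := ⟨hp⟩
  obtain ⟨t, ht⟩ := Jd.xi_T n p hpM hpS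
  apply peRes_injective (Gamma1pm M) ℤ (ZMod (ℓ ^ n))
  rw [ht x, peRes_comp_uT M hpM t ℤ (ZMod (ℓ ^ n))]

/-- `xi` intertwines the diamond automorphism and `uD M d`. -/
theorem JSide1.xi_DJ (Jd : JSide1 M ℓ S) (n : ℕ) (d : (ZMod M)ˣ) (x : tors Jd.J (ℓ ^ n)) :
    Jd.xi n ⟨Jd.DJ d x, map_mem_tors (Jd.DJ d) x.2⟩
      = (Jd.xi n x).comp (uD M d).toAddMonoidHom := by
  obtain ⟨τ, hτ, h⟩ := Jd.xi_D n d
  apply peRes_injective (Gamma1pm M) ℤ (ZMod (ℓ ^ n))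
  rw [h x, peRes_comp_uD M d τ hτ ℤ (ZMod (ℓ ^ n))]

/-- **The producer contract of the lattice variant**, from the cohomological instance data, the
forms side and the Jacobian side. -/
noncomputable def latticeInputs [Module.Free ℤ (QLat1 M)] (hF : FormsSide1 H S)
    (Jd : JSide1 M ℓ S) : LatticeInputs H ℓ S where
  Q := QLat1 M
  P := (periodQ1 M).toAddMonoidHom
  P_injective := periodQ1_injective M
  uT := uT M
  uD := uD M
  uD_one := uD_one M
  uD_mul := uD_mul M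
  comm_T_T := fun p q _ _ _ _ _ _ => uT_comm M p q
  comm_T_D := fun p d _ _ _ => uT_uD_comm M p d
  P_T := fun _ hp hpM hpS f => periodQ1_heckeT hF hp hpM hpS f
  P_D := fun d f => periodQ1_diam hF d f
  J := Jd.J
  galJ := Jd.galJ
  TJ := Jd.TJ
  DJ := Jd.DJ
  xi := Jd.xi
  xi_T := fun n _ hp hpM hpS x => Jd.xi_TJ n hp hpM hpS x
  xi_D := fun n d x => Jd.xi_DJ n d x
  gal_T := Jd.gal_T
  gal_D := Jd.gal_D
  gal_level := Jd.gal_level
  diamInv := Jd.diamInv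
  eichlerShimura := Jd.eichlerShimura
  unram := Jd.unram

theorem latticeInputs_diamInv [Module.Free ℤ (QLat1 M)] (hF : FormsSide1 H S)
    (Jd : JSide1 M ℓ S) : (latticeInputs hF Jd).diamInv = Jd.diamInv := rfl

/-- **G1, final form modulo the producers**: the torsion datum consumed by `DS2`. -/
noncomputable def torsionHeckeData1 [Module.Free ℤ (QLat1 M)] (hℓ : ℓ.Prime)
    (hF : FormsSide1 H S) (Jd : JSide1 M ℓ S) : TorsionHeckeData1 H ℓ S :=
  ExportL.torsionHeckeData1 (latticeInputs hF Jd) hℓ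

theorem torsionHeckeData1_diamInv [Module.Free ℤ (QLat1 M)] (hℓ : ℓ.Prime)
    (hF : FormsSide1 H S) (Jd : JSide1 M ℓ S) :
    (torsionHeckeData1 hℓ hF Jd).diamInv = Jd.diamInv := rfl

/-- the shape consumed by `DS2/MainCore`. -/
theorem exists_torsionHeckeData1 [Module.Free ℤ (QLat1 M)] (hℓ : ℓ.Prime)
    (hF : FormsSide1 H S) (Jd : JSide1 M ℓ S) (hJ : Jd.diamInv = false) :
    ∃ D : TorsionHeckeData1 H ℓ S, D.diamInv = false :=
  ⟨torsionHeckeData1 hℓ hF Jd, hJ⟩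

end Fermat.Agent.S48x.G1.Final
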