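import Fermat.Agent.S48x.G1.Final
import Fermat.Agent.S48x.HeckeFF.NormProd1

/-!
# P-S48, G1 final glue (helper23): the `d5` field of `G1Inputs` from helper4's `NormConjFormula`

`G1Inputs.d5` asks for the UNTWISTED norm-product formula `ThetaEq.NormProdFormula1` for the
STANDARD pair `(V_p ∘ ⟨p⟩, α)`.  The landed analytic producer
(`HeckeFF/ThetaInst.normConjFormula_levelField`) gives `ThetaEq.NormConjFormula` for the NAIVE pair
`(V_p, α)`, i.e. (`emb_norm_eq_heckeProd1_twist`) the TWISTED formula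
`emb (Norm_α (V_p f)) = heckeProd1 t (δ⁻¹ • emb f)`, `lr δ = p⁻¹`.  Substituting `f ↦ ⟨p⟩ f`
(`emb (⟨p⟩ f) = τ⁻¹ • emb f`, `lr τ = p`) the twist disappears: `τ δ ∈ ±Γ₁(M)` fixes `emb f`.

* `normProdFormula1_comp_of_normConj` : the generic statement;
* `NormConjAt`, `d5At_of_normConjAt`, `d5_of_normConjAt` : in the vocabulary of `G1/Final.lean`.
-/

set_option autoImplicit false
set_option linter.unusedSectionVars false
set_option linter.style.haveILetI false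

noncomputable section

open scoped MatrixGroups
open CongruenceSubgroup ModularCurve AlgebraicCurve IntermediateField

namespace Fermat.Agent.S48x.G1.Final

open Fermat.Agent.S24 Fermat.Agent.S24.Setup Fermat.Agent.S24.CuspOrd
open Fermat.Agent.Gateway.Kummer
open Fermat.Agent.Gateway.Dict.ConjAbs
open Fermat.Agent.S27x.Theta
open Fermat.Agent.S48x.G1 Fermat.Agent.S48x.G1.Export
open Fermat.Agent.S48x.Model
open Fermat.Agent.S48x.HeckeFF Fermat.Agent.S48x.HeckeFF.ThetaEq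
open Fermat.Agent.S48x.G1.Xi

attribute [local instance] Fermat.Agent.Gateway.BaseChange.Modular.algKbarC

local notation "Qb" => AlgebraicClosure ℚ

section Generic

variable {M p : ℕ} [NeZero M] [Fact p.Prime] (hpM : ¬ p ∣ M) (t : Twist M p)
variable {N : ℕ} {F F' : Type*} [Field F] [Field F'] [Algebra ℂ F] [Algebra ℂ F']
  (I : DictInputG (Gamma1pm M) N F)

/-- `τ δ ∈ ±Γ₁(M)` when `lr τ = p` and `δ = twDelta` (`lr δ * p = 1`). -/
theorem twDelta_inv_mul_inv_mem (τ : Gamma0 M) (hτ : lr M (τ : SL(2, ℤ)) = (p : ZMod M)) :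
    ((twDelta hpM : Gamma0 M) : SL(2, ℤ))⁻¹ * (τ : SL(2, ℤ))⁻¹ ∈ Gamma1pm M := by
  have h1 : (τ : SL(2, ℤ)) * ((twDelta hpM : Gamma0 M) : SL(2, ℤ)) ∈ Gamma1pm M := by
    refine ⟨(Gamma0 M).mul_mem τ.2 (twDelta hpM).2, Or.inl ?_⟩
    rw [lr_mul τ.2, hτ, mul_comm]
    exact lr_twDelta_mul hpM
  have h2 := (Gamma1pm M).inv_mem h1
  rwa [mul_inv_rev] at h2

/-- **From the twisted formula for `(φ, ψ)` to the untwisted formula for `(φ ∘ δ, ψ)`.** -/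
theorem normProdFormula1_comp_of_normConj {φ ψ : F →ₐ[ℂ] F'} (J : FFInputs φ ψ)
    (hconj : NormConjFormula hpM I J) (δ : F ≃ₐ[ℂ] F) (τ : Gamma0 M)
    (hτ : lr M (τ : SL(2, ℤ)) = (p : ZMod M))
    (hδ : ∀ f : F, I.emb (δ f) = (τ : SL(2, ℤ))⁻¹ • I.emb f)
    (J' : FFInputs (φ.comp (δ : F →ₐ[ℂ] F)) ψ) : NormProdFormula1 t I J' := by
  intro f
  have h := emb_norm_eq_heckeProd1_twist hpM t I J hconj (δ f)
  have h2 : ((twDelta hpM : Gamma0 M) : SL(2, ℤ))⁻¹ • I.emb (δ f) = I.emb f := by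
    rw [hδ f, ← mul_smul]
    exact I.emb_fixed _ (twDelta_inv_mul_inv_mem hpM τ hτ) f
  rw [h2] at h
  exact h

end Generic

section Inst

variable {M : ℕ} [NeZero M]

/-- **The analytic norm formula at `p`** (helper4's `NormConjFormula`) for the naive pair
`(V_p, α)` of `gamma1Field M`, against the analytic realisation `D`
(producer: `HeckeFF/ThetaInst.normConjFormula_levelField`). -/
def NormConjAt (hj : jq ∈ gamma1Field M) (finK : FiniteDimensional Qb⟮jG Qb hj⟯ (F1 M Qb))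
    (finC : FiniteDimensional ℂ⟮jG ℂ hj⟯ (F1 M ℂ)) {yC : F1 M ℂ}
    (D : EmbData ℂ (F1 M ℂ) (RingHom.id ℂ) yC (Gamma1pm M)) {lvl : ℕ} (lvl_pos : 0 < lvl)
    (hcusp : ∀ (f : F1 M ℂ) (g : SL(2, ℤ)), IsCuspMer lvl (g • D.emb f))
    (p : ℕ) (hp : p.Prime) (hpM : ¬ p ∣ M) : Prop :=
  haveI : Fact p.Prime := ⟨hp⟩
  haveI : NeZero p := ⟨hp.ne_zero⟩
  haveI := finK
  haveI := finC
  NormConjFormula hpM (dictOf (transcendental_jG Qb hj) D lvl_pos hcusp)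
    (ffInputs_levelField ℂ p hp hj)

/-- `D5At` for a diamond automorphism `δ` realising `τ⁻¹`, `lr τ = p`. -/
theorem d5At_of_normConjAt (hj : jq ∈ gamma1Field M)
    (finK : FiniteDimensional Qb⟮jG Qb hj⟯ (F1 M Qb))
    (finC : FiniteDimensional ℂ⟮jG ℂ hj⟯ (F1 M ℂ)) {yC : F1 M ℂ}
    (D : EmbData ℂ (F1 M ℂ) (RingHom.id ℂ) yC (Gamma1pm M)) {lvl : ℕ} (lvl_pos : 0 < lvl)
    (hcusp : ∀ (f : F1 M ℂ) (g : SL(2, ℤ)), IsCuspMer lvl (g • D.emb f))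
    (δ : F1 M ℂ ≃ₐ[ℂ] F1 M ℂ) (p : ℕ) (hp : p.Prime) (hpM : ¬ p ∣ M)
    (τ : Gamma0 M) (hτ : lr M (τ : SL(2, ℤ)) = (p : ZMod M))
    (hδ : ∀ f : F1 M ℂ, D.emb (δ f) = (τ : SL(2, ℤ))⁻¹ • D.emb f)
    (hconj : NormConjAt hj finK finC D lvl_pos hcusp p hp hpM) :
    D5At hj finK finC D lvl_pos hcusp δ p hp hpM := by
  haveI : Fact p.Prime := ⟨hp⟩
  haveI : NeZero p := ⟨hp.ne_zero⟩
  haveI := finK
  haveI := finC
  obtain ⟨t⟩ := nonempty_twist M p hpM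
  exact ⟨t, normProdFormula1_comp_of_normConj hpM t
    (dictOf (transcendental_jG Qb hj) D lvl_pos hcusp) (ffInputs_levelField ℂ p hp hj) hconj δ τ hτ
    hδ _⟩

/-- **The `d5` field of `G1Inputs`** from the fields `diamC`, `diam_emb` and `NormConjAt`. -/
theorem d5_of_normConjAt (hj : jq ∈ gamma1Field M)
    (finK : FiniteDimensional Qb⟮jG Qb hj⟯ (F1 M Qb))
    (finC : FiniteDimensional ℂ⟮jG ℂ hj⟯ (F1 M ℂ)) {yC : F1 M ℂ}
    (D : EmbData ℂ (F1 M ℂ) (RingHom.id ℂ) yC (Gamma1pm M)) {lvl : ℕ} (lvl_pos : 0 < lvl)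
    (hcusp : ∀ (f : F1 M ℂ) (g : SL(2, ℤ)), IsCuspMer lvl (g • D.emb f))
    (diamC : (ZMod M)ˣ →* (F1 M ℂ ≃ₐ[ℂ] F1 M ℂ))
    (diam_emb : ∀ d : (ZMod M)ˣ, ∃ τ : Gamma0 M, lr M (τ : SL(2, ℤ)) = (d : ZMod M) ∧
      ∀ f : F1 M ℂ, D.emb (diamC d f) = (τ : SL(2, ℤ))⁻¹ • D.emb f)
    (hconj : ∀ (p : ℕ) (hp : p.Prime) (hpM : ¬ p ∣ M),
      NormConjAt hj finK finC D lvl_pos hcusp p hp hpM)
    (p : ℕ) (hp : p.Prime) (hpM : ¬ p ∣ M) :
    D5At hj finK finC D lvl_pos hcusp (diamC (unitOfPrime hp hpM)) p hp hpM := by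
  obtain ⟨τ, hτ, hδ⟩ := diam_emb (unitOfPrime hp hpM)
  refine d5At_of_normConjAt hj finK finC D lvl_pos hcusp _ p hp hpM τ ?_ hδ (hconj p hp hpM)
  rw [hτ]
  exact ZMod.coe_unitOfCoprime p _

end Inst

end Fermat.Agent.S48x.G1.Final
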