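import Fermat.Agent.S48x.G1.Xi
import Fermat.Agent.S48x.G1.LatticeOfCoh
import Fermat.Agent.S48x.Coh.Final1
import Fermat.Agent.S48x.Kummer1.Unram
import Fermat.Agent.S48x.HeckeFF.Level
import Fermat.Agent.S48x.HeckeFF.Twist
import Fermat.Agent.S48x.Model.Field

/-!
# P-S48, G1 final glue (helper23): the `Γ₁`-gateway from its producers

`G1Inputs M ℓ` lists every not-yet-landed producer output (each field names its producer);
`jSide1 I : JSide1 M ℓ M.primeFactors` with `diamInv = false` is assembled from it and from the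
landed layers (helper79 `G1a/Transfer`, helper4 `HeckeFF/Theta`, helper86 `HeckeFF/BaseChange`,
helper38 `HeckeFF/{Pair,Level,Diamond,Twist}`, helper78 `Kummer1/Unram`); `formsSide1` is the
(unconditional) forms side; `g1_main_of_inputs` is the statement consumed by `DS2/MainCore`.

Conventions (notes 1151/1205, msgs of helper38/helper14): `J = Pic⁰(F1_ℚ̄)`,
`F1_L = laurentBaseChange L (gamma1Field M)`; `DJ d = picAut (diamK d)` (`diamK d : b ↦ d b` on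
`ratio1`, `emb (diamC d f) = τ⁻¹ • emb f`, `lr τ = d`);
`TJ p = heckeL ∘ DJ ⟨p⟩` (`heckeL = α_* V_p^*` the naive correspondence), which on torsion is the
STANDARD `T_p = α_* (V_p ∘ ⟨p⟩)^*`; Eichler–Shimura `σ² − TJ_p σ + p DJ⟨p⟩ = 0` (`diamInv = false`)
from the naive Kummer-level relation `⟨p⟩⁻¹ σ² − heckeL σ + p = 0` (K2).
-/

set_option autoImplicit false
set_option linter.unusedSectionVars false
set_option linter.style.haveILetI false

noncomputable section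

open scoped MatrixGroups
open CongruenceSubgroup ModularCurve AlgebraicCurve IntermediateField

namespace Fermat.Agent.S48x.G1.Final

open Fermat.Agent.S24 Fermat.Agent.S24.Setup Fermat.Agent.S24.CuspOrd
open Fermat.Agent.Gateway.A2 Fermat.Agent.Gateway.A2.Count
open Fermat.Agent.Gateway.Dict.ConjAbs
open Fermat.Agent.S27x.Theta
open Fermat.Agent.S48x.DS2 Fermat.Agent.S48x.G1 Fermat.Agent.S48x.G1.Export
open Fermat.Agent.S48x.Coh Fermat.Agent.S48x.Model Fermat.Agent.S48x.Nebentypus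
open Fermat.Agent.S48x.HeckeFF Fermat.Agent.S48x.HeckeFF.ThetaEq Fermat.Agent.S48x.Kummer1
open Fermat.Agent.S48x.G1.Xi

attribute [local instance] Fermat.Agent.Gateway.BaseChange.Modular.algKbarC

local notation "Γℚ" => (AlgebraicClosure ℚ ≃ₐ[ℚ] AlgebraicClosure ℚ)
local notation "Qb" => AlgebraicClosure ℚ

/-! ### The objects -/

section Objects

variable (M : ℕ) [NeZero M]

/-- the function field of `X₁(M)` over `L`. -/
abbrev F1 (L : Type) [Field L] [Algebra ℚ L] : Type := ↥(laurentBaseChange L (gamma1Field M))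

/-- `J₁(M)(ℚ̄)`. -/
abbrev J1 : Type := Pic0 Qb (F1 M Qb)

/-- the coefficientwise embedding `F1_ℚ̄ → F1_ℂ`. -/
def iotaF1 : F1 M Qb →+* F1 M ℂ := (setupG Qb ℂ (gamma1Field M)).ι

variable {M}

/-- all inputs of a correspondence between `F1_L` and the level field, for any pair of maps. -/
theorem ffInputs_any (L : Type) [Field L] [Algebra ℚ L] [IsAlgClosed L] [CharZero L]
    (hj : jq ∈ gamma1Field M) (hfin : FiniteDimensional L⟮jG L hj⟯ (F1 M L))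
    (p : ℕ) (hp : p.Prime)
    (φ ψ : F1 M L →ₐ[L] ↥(laurentBaseChange L (@levelField (gamma1Field M) p ⟨hp.ne_zero⟩))) :
    FFInputs φ ψ := by
  haveI : NeZero p := ⟨hp.ne_zero⟩
  haveI := hfin
  haveI := finiteDimensional_levelField L p hp hj
  exact ffInputs φ ψ (jG L hj) (transcendental_jG L hj) (jG L (le_levelField (gamma1Field M) p hj))
    (transcendental_jG L (le_levelField (gamma1Field M) p hj))

/-- the naive Hecke correspondence `α_* V_p^*` on `Pic⁰(F1_L)`. -/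
def heckeNaive (L : Type) [Field L] [Algebra ℚ L] [IsAlgClosed L] [CharZero L]
    (hj : jq ∈ gamma1Field M) (hfin : FiniteDimensional L⟮jG L hj⟯ (F1 M L))
    (p : ℕ) (hp : p.Prime) : Pic0 L (F1 M L) →+ Pic0 L (F1 M L) :=
  haveI : NeZero p := ⟨hp.ne_zero⟩
  haveI := hfin
  heckeL L p hp hj

/-- the pull-back map of the STANDARD Hecke correspondence: `V_p ∘ δ`. -/
def betaStd (L : Type) [Field L] [Algebra ℚ L] (p : ℕ) (hp : p.Prime)
    (δ : F1 M L ≃ₐ[L] F1 M L) :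
    F1 M L →ₐ[L] ↥(laurentBaseChange L (@levelField (gamma1Field M) p ⟨hp.ne_zero⟩)) :=
  haveI : NeZero p := ⟨hp.ne_zero⟩
  (betaL (gamma1Field M) p L).comp (δ : F1 M L →ₐ[L] F1 M L)

/-- the push-forward map of the Hecke correspondences: the inclusion. -/
def alphaStd (L : Type) [Field L] [Algebra ℚ L] (p : ℕ) (hp : p.Prime) :
    F1 M L →ₐ[L] ↥(laurentBaseChange L (@levelField (gamma1Field M) p ⟨hp.ne_zero⟩)) :=
  haveI : NeZero p := ⟨hp.ne_zero⟩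
  alphaL (gamma1Field M) p L

/-- **(D5) at `p`**: the norm-product formula over `ℂ` for the STANDARD pair `(V_p ∘ δ, α)`,
against the analytic realisation `D`. -/
def D5At (hj : jq ∈ gamma1Field M) (finK : FiniteDimensional Qb⟮jG Qb hj⟯ (F1 M Qb))
    (finC : FiniteDimensional ℂ⟮jG ℂ hj⟯ (F1 M ℂ)) {yC : F1 M ℂ}
    (D : EmbData ℂ (F1 M ℂ) (RingHom.id ℂ) yC (Gamma1pm M)) {lvl : ℕ} (lvl_pos : 0 < lvl)
    (hcusp : ∀ (f : F1 M ℂ) (g : SL(2, ℤ)), IsCuspMer lvl (g • D.emb f))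
    (δ : F1 M ℂ ≃ₐ[ℂ] F1 M ℂ) (p : ℕ) (hp : p.Prime) (hpM : ¬ p ∣ M) : Prop :=
  haveI : Fact p.Prime := ⟨hp⟩
  haveI := finK
  ∃ t : Twist M p, NormProdFormula1 t (dictOf (transcendental_jG Qb hj) D lvl_pos hcusp)
    (ffInputs_any ℂ hj finC p hp (betaStd ℂ p hp δ) (alphaStd ℂ p hp))

end Objects

/-! ### The producers -/

/-- **The not-yet-landed inputs of the `Γ₁`-gateway**, one field per producer output. -/
structure G1Inputs (M : ℕ) [NeZero M] (ℓ : ℕ) : Type 1 where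
  /-- (MODEL) `j ∈ gamma1Field M` (`Model.jqd_mem_gamma1Field` with `d = 1`). -/
  hj : jq ∈ gamma1Field M
  /-- (A5)(iv), helper8: `F1_ℚ̄` is finite over `ℚ̄(j)`. -/
  finK : FiniteDimensional Qb⟮jG Qb hj⟯ (F1 M Qb)
  /-- (A5)(iv), helper8: `F1_ℂ` is finite over `ℂ(j)`. -/
  finC : FiniteDimensional ℂ⟮jG ℂ hj⟯ (F1 M ℂ)
  /-- (A5)(i), helper8: the image of `j` under the analytic realisation. -/
  yC : F1 M ℂ
  /-- (A5)(i), helper8: the analytic realisation of `F1_ℂ` with exact stabiliser `±Γ₁(M)`. -/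
  D : EmbData ℂ (F1 M ℂ) (RingHom.id ℂ) yC (Gamma1pm M)
  /-- the cusp level. -/
  lvl : ℕ
  lvl_pos : 0 < lvl
  /-- (A5)(ii), helper8: cusp-meromorphy of all translates. -/
  hcusp : ∀ (f : F1 M ℂ) (g : SL(2, ℤ)), IsCuspMer lvl (g • D.emb f)
  /-- (A6), helper77 `Ana/Diamond.diamondHom` over `ℚ̄` (SlashData from helper8). -/
  diamK : (ZMod M)ˣ →* (F1 M Qb ≃ₐ[Qb] F1 M Qb)
  /-- (A6), helper77 `Ana/Diamond.diamondHom` over `ℂ`. -/
  diamC : (ZMod M)ˣ →* (F1 M ℂ ≃ₐ[ℂ] F1 M ℂ)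
  /-- compatibility of the two diamond systems with the coefficientwise embedding (values on the
  generators `ratio1`, `j(q^e)`). -/
  diam_iota : ∀ (d : (ZMod M)ˣ) (f : F1 M Qb), diamC d (iotaF1 M f) = iotaF1 M (diamK d f)
  /-- (A6) `Ana/Diamond.emb_diamond` (after the direction fix of msg 10292):
  `emb (δ_d f) = τ⁻¹ • emb f` for some `τ ∈ Γ₀(M)` with lower right entry `d`. -/
  diam_emb : ∀ d : (ZMod M)ˣ, ∃ τ : Gamma0 M, lr M (τ : SL(2, ℤ)) = (d : ZMod M) ∧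
    ∀ f : F1 M ℂ, D.emb (diamC d f) = (τ : SL(2, ℤ))⁻¹ • D.emb f
  /-- (A6') `Ana/DiamondPic.galois_smul_diamondPic`. -/
  diam_gal : ∀ (σ : Γℚ) (d : (ZMod M)ˣ) (x : J1 M), σ • picAut (diamK d) x = picAut (diamK d) (σ • x)
  /-- (D5), helper65 `AnaNorm` + helper35 `D5Glue` (+ (A7) helper48): the norm-product formula over
  `ℂ` for the STANDARD pair `(V_p ∘ ⟨p⟩, α)`. -/
  d5 : ∀ (p : ℕ) (hp : p.Prime) (hpM : ¬ p ∣ M),
    D5At hj finK finC D lvl_pos hcusp (diamC (unitOfPrime hp hpM)) p hp hpM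
  /-- (K2), helper64/helper47 `Kummer1/ES.frobenius_quadratic_heckeG` (from (C1'), (Hnorm), (C0)):
  the naive Eichler–Shimura relation `⟨p⟩⁻¹ σ² − T σ + p = 0` on `ℓ`-power torsion. -/
  es : ∀ (n p : ℕ) (hp : p.Prime) (hpM : ¬ p ∣ M) (A : ValuationSubring Qb),
    A.LiesOverPrime p → ∀ σ : Γℚ, A.IsFrobeniusAt σ p → ∀ x : J1 M, ℓ ^ n • x = 0 →
      picAut (diamK (unitOfPrime hp hpM)⁻¹) (σ • σ • x)
        - heckeNaive Qb hj finK p hp (σ • x) + p • x = 0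
  /-- (c) (Hnorm), helper22 `Red1`. -/
  hnorm : ∀ q : ℕ, q.Prime → ¬ q ∣ M → ∀ A : ValuationSubring Qb, A.LiesOverPrime q →
    GaussNormalisable (gamma1Field M) A
  /-- (c) (C0), helper22 `Red1`. -/
  hC0 : ∀ n q : ℕ, q.Prime → ¬ q ∣ M → ∀ A : ValuationSubring Qb, A.LiesOverPrime q →
    KummerRedInj (gamma1Field M) A (ℓ ^ n)

/-! ### The Jacobian side -/

section Assembly

variable {M : ℕ} [NeZero M] {ℓ : ℕ} (I : G1Inputs M ℓ)

namespace G1Inputs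

/-- `j` is transcendental over `ℚ̄`. -/
theorem hjK : Transcendental Qb (jG Qb I.hj : F1 M Qb) := transcendental_jG Qb I.hj

/-- the diamond automorphisms of `J₁(M)(ℚ̄)`. -/
def DJ (d : (ZMod M)ˣ) : J1 M →+ J1 M := picAut (I.diamK d)

/-- the (standard) Hecke correspondences of `J₁(M)(ℚ̄)`: `T_p = (α_* V_p^*) ∘ ⟨p⟩`. -/
def TJ (p : ℕ) : J1 M →+ J1 M :=
  if h : p.Prime ∧ ¬ p ∣ M then
    (heckeNaive Qb I.hj I.finK p h.1).comp (I.DJ (unitOfPrime h.1 h.2))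
  else 0

theorem TJ_apply {p : ℕ} (hp : p.Prime) (hpM : ¬ p ∣ M) (x : J1 M) :
    I.TJ p x = heckeNaive Qb I.hj I.finK p hp (I.DJ (unitOfPrime hp hpM) x) := by
  unfold TJ
  rw [dif_pos ⟨hp, hpM⟩]
  rfl

theorem DJ_inv_DJ (d : (ZMod M)ˣ) (x : J1 M) : I.DJ d⁻¹ (I.DJ d x) = x := by
  unfold DJ
  rw [← picAut_mul_apply, ← map_mul, inv_mul_cancel, map_one, picAut_one_apply]

theorem gal_DJ (σ : Γℚ) (d : (ZMod M)ˣ) (x : J1 M) : σ • I.DJ d x = I.DJ d (σ • x) :=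
  I.diam_gal σ d x

theorem gal_heckeNaive (σ : Γℚ) {p : ℕ} (hp : p.Prime) (x : J1 M) :
    σ • heckeNaive Qb I.hj I.finK p hp x = heckeNaive Qb I.hj I.finK p hp (σ • x) := by
  haveI : NeZero p := ⟨hp.ne_zero⟩
  haveI := I.finK
  exact galois_heckeL_comm Qb p hp I.hj σ x

theorem gal_TJ (σ : Γℚ) {p : ℕ} (hp : p.Prime) (hpM : ¬ p ∣ M) (x : J1 M) :
    σ • I.TJ p x = I.TJ p (σ • x) := by
  rw [I.TJ_apply hp hpM, I.TJ_apply hp hpM, I.gal_heckeNaive σ hp, I.gal_DJ]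

end G1Inputs

/-- the two descriptions of the torsion subgroups agree. -/
def torsEquiv (M : ℕ) [NeZero M] (m : ℕ) : tors (J1 M) m ≃+ Pic0.torsion Qb (F1 M Qb) m where
  toFun x := ⟨x.1, Pic0.mem_torsion.mpr (by rw [natCast_zsmul]; exact x.2)⟩
  invFun x := ⟨x.1, by
    have h := Pic0.mem_torsion.mp x.2
    rw [natCast_zsmul] at h
    exact h⟩
  left_inv _ := rfl
  right_inv _ := rfl
  map_add' _ _ := rfl

@[simp] theorem coe_torsEquiv (M : ℕ) [NeZero M] (m : ℕ) (x : tors (J1 M) m) :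
    ((torsEquiv M m x : Pic0.torsion Qb (F1 M Qb) m) : J1 M) = x := rfl

namespace G1Inputs

/-- `J₁(M)(ℚ̄)[ℓ ^ n] ≃ Hom(Q, ℤ/ℓ ^ n)`. -/
def xi (hℓ : ℓ ≠ 0) (n : ℕ) : tors (J1 M) (ℓ ^ n) ≃+ (QLat1 M →+ ZMod (ℓ ^ n)) :=
  haveI : NeZero (ℓ ^ n) := ⟨pow_ne_zero n hℓ⟩
  haveI := I.finK
  (torsEquiv M (ℓ ^ n)).trans (xiK I.hjK I.D I.lvl_pos I.hcusp (ℓ ^ n))

/-- **diamond equivariance of `xi`**. -/
theorem xi_DJ (hℓ : ℓ ≠ 0) (n : ℕ) (d : (ZMod M)ˣ) : ∃ τ : Gamma0 M,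
    (lr M (τ : SL(2, ℤ)) = (d : ZMod M) ∨ lr M (τ : SL(2, ℤ)) = -(d : ZMod M)) ∧
    ∀ x : tors (J1 M) (ℓ ^ n),
      peRes (Gamma1pm M) ℤ (ZMod (ℓ ^ n))
          (I.xi hℓ n ⟨I.DJ d x, map_mem_tors (I.DJ d) x.2⟩)
        = diamHom τ (ZMod (ℓ ^ n)) (peRes (Gamma1pm M) ℤ (ZMod (ℓ ^ n)) (I.xi hℓ n x)) := by
  obtain ⟨τ, hτ, hemb⟩ := I.diam_emb d
  refine ⟨τ, Or.inl hτ, fun x => ?_⟩
  haveI : NeZero (ℓ ^ n) := ⟨pow_ne_zero n hℓ⟩
  haveI := I.finK
  refine peRes_xiK_of_bc_smul I.hjK I.D I.lvl_pos I.hcusp τ (SemilinearAut.ofAlgAut (I.diamC d))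
    ?_ (ℓ ^ n) (torsEquiv M (ℓ ^ n) x)
    (torsEquiv M (ℓ ^ n) ⟨I.DJ d x, map_mem_tors (I.DJ d) x.2⟩) ?_
  · intro f
    rw [SemilinearAut.ofAlgAut_smul]
    exact hemb f
  · exact (bcG_ofAlgAut (PD.residue_surjective I.hjK) (I.diamK d) (I.diamC d) (I.diam_iota d)
      (x : J1 M)).symm

/-- the base change of `TJ p` on torsion is the STANDARD correspondence over `ℂ`. -/
theorem bc_TJ {p : ℕ} (hp : p.Prime) (hpM : ¬ p ∣ M) {m : ℕ} (hm : m ≠ 0) (x : J1 M)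
    (hx : (m : ℤ) • x = 0) :
    haveI := I.finK
    G1a.bcPic0 I.hjK (I.TJ p x)
      = corrOf (ffInputs_any ℂ I.hj I.finC p hp
          (betaStd ℂ p hp (I.diamC (unitOfPrime hp hpM))) (alphaStd ℂ p hp))
        (G1a.bcPic0 I.hjK x) := by
  haveI : NeZero p := ⟨hp.ne_zero⟩
  haveI := I.finK
  haveI := I.finC
  have hK' : ∀ v : Place Qb ↥(laurentBaseChange Qb (levelField (gamma1Field M) p)),
      Function.Surjective (algebraMap Qb v.ResidueField) := by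
    haveI := finiteDimensional_levelField Qb p hp I.hj
    exact PD.residue_surjective (transcendental_jG Qb (le_levelField (gamma1Field M) p I.hj))
  have h1 := bcG_heckeG (K := Qb) (L := ℂ) (PD.residue_surjective I.hjK) hK'
    (ffInputs_levelField Qb p hp I.hj) (ffInputs_levelField ℂ p hp I.hj)
    (I.DJ (unitOfPrime hp hpM) x)
  have h2 := bcG_ofAlgAut (PD.residue_surjective I.hjK) (I.diamK (unitOfPrime hp hpM))
    (I.diamC (unitOfPrime hp hpM)) (I.diam_iota (unitOfPrime hp hpM)) x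
  have hx' : (m : ℤ) • bcG Qb ℂ (gamma1Field M) (PD.residue_surjective I.hjK) x = 0 := by
    rw [← map_zsmul, hx, map_zero]
  have h3 := corrOf_comp_algEquiv (ffInputs_levelField ℂ p hp I.hj)
    (I.diamC (unitOfPrime hp hpM))
    (ffInputs_any ℂ I.hj I.finC p hp
      (betaStd ℂ p hp (I.diamC (unitOfPrime hp hpM))) (alphaStd ℂ p hp)) hm hx'
  rw [I.TJ_apply hp hpM]
  refine Eq.trans h1 ?_
  refine Eq.trans ?_ h3.symm
  show heckeG (ffInputs_levelField ℂ p hp I.hj) _ = _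
  rw [picAut_apply, h2]
  rfl

/-- **Hecke equivariance of `xi`**. -/
theorem xi_TJ (hℓ : ℓ ≠ 0) (n p : ℕ) [Fact p.Prime] (hpM : ¬ p ∣ M) : ∃ t : Twist M p,
    ∀ x : tors (J1 M) (ℓ ^ n),
      peRes (Gamma1pm M) ℤ (ZMod (ℓ ^ n))
          (I.xi hℓ n ⟨I.TJ p x, map_mem_tors (I.TJ p) x.2⟩)
        = heckeHom1 hpM t (ZMod (ℓ ^ n)) (peRes (Gamma1pm M) ℤ (ZMod (ℓ ^ n)) (I.xi hℓ n x)) := by
  have hp : p.Prime := Fact.out
  obtain ⟨t, hD5⟩ := I.d5 p hp hpM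
  refine ⟨t, fun x => ?_⟩
  haveI : NeZero (ℓ ^ n) := ⟨pow_ne_zero n hℓ⟩
  haveI := I.finK
  have hx : ((ℓ ^ n : ℕ) : ℤ) • (x : J1 M) = 0 := by
    rw [natCast_zsmul]
    exact x.2
  exact peRes_xiK_of_bc_corrOf I.hjK I.D I.lvl_pos I.hcusp hpM t _ hD5 (ℓ ^ n)
    (torsEquiv M (ℓ ^ n) x) (torsEquiv M (ℓ ^ n) ⟨I.TJ p x, map_mem_tors (I.TJ p) x.2⟩)
    (I.bc_TJ hp hpM (pow_ne_zero n hℓ) (x : J1 M) hx)

/-- **Eichler–Shimura in the standard normalisation** (`diamInv = false`). -/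
theorem eichlerShimura_std (n p : ℕ) (hp : p.Prime) (hpM : ¬ p ∣ M) (A : ValuationSubring Qb)
    (hA : A.LiesOverPrime p) (σ : Γℚ) (hσ : A.IsFrobeniusAt σ p) (x : J1 M)
    (hx : ℓ ^ n • x = 0) :
    σ • σ • x - I.TJ p (σ • x) + p • I.DJ (unitOfPrime hp hpM) x = 0 := by
  have hx' : ℓ ^ n • I.DJ (unitOfPrime hp hpM) x = 0 := by rw [← map_nsmul, hx, map_zero]
  have h := I.es n p hp hpM A hA σ hσ (I.DJ (unitOfPrime hp hpM) x) hx'
  rw [I.gal_DJ, I.gal_DJ] at h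
  have h1 : picAut (I.diamK (unitOfPrime hp hpM)⁻¹) (I.DJ (unitOfPrime hp hpM) (σ • σ • x))
      = σ • σ • x := I.DJ_inv_DJ _ _
  rw [h1, ← I.TJ_apply hp hpM] at h
  exact h

/-- **The Jacobian side of the `Γ₁`-gateway.** -/
def jSide1 (hℓ : ℓ ≠ 0) : JSide1 M ℓ M.primeFactors where
  J := J1 M
  galJ := galPic (gamma1Field M)
  TJ := I.TJ
  DJ := I.DJ
  xi := I.xi hℓ
  xi_T := fun n p _ hpM _ => I.xi_TJ hℓ n p hpM
  xi_D := fun n d => I.xi_DJ hℓ n d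
  gal_T := fun σ p hp hpM _ x => I.gal_TJ σ hp hpM x
  gal_D := fun σ d x => I.gal_DJ σ d x
  gal_level := fun n x hx => galPic_level (gamma1Field M) (pow_ne_zero n hℓ) x hx
  diamInv := false
  eichlerShimura := fun n p hp hpM _ A hA σ hσ x hx =>
    I.eichlerShimura_std n p hp hpM A hA σ hσ x hx
  unram := galPic_unram (gamma1Field M) M.primeFactors hℓ
    (fun q hq hqS A hA => I.hnorm q hq
      (fun h => hqS (Nat.mem_primeFactors.mpr ⟨hq, h, NeZero.ne M⟩)) A hA)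
    (fun n q hq hqS A hA => I.hC0 n q hq
      (fun h => hqS (Nat.mem_primeFactors.mpr ⟨hq, h, NeZero.ne M⟩)) A hA)

theorem jSide1_diamInv (hℓ : ℓ ≠ 0) : (I.jSide1 hℓ).diamInv = false := rfl

end G1Inputs

end Assembly

/-! ### The forms side (unconditional) -/

/-- the forms side, from helper9's `periodMap1_heckeTLin` and helper62's `periodMap1_diamLin`. -/
theorem formsSide1 (M : ℕ) [NeZero M] (S : Finset ℕ) : FormsSide1 (heckeOps1 M 2) S where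
  period_T := fun p _ hpM _ => by
    have hp : p.Prime := Fact.out
    refine ⟨someTwist M p hpM, fun f => ?_⟩
    rw [heckeOps1_T M 2 hp hpM]
    exact periodMap1_heckeTLin hp hpM (someTwist M p hpM) f
  period_D := fun d => by
    refine ⟨tauOf M d, Or.inl (lr_tauOf M d), fun f => ?_⟩
    rw [heckeOps1_diam]
    exact CohPeriodDiam1.periodMap1_diamLin M d (tauOf M d) (lr_tauOf M d) f

/-- **G1 from its producers**: the statement consumed by `DS2/MainCore`. -/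
theorem g1_main_of_inputs {M : ℕ} [NeZero M] {ℓ : ℕ} (hℓ : ℓ.Prime) (I : G1Inputs M ℓ) :
    ∃ (H : HeckeOps1 M 2) (D : TorsionHeckeData1 H ℓ M.primeFactors), D.diamInv = false :=
  ⟨heckeOps1 M 2, exists_torsionHeckeData1 hℓ (formsSide1 M M.primeFactors)
    (I.jSide1 hℓ.ne_zero) (I.jSide1_diamInv hℓ.ne_zero)⟩

end Fermat.Agent.S48x.G1.Final
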