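/-
P-S48 (Deligne-Serre), G1 final glue (helper77): THE FIVE DIAMOND FIELDS of `G1.Final.G1Inputs`
(`G1/Final.lean`, helper23), closed.

For `8 ≤ M`, `ζ : ℚ̄` a primitive `M`-th root of unity with `algebraMap ℚ̄ ℂ ζ = zetaM M`
(`algebraMap ℚ̄ ℂ = S24.Setup.iota` under the local instance `algKbarC`;
`Ana/Emb1Inst.exists_zeta`), and the analytic realisation `D := Emb1.embDataC hM` over `ℂ`:

* `diamK hM hζ hι : (ZMod M)ˣ →* (F1 M ℚ̄ ≃ₐ[ℚ̄] F1 M ℚ̄)` (`Ana/DiamondInst.diamond1Hom` over `ℚ̄`),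
* `diamC hM : (ZMod M)ˣ →* (F1 M ℂ ≃ₐ[ℂ] F1 M ℂ)` (the same over `ℂ`, `ζ = zetaM M`, `ι = id`),
* `diam_iota` : `diamC d (iotaF1 M f) = iotaF1 M (diamK d f)` (`Ana/DiamondBC.diamond_setupG_ι`),
* `diam_emb` : `∃ τ : Gamma0 M, lr M τ = d ∧ ∀ f, (embDataC hM).emb (diamC d f) = τ⁻¹ • ..`,
* `diam_gal` : `σ • picAut (diamK d) x = picAut (diamK d) (σ • x)`,

each in EXACTLY the shape of the corresponding field of `G1Inputs` (with `D := embDataC hM`).
Also `coe_diamK_ratio1`, `diamK_commute` (`Kummer1.DiamondGaloisCommute`-type statement on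
functions), `embData1_diamK_inv` (the `hδ` of (C1')) for the Kummer half, and the constructor
`mkInputs : G1Inputs M ℓ` from the remaining (non-diamond, non-analytic) producers
`finK finC d5 es hnorm hC0`.
-/
import Fermat.Agent.S48x.G1.Final
import Fermat.Agent.S48x.Ana.DiamondBC

set_option autoImplicit false
set_option linter.unusedSectionVars false
set_option linter.style.haveILetI false

noncomputable section

open ModularCurve AlgebraicCurve IntermediateField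
open scoped MatrixGroups

namespace Fermat.Agent.S48x.G1.DiamInputs

open CongruenceSubgroup
open Fermat.Agent.S24.Setup Fermat.Agent.Gateway.BaseChange.Modular
open Fermat.Agent.S48x.Model Fermat.Agent.S48x.G1 Fermat.Agent.S48x.G1.Final
  Fermat.Agent.S48x.HeckeFF Fermat.Agent.S48x.Ana.Diamond Fermat.Agent.S48x.Ana.Emb1
  Fermat.Agent.S48x.PPack Fermat.Agent.S48x.PPack.CycloUnit

attribute [local instance] Fermat.Agent.Gateway.BaseChange.Modular.algKbarC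

local notation "Γℚ" => (AlgebraicClosure ℚ ≃ₐ[ℚ] AlgebraicClosure ℚ)
local notation "Qb" => AlgebraicClosure ℚ

variable {M : ℕ} [NeZero M] (hM : 8 ≤ M) {ζ : Qb} (hζ : IsPrimitiveRoot ζ M)
  (hι : algebraMap Qb ℂ ζ = zetaM M)

/-- The diamond automorphisms of `F1_ℚ̄`. -/
def diamK : (ZMod M)ˣ →* (F1 M Qb ≃ₐ[Qb] F1 M Qb) :=
  diamond1Hom (ι := algebraMap Qb ℂ) hM hζ hι

/-- The diamond automorphisms of `F1_ℂ`. -/
def diamC : (ZMod M)ˣ →* (F1 M ℂ ≃ₐ[ℂ] F1 M ℂ) :=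
  diamond1Hom (ι := RingHom.id ℂ) hM (isPrimitiveRoot_zetaM M) rfl

theorem diamK_apply (d : (ZMod M)ˣ) :
    diamK hM hζ hι d = diamond1 (ι := algebraMap Qb ℂ) hM hζ hι d := rfl

theorem diamC_apply (d : (ZMod M)ˣ) :
    diamC hM d = diamond1 (ι := RingHom.id ℂ) hM (isPrimitiveRoot_zetaM M) rfl d := rfl

/-- **Field `diam_iota`.** -/
theorem diam_iota (d : (ZMod M)ˣ) (f : F1 M Qb) :
    diamC hM d (iotaF1 M f) = iotaF1 M (diamK hM hζ hι d f) :=
  diamond_setupG_ι hζ (slashData1 hM hζ hι) (isPrimitiveRoot_zetaM M)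
    (slashData1 (ι := RingHom.id ℂ) hM (isPrimitiveRoot_zetaM M) rfl) hι d f

/-- **Field `diam_emb`** (for `D := embDataC hM`). -/
theorem diam_emb (d : (ZMod M)ˣ) : ∃ τ : Gamma0 M, lr M (τ : SL(2, ℤ)) = (d : ZMod M) ∧
    ∀ f : F1 M ℂ, (embDataC hM).emb (diamC hM d f) = (τ : SL(2, ℤ))⁻¹ • (embDataC hM).emb f := by
  obtain ⟨g, hg, hd⟩ := exists_mem_Gamma0_lr_eq d
  exact ⟨⟨g, hg⟩, hd, fun f =>
    embData1_diamond1 (ι := RingHom.id ℂ) hM (isPrimitiveRoot_zetaM M) rfl d hg hd f⟩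

/-- The same for every `τ ∈ Γ₀(M)` with lower right entry `d`. -/
theorem diam_emb_of_lr (d : (ZMod M)ˣ) (τ : Gamma0 M) (hτ : lr M (τ : SL(2, ℤ)) = (d : ZMod M))
    (f : F1 M ℂ) :
    (embDataC hM).emb (diamC hM d f) = (τ : SL(2, ℤ))⁻¹ • (embDataC hM).emb f :=
  embData1_diamond1 (ι := RingHom.id ℂ) hM (isPrimitiveRoot_zetaM M) rfl d τ.2 hτ f

/-- **Field `diam_gal`.** -/
theorem diam_gal (σ : Γℚ) (d : (ZMod M)ˣ) (x : J1 M) :
    σ • picAut (diamK hM hζ hι d) x = picAut (diamK hM hζ hι d) (σ • x) :=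
  galois_smul_diamondPic hζ (slashData1 hM hζ hι) σ d x

/-- The commutation with the coefficientwise Galois action, on functions. -/
theorem diamK_commute (σ : Γℚ) (d : (ZMod M)ˣ) (f : F1 M Qb) :
    arithmeticRingAut (gamma1Field M) σ (diamK hM hζ hι d f) =
      diamK hM hζ hι d (arithmeticRingAut (gamma1Field M) σ f) :=
  arithmeticRingAut_diamond1 hM hζ hι σ d f

/-- `δ_d (ratio1 b c b' c') = ratio1 (d b) (d c) (d b') (d c')` over `ℚ̄`. -/
theorem coe_diamK_ratio1 (d : (ZMod M)ˣ) {b c b' c' : ZMod M}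
    (hb : b ≠ 0) (hc : c ≠ 0) (hb' : b' ≠ 0) (hc' : c' ≠ 0) {x : F1 M Qb}
    (hx : (x : LaurentSeries Qb) = ratio1 M ζ b c b' c') :
    ((diamK hM hζ hι d x : F1 M Qb) : LaurentSeries Qb) =
      ratio1 M ζ ((d : ZMod M) * b) ((d : ZMod M) * c) ((d : ZMod M) * b') ((d : ZMod M) * c') :=
  coe_diamond1_ratio1 hM hζ hι d hb hc hb' hc' hx

/-- The analytic characterisation over `ℚ̄` (for (C1'): `δ = diamK (unit p)⁻¹` has
`emb (δ v) = g • emb v` for `g ∈ Γ₀(M)`, `lr M g = p`). -/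
theorem embData1_diamK_inv (d : (ZMod M)ˣ) {g : SL(2, ℤ)} (hg : g ∈ Gamma0 M)
    (hd : lr M g = (d : ZMod M)) (f : F1 M Qb) :
    (embData1 (algebraMap Qb ℂ) ζ hM hζ hι).emb (diamK hM hζ hι d⁻¹ f) =
      g • (embData1 (algebraMap Qb ℂ) ζ hM hζ hι).emb f := by
  have hd' : lr M g⁻¹ = ((d⁻¹ : (ZMod M)ˣ) : ZMod M) := by
    have h1 := lr_inv_mul_lr hg
    rw [hd] at h1
    calc lr M g⁻¹ = lr M g⁻¹ * ((d : ZMod M) * ((d⁻¹ : (ZMod M)ˣ) : ZMod M)) := by
          rw [← Units.val_mul, mul_inv_cancel, Units.val_one, mul_one]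
      _ = ((d⁻¹ : (ZMod M)ˣ) : ZMod M) := by rw [← mul_assoc, h1, one_mul]
  exact embData1_diamond1' hM hζ hι d⁻¹ hg hd' f

/-- **`G1Inputs` from the non-diamond producers**: the analytic fields are `Emb1.embDataC hM`
(level `M`), the diamond fields are the ones above; what remains are the finiteness statements
`finK`, `finC`, (D5) `d5`, the naive Eichler-Shimura relation `es`, and (Hnorm), (C0). -/
def mkInputs {ℓ : ℕ} (hj : jq ∈ gamma1Field M)
    (finK : FiniteDimensional Qb⟮jG Qb hj⟯ (F1 M Qb))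
    (finC : FiniteDimensional ℂ⟮jG ℂ hj⟯ (F1 M ℂ))
    (d5 : ∀ (p : ℕ) (hp : p.Prime) (hpM : ¬ p ∣ M),
      D5At hj finK finC (embDataC hM) (NeZero.pos M) (hcusp_embDataC hM)
        (diamC hM (Export.unitOfPrime hp hpM)) p hp hpM)
    (es : ∀ (n p : ℕ) (hp : p.Prime) (hpM : ¬ p ∣ M) (A : ValuationSubring Qb),
      A.LiesOverPrime p → ∀ σ : Γℚ, A.IsFrobeniusAt σ p → ∀ x : J1 M, ℓ ^ n • x = 0 →
        picAut (diamK hM hζ hι (Export.unitOfPrime hp hpM)⁻¹) (σ • σ • x)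
          - heckeNaive Qb hj finK p hp (σ • x) + p • x = 0)
    (hnorm : ∀ q : ℕ, q.Prime → ¬ q ∣ M → ∀ A : ValuationSubring Qb, A.LiesOverPrime q →
      Fermat.Agent.S48x.Kummer1.GaussNormalisable (gamma1Field M) A)
    (hC0 : ∀ n q : ℕ, q.Prime → ¬ q ∣ M → ∀ A : ValuationSubring Qb, A.LiesOverPrime q →
      Fermat.Agent.S48x.Kummer1.KummerRedInj (gamma1Field M) A (ℓ ^ n)) : G1Inputs M ℓ where
  hj := hj
  finK := finK
  finC := finC
  yC := jF1R ℂ M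
  D := embDataC hM
  lvl := M
  lvl_pos := NeZero.pos M
  hcusp := hcusp_embDataC hM
  diamK := diamK hM hζ hι
  diamC := diamC hM
  diam_iota := diam_iota hM hζ hι
  diam_emb := diam_emb hM
  diam_gal := diam_gal hM hζ hι
  d5 := d5
  es := es
  hnorm := hnorm
  hC0 := hC0

end Fermat.Agent.S48x.G1.DiamInputs
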