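import Fermat.Agent.Gateway.Export.Lattice

/-!
P-S48 / G1, export layer, abstract form (helper88).  Pure algebra, no modular curves.

Setting: `Q` a free finitely generated `ℤ`-module (the lattice `Γ^ab / parabolics`), `TT` a
commutative ring with an injective ring homomorphism `υ : TT →+* Module.End ℤ Q` (the Hecke algebra,
*defined* on the lattice), `J` an abelian group (the Jacobian) with identifications
`xi m : J[m] ≃+ (Q →+ ZMod m)`.

Output: ring homomorphisms `heckeTors m : TT →+* AddMonoid.End (J[m])` (action by precomposition,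
transported along `xi`), with

* `heckeTors_eq`: an element `y` of `TT` acts as a given endomorphism `τ` of `J` as soon as
  `xi (τ x) = xi x ∘ υ y`;
* `exists_faithful`: `p`-adic faithfulness (E3);
* `commute_heckeTors`: an additive automorphism of `J[m]` commuting with generators commutes with
  everything;
* `quadratic_of_pointwise`: relations `a² - b a + c d = 0` in the endomorphism ring from pointwise
  relations.
-/

set_option autoImplicit false

namespace Fermat.Agent.S48x.ExportAbs

open Fermat.Agent.Gateway.Export

/-- the `m`-torsion of an abelian group. -/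
def tors (J : Type*) [AddCommGroup J] (m : ℕ) : AddSubgroup J where
  carrier := {x | m • x = 0}
  zero_mem' := smul_zero m
  add_mem' := by
    intro a b ha hb
    show m • (a + b) = 0
    rw [smul_add, ha, hb, add_zero]
  neg_mem' := by
    intro a ha
    show m • (-a) = 0
    rw [smul_neg, ha, neg_zero]

theorem mem_tors {J : Type*} [AddCommGroup J] {m : ℕ} {x : J} : x ∈ tors J m ↔ m • x = 0 :=
  Iff.rfl

theorem map_mem_tors {J : Type*} [AddCommGroup J] (τ : J →+ J) {m : ℕ} {x : J}
    (hx : x ∈ tors J m) : τ x ∈ tors J m := by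
  rw [mem_tors] at hx ⊢
  rw [← map_nsmul, hx, map_zero]

/-- transport of an endomorphism ring along an additive equivalence. -/
def endConj {X Y : Type*} [AddCommGroup X] [AddCommGroup Y] (e : X ≃+ Y) :
    AddMonoid.End Y →+* AddMonoid.End X where
  toFun f := (e.symm.toAddMonoidHom.comp f).comp e.toAddMonoidHom
  map_one' := by
    refine AddMonoidHom.ext fun x => ?_
    show e.symm (e x) = x
    exact e.symm_apply_apply x
  map_mul' f g := by
    refine AddMonoidHom.ext fun x => ?_
    show e.symm (f (g (e x))) = e.symm (f (e (e.symm (g (e x)))))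
    rw [e.apply_symm_apply]
  map_zero' := by
    refine AddMonoidHom.ext fun x => ?_
    show e.symm ((0 : AddMonoid.End Y) (e x)) = 0
    exact map_zero e.symm
  map_add' f g := by
    refine AddMonoidHom.ext fun x => ?_
    show e.symm (f (e x) + g (e x)) = e.symm (f (e x)) + e.symm (g (e x))
    exact map_add e.symm _ _

theorem endConj_apply {X Y : Type*} [AddCommGroup X] [AddCommGroup Y] (e : X ≃+ Y)
    (f : AddMonoid.End Y) (x : X) : endConj e f x = e.symm (f (e x)) := rfl

section Action

variable {Q : Type*} [AddCommGroup Q] {TT : Type*} [CommRing TT]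
  (υ : TT →+* Module.End ℤ Q)

/-- the action of `TT` on `Hom(Q, B)` by precomposition (a ring homomorphism because `TT` is
commutative). -/
def homAct (B : Type*) [AddCommGroup B] : TT →+* AddMonoid.End (Q →+ B) where
  toFun t :=
    { toFun := fun φ => φ.comp (υ t).toAddMonoidHom
      map_zero' := rfl
      map_add' := fun _ _ => rfl }
  map_one' := by
    refine AddMonoidHom.ext fun φ => ?_
    show φ.comp (υ 1).toAddMonoidHom = φ
    rw [map_one]
    rfl
  map_mul' a b := by
    refine AddMonoidHom.ext fun φ => ?_
    show φ.comp (υ (a * b)).toAddMonoidHom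
      = (φ.comp (υ b).toAddMonoidHom).comp (υ a).toAddMonoidHom
    rw [mul_comm a b, map_mul]
    rfl
  map_zero' := by
    refine AddMonoidHom.ext fun φ => ?_
    show φ.comp (υ 0).toAddMonoidHom = 0
    rw [map_zero]
    refine AddMonoidHom.ext fun x => ?_
    show φ ((0 : Module.End ℤ Q) x) = 0
    rw [LinearMap.zero_apply, map_zero]
  map_add' a b := by
    refine AddMonoidHom.ext fun φ => ?_
    show φ.comp (υ (a + b)).toAddMonoidHom
      = φ.comp (υ a).toAddMonoidHom + φ.comp (υ b).toAddMonoidHom
    rw [map_add]
    refine AddMonoidHom.ext fun x => ?_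
    show φ (υ a x + υ b x) = _
    rw [map_add]
    rfl

theorem homAct_apply (B : Type*) [AddCommGroup B] (t : TT) (φ : Q →+ B) :
    homAct υ B t φ = φ.comp (υ t).toAddMonoidHom := rfl

end Action

/-- **The abstract producer contract**: the lattice, the Hecke algebra on the lattice, and the
identifications of the torsion of `J` with `Hom(Q, ℤ/m)`. -/
structure LatticeTorsion (Q : Type) [AddCommGroup Q] (TT : Type) [CommRing TT] (J : Type)
    [AddCommGroup J] where
  /-- the Hecke algebra acts on the lattice -/
  υ : TT →+* Module.End ℤ Q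
  /-- faithfully -/
  υ_injective : Function.Injective υ
  /-- torsion = `Hom(Q, ℤ/m)` -/
  xi : ∀ m : ℕ, 0 < m → tors J m ≃+ (Q →+ ZMod m)

namespace LatticeTorsion

variable {Q : Type} [AddCommGroup Q] {TT : Type} [CommRing TT] {J : Type} [AddCommGroup J]
  (L : LatticeTorsion Q TT J)

/-- the Hecke action on the `m`-torsion. -/
noncomputable def heckeTors (m : ℕ) (hm : 0 < m) : TT →+* AddMonoid.End (tors J m) :=
  (endConj (L.xi m hm)).comp (homAct L.υ (ZMod m))

theorem xi_heckeTors (m : ℕ) (hm : 0 < m) (y : TT) (x : tors J m) :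
    L.xi m hm (L.heckeTors m hm y x) = (L.xi m hm x).comp (L.υ y).toAddMonoidHom := by
  show (L.xi m hm) ((L.xi m hm).symm _) = _
  rw [AddEquiv.apply_symm_apply]
  rfl

/-- **E2**: `y` acts on the torsion as the endomorphism `τ` of `J`, as soon as `xi` intertwines
`τ` with precomposition by `υ y`. -/
theorem heckeTors_eq (m : ℕ) (hm : 0 < m) (y : TT) (τ : J →+ J)
    (h : ∀ x : tors J m, L.xi m hm ⟨τ x, map_mem_tors τ x.2⟩
      = (L.xi m hm x).comp (L.υ y).toAddMonoidHom) (x : tors J m) :
    ((L.heckeTors m hm y x : tors J m) : J) = τ x := by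
  have key : L.heckeTors m hm y x = ⟨τ x, map_mem_tors τ x.2⟩ := by
    apply (L.xi m hm).injective
    rw [xi_heckeTors, h x]
  rw [key]

/-- **E3**: `p`-adic faithfulness of the Hecke action on the torsion. -/
theorem exists_faithful [Module.Free ℤ Q] [Module.Finite ℤ Q] (p : ℕ) (hp : p.Prime) :
    ∃ c0 : ℕ, ∀ (y : TT) (n : ℕ), L.heckeTors (p ^ (n + c0)) (pow_pos hp.pos _) y = 0 →
      ∃ y' : TT, y = ((p : ℤ) ^ n) • y' := by
  obtain ⟨c0, hc0⟩ := exists_padic_faithful L.υ.toAddMonoidHom L.υ_injective p hp
  refine ⟨c0, fun y n hy => ?_⟩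
  have hkill : ∀ φ : Q →+ ZMod (p ^ (n + c0)), φ.comp (L.υ y).toAddMonoidHom = 0 := by
    intro φ
    have h1 := DFunLike.congr_fun hy ((L.xi _ (pow_pos hp.pos _)).symm φ)
    have h2 := L.xi_heckeTors (p ^ (n + c0)) (pow_pos hp.pos _) y
      ((L.xi _ (pow_pos hp.pos _)).symm φ)
    rw [AddEquiv.apply_symm_apply, h1] at h2
    rw [← h2]
    exact map_zero _
  obtain ⟨u', hu'⟩ := exists_eq_smul_of_comp_eq_zero (pow_pos hp.pos _).ne' (L.υ y) hkill
  refine hc0 y n u' ?_
  show L.υ y = _
  rw [hu']
  push_cast
  rfl

/-- the subring of `TT` of elements whose action on the `m`-torsion commutes with `g`. -/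
noncomputable def commSubring (m : ℕ) (hm : 0 < m) (g : AddMonoid.End (tors J m)) : Subring TT where
  carrier := {t | Commute g (L.heckeTors m hm t)}
  mul_mem' := by
    intro a b ha hb
    show Commute g (L.heckeTors m hm (a * b))
    rw [map_mul]
    exact ha.mul_right hb
  one_mem' := by
    show Commute g (L.heckeTors m hm 1)
    rw [map_one]
    exact Commute.one_right g
  add_mem' := by
    intro a b ha hb
    show Commute g (L.heckeTors m hm (a + b))
    rw [map_add]
    exact ha.add_right hb
  zero_mem' := by
    show Commute g (L.heckeTors m hm 0)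
    rw [map_zero]
    exact Commute.zero_right g
  neg_mem' := by
    intro a ha
    show Commute g (L.heckeTors m hm (-a))
    rw [map_neg]
    exact ha.neg_right

/-- **E4**: an endomorphism of the torsion commuting with a generating set of `TT` commutes with
the whole Hecke action. -/
theorem commute_heckeTors (m : ℕ) (hm : 0 < m) (g : AddMonoid.End (tors J m)) (gens : Set TT)
    (hgens : Subring.closure gens = ⊤) (h : ∀ t ∈ gens, Commute g (L.heckeTors m hm t)) (t : TT) :
    Commute g (L.heckeTors m hm t) := by
  have hle : Subring.closure gens ≤ L.commSubring m hm g := Subring.closure_le.mpr h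
  have : t ∈ L.commSubring m hm g := hle (hgens ▸ Subring.mem_top t)
  exact this

end LatticeTorsion

/-- a relation `a ∘ a - b ∘ a + c ∘ d = 0` in an endomorphism ring, checked pointwise (shape of
the Eichler-Shimura relation with diamond operator `d` and `c = p`). -/
theorem quadratic_of_pointwise {X : Type*} [AddCommGroup X] (a b d : AddMonoid.End X) (c : ℕ)
    (h : ∀ x, a (a x) - b (a x) + c • d x = 0) :
    a * a - b * a + (c : AddMonoid.End X) * d = 0 := by
  refine DFunLike.ext _ _ fun x => ?_
  have e1 : (a * a - b * a + (c : AddMonoid.End X) * d) x = a (a x) - b (a x) + c • d x := by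
    rw [← AddMonoid.End.natCast_apply]
    rfl
  rw [e1, h]
  rfl

end Fermat.Agent.S48x.ExportAbs
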