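/-
P-S48 (Deligne-Serre), G1 final glue, ROUTE 1 (helper64): THE INSTANCE `g1Inputs` of helper23's
`G1.Final.G1Inputs M l` for the canonical data of layer (a) (`G1/InputsParts.lean`), `8 ≤ M`, and
its consequences

* `g1_main_of_red` : the statement consumed by `DS2/MainCore`;
* `exists_jSide1_of_red` : `∃ Jd : JSide1 M l M.primeFactors, Jd.diamInv = false`, the shape of
  `S48x/TopJ.JSideStatement`;

both modulo ONLY the two outputs `RedInputs M l` of layer (c) ((Hnorm), (C0) at the primes `q ∤ M`).
-/
import Fermat.Agent.S48x.G1.InputsParts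

set_option autoImplicit false
set_option linter.unusedSectionVars false
set_option linter.style.haveILetI false

noncomputable section

open CongruenceSubgroup ModularCurve AlgebraicCurve IntermediateField
open scoped MatrixGroups

namespace Fermat.Agent.S48x.G1.InputsParts

open Fermat.Agent.S48x.Model
open Fermat.Agent.S48x.G1 Fermat.Agent.S48x.G1.Export Fermat.Agent.S48x.G1.Final
open Fermat.Agent.S48x.DS2 Fermat.Agent.S48x.Nebentypus Fermat.Agent.S48x.Coh
open Fermat.Agent.S48x.Ana Fermat.Agent.S48x.Ana.Emb1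

attribute [local instance] Fermat.Agent.Gateway.BaseChange.Modular.algKbarC

variable {M : ℕ} [NeZero M] {l : ℕ}

/-- **The instance of `G1Inputs`** for the canonical analytic data of `X₁(M)`, `8 ≤ M`, from the
two outputs of layer (c). -/
def g1Inputs (hM8 : 8 ≤ M) (hl : l ≠ 0) (R : RedInputs M l) : G1Inputs M l where
  hj := hjM M
  finK := finK hM8
  finC := finC hM8
  yC := jF1R ℂ M
  D := embDataC hM8
  lvl := M
  lvl_pos := NeZero.pos M
  hcusp := hcusp_embDataC hM8
  diamK := diamK hM8
  diamC := diamC hM8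
  diam_iota := diam_iota hM8
  diam_emb := diam_emb hM8
  diam_gal := diam_gal hM8
  d5 := d5 hM8
  es := es hl hM8 R
  hnorm := R.hnorm
  hC0 := R.hC0

/-- **G1 (`DS2/MainCore` shape)** from the outputs of layer (c). -/
theorem g1_main_of_red (hM8 : 8 ≤ M) (hl : l.Prime) (R : RedInputs M l) :
    ∃ (H : HeckeOps1 M 2) (D : TorsionHeckeData1 H l M.primeFactors), D.diamInv = false :=
  g1_main_of_inputs hl (g1Inputs hM8 hl.ne_zero R)

/-- **The Jacobian side of the `Γ₁`-gateway** (`TopJ.JSideStatement` shape) from the outputs of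
layer (c). -/
theorem exists_jSide1_of_red (hM8 : 8 ≤ M) (hl : l ≠ 0) (R : RedInputs M l) :
    ∃ Jd : JSide1 M l M.primeFactors, Jd.diamInv = false :=
  ⟨(g1Inputs hM8 hl R).jSide1 hl, rfl⟩

end Fermat.Agent.S48x.G1.InputsParts
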