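/-
P-S48 (Deligne-Serre), G1 final glue, SHARED DEFINITIONS of the Jacobian side (helper91).

The concrete objects behind `G1.Final.JSide1 M ℓ S` (`G1/LatticeOfCoh.lean`), shared by
`G1/JSideKummer.lean` (helper91: `gal_T`, `gal_D`, `gal_level`, `unram`, `eichlerShimura`) and
`G1/Xi.lean` / `G1/Final.lean` (helper23: `xi`, `xi_T`, `xi_D`, assembly).

KUMMER FAMILY: this file imports helper54's `Kummer1/{Basic,NormTwist,ES,Export}.lean`.  helper78's
`Kummer1/Unram.lean` declares the SAME names (`GaussNormalisable`, `KummerRedInj`, ...) in the same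
namespace, so it must NOT be imported together with this file.

* `F1Qb M = laurentBaseChange Qb (gamma1Field M)` : the function field of `X₁(M)` over `Qb`;
* `J1 M = Pic0 Qb (F1Qb M)` : the points of the Jacobian;
* `galJ1 M` : the Galois action (`σ ↦ (x ↦ σ • x)`, the Prelude action of `Qb ≃ₐ[ℚ] Qb` on `Pic0`);
* `JData M` : the data the operators depend on (a primitive `M`-th root of unity `ζ`, an embedding
  `ι : Qb →+* ℂ`, the slash dictionary `SlashData M Qb ζ ι` of layer (a), finiteness of `F1Qb M`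
  over `Qb(j)`);
* `DJ1 I d` : the diamond automorphism `⟨d⟩` (`Ana.Diamond.diamondPic`);
* `heckeJ1 I p hp` : the NAIVE Hecke correspondence `incl_* V_p^*` (`HeckeFF.heckeL`);
* `TJ1 I p` : the STANDARD Hecke correspondence `T'_p = heckeJ1 ∘ ⟨p⟩` for `p` prime, `p ∤ M`
  (and `0` otherwise); pinned convention: Eichler-Shimura reads
  `σ² - TJ1(p) σ + p ⟨p⟩ = 0`, i.e. `diamInv = false`.
-/
import Fermat.Agent.S48x.G1.LatticeOfCoh
import Fermat.Agent.S48x.Kummer1.Export
import Fermat.Agent.S48x.HeckeFF.Level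
import Fermat.Agent.S48x.HeckeFF.StdHecke
import Fermat.Agent.S48x.Ana.DiamondSysInst

set_option autoImplicit false
set_option linter.unusedSectionVars false
set_option linter.style.haveILetI false

noncomputable section

open ModularCurve AlgebraicCurve HahnSeries IntermediateField
open scoped MatrixGroups

namespace Fermat.Agent.S48x.G1.JSide

open Fermat.Agent.S48x.Model Fermat.Agent.S48x.HeckeFF Fermat.Agent.S48x.Ana.Diamond
  Fermat.Agent.S48x.G1.Export

local notation "Γℚ" => (AlgebraicClosure ℚ ≃ₐ[ℚ] AlgebraicClosure ℚ)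
local notation "Qb" => AlgebraicClosure ℚ

/-- The function field of `X₁(M)` over `Qb`. -/
abbrev F1Qb (M : ℕ) [NeZero M] : IntermediateField Qb (LaurentSeries Qb) :=
  laurentBaseChange Qb (gamma1Field M)

/-- The points of the Jacobian of `X₁(M)`. -/
abbrev J1 (M : ℕ) [NeZero M] : Type := Pic0 Qb (F1Qb M)

/-- `j ∈ gamma1Field M`. -/
theorem hj1 (M : ℕ) [NeZero M] : jq ∈ gamma1Field M := by
  have h := jqd_mem_gamma1Field (M := M) (d := 1) (one_dvd M)
  rwa [qExpand_one_apply] at h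

/-- The Galois action on the Jacobian. -/
def galJ1 (M : ℕ) [NeZero M] : Γℚ →* AddMonoid.End (J1 M) :=
  DistribMulAction.toAddMonoidEnd Γℚ (J1 M)

@[simp]
theorem galJ1_apply (M : ℕ) [NeZero M] (σ : Γℚ) (x : J1 M) : galJ1 M σ x = σ • x := rfl

/-- The data the Hecke and diamond operators on `J1 M` depend on. -/
structure JData (M : ℕ) [NeZero M] where
  /-- a primitive `M`-th root of unity -/
  ζ : Qb
  hζ : IsPrimitiveRoot ζ M
  /-- an embedding of `Qb` in `ℂ` -/
  ι : Qb →+* ℂ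
  /-- the slash dictionary of layer (a) -/
  D : SlashData M Qb ζ ι
  /-- `F1Qb M` is finite over `Qb(j)` -/
  fin : FiniteDimensional Qb⟮jG Qb (hj1 M)⟯ (F1Qb M)

variable {M : ℕ} [NeZero M] (I : JData M)

/-- The diamond automorphism `⟨d⟩` of the Jacobian. -/
def DJ1 (d : (ZMod M)ˣ) : J1 M →+ J1 M := diamondPic I.hζ I.D d

theorem DJ1_eq_pic (d : (ZMod M)ˣ) (x : J1 M) :
    DJ1 I d x = (diamondSys I.hζ I.D).pic d x := rfl

theorem DJ1_one (x : J1 M) : DJ1 I 1 x = x := diamondPic_one I.hζ I.D x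

theorem DJ1_mul (d d' : (ZMod M)ˣ) (x : J1 M) : DJ1 I (d * d') x = DJ1 I d (DJ1 I d' x) :=
  diamondPic_mul I.hζ I.D d d' x

theorem DJ1_inv_cancel (d : (ZMod M)ˣ) (x : J1 M) : DJ1 I d⁻¹ (DJ1 I d x) = x := by
  rw [← DJ1_mul, inv_mul_cancel, DJ1_one]

theorem DJ1_cancel_inv (d : (ZMod M)ˣ) (x : J1 M) : DJ1 I d (DJ1 I d⁻¹ x) = x := by
  rw [← DJ1_mul, mul_inv_cancel, DJ1_one]

theorem DJ1_comm (d d' : (ZMod M)ˣ) (x : J1 M) : DJ1 I d (DJ1 I d' x) = DJ1 I d' (DJ1 I d x) :=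
  diamondPic_comm I.hζ I.D d d' x

/-- The NAIVE Hecke correspondence `incl_* V_p^*` on the Jacobian. -/
def heckeJ1 (p : ℕ) (hp : p.Prime) : J1 M →+ J1 M :=
  haveI : NeZero p := ⟨hp.ne_zero⟩
  haveI := I.fin
  heckeL Qb p hp (hj1 M)

open Classical in
/-- The STANDARD Hecke correspondence `T'_p = (incl_* V_p^*) ∘ ⟨p⟩` on the Jacobian. -/
def TJ1 (p : ℕ) : J1 M →+ J1 M :=
  if h : p.Prime ∧ ¬ p ∣ M then (heckeJ1 I p h.1).comp (DJ1 I (unitOfPrime h.1 h.2)) else 0

theorem TJ1_apply {p : ℕ} (hp : p.Prime) (hpM : ¬ p ∣ M) (x : J1 M) :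
    TJ1 I p x = heckeJ1 I p hp (DJ1 I (unitOfPrime hp hpM) x) := by
  unfold TJ1
  rw [dif_pos ⟨hp, hpM⟩]
  rfl

end Fermat.Agent.S48x.G1.JSide
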