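/-
P-S48 (Deligne-Serre), G1 final glue, KUMMER HALF of the Jacobian side (helper91).

For the concrete objects of `G1/JDefs.lean` (`J1 M`, `galJ1 M`, `TJ1 I`, `DJ1 I`), the fields
`gal_T`, `gal_D`, `gal_level`, `unram`, `eichlerShimura` of `G1.Final.JSide1 M ℓ S`
(`G1/LatticeOfCoh.lean`), each in EXACTLY the field shape, and the constructor

  `jSide1 I hℓ xi xi_T xi_D K : JSide1 M ℓ S`   with   `(jSide1 ..).diamInv = false`

from the three `xi`-fields (helper23, `G1/Xi.lean`) and `K : KummerInputs I ℓ S`: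

* `hnorm`, `hC0` : (Hnorm), (C0) at the primes outside `S` (helper54's `Kummer1/Basic.lean`
  definitions `GaussNormalisable`, `KummerRedInj`; producers: layer (c) `Red1`);
* `hC1` : (C1') the `q`-expansion norm formula with diamond twist `Kummer1.NormQExpFormulaD` for
  `α = alphaL`, `β = betaL`, `δ = ⟨p⟩⁻¹ = diamondHom (unitOfPrime ..)⁻¹` (producers: layer (b2)
  `HeckeFF/NormQ1`, `HeckeFF/C1Qbar` / `Ana/Iota0Norm`).

From these, `naiveES`: the NAIVE Eichler-Shimura relation `⟨p⟩⁻¹ σ² - (incl_* V_p^*) σ + p = 0` on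
`ℓ`-power torsion (helper54's `Kummer1.frobenius_quadratic_of_torsion_diamond_root`).

No commutation of the diamond operators with the Hecke correspondences is needed (helper38's
pattern: apply the naive relation to `⟨p⟩ x`).  As a by-product, `DJ_TJ_comm_of_xi`: ON TORSION this
commutation follows from `xi_T`, `xi_D`, the injectivity of `xi n` and `uT_uD_comm`.
-/
import Fermat.Agent.S48x.G1.JDefs

set_option autoImplicit false
set_option linter.unusedSectionVars false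
set_option linter.style.haveILetI false

noncomputable section

open CongruenceSubgroup ModularCurve AlgebraicCurve HahnSeries
open scoped MatrixGroups ModularForm

namespace Fermat.Agent.S48x.G1.JSide

open Fermat.Agent.Gateway.A2 Fermat.Agent.Gateway.A2.Count
open Fermat.Agent.S48x.Model Fermat.Agent.S48x.HeckeFF Fermat.Agent.S48x.Ana.Diamond
  Fermat.Agent.S48x.G1 Fermat.Agent.S48x.G1.Export Fermat.Agent.S48x.G1.ExportL
  Fermat.Agent.S48x.G1.Final Fermat.Agent.S48x.Coh Fermat.Agent.S48x.Kummer1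
  Fermat.Agent.Gateway.Kummer

local notation "Γℚ" => (AlgebraicClosure ℚ ≃ₐ[ℚ] AlgebraicClosure ℚ)
local notation "Qb" => AlgebraicClosure ℚ

/-! ### Formal consequences of the `xi`-compatibilities -/

section XiComm

variable {M : ℕ} [NeZero M] {ℓ : ℕ} {S : Finset ℕ} {J : Type} [AddCommGroup J]
  (TJ : ℕ → J →+ J) (DJ : (ZMod M)ˣ → J →+ J)
  (xi : ∀ n : ℕ, tors J (ℓ ^ n) ≃+ (QLat1 M →+ ZMod (ℓ ^ n)))

/-- The `xi_T` field of `JSide1`, as a predicate. -/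
def XiT (S : Finset ℕ) : Prop :=
  ∀ (n p : ℕ) [Fact p.Prime] (hpM : ¬ p ∣ M), p ∉ S → ∃ t : Twist M p,
    ∀ x : tors J (ℓ ^ n),
      peRes (Gamma1pm M) ℤ (ZMod (ℓ ^ n)) (xi n ⟨TJ p x, map_mem_tors (TJ p) x.2⟩)
        = heckeHom1 hpM t (ZMod (ℓ ^ n)) (peRes (Gamma1pm M) ℤ (ZMod (ℓ ^ n)) (xi n x))

/-- The `xi_D` field of `JSide1`, as a predicate. -/
def XiD : Prop :=
  ∀ (n : ℕ) (d : (ZMod M)ˣ), ∃ τ : Gamma0 M,
    (lr M (τ : SL(2, ℤ)) = (d : ZMod M) ∨ lr M (τ : SL(2, ℤ)) = -(d : ZMod M)) ∧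
    ∀ x : tors J (ℓ ^ n),
      peRes (Gamma1pm M) ℤ (ZMod (ℓ ^ n)) (xi n ⟨DJ d x, map_mem_tors (DJ d) x.2⟩)
        = diamHom τ (ZMod (ℓ ^ n)) (peRes (Gamma1pm M) ℤ (ZMod (ℓ ^ n)) (xi n x))

variable {TJ DJ xi}

theorem XiT.xi_comp (h : XiT TJ xi S) (n : ℕ) {p : ℕ} (hp : p.Prime) (hpM : ¬ p ∣ M)
    (hpS : p ∉ S) (x : tors J (ℓ ^ n)) :
    xi n ⟨TJ p x, map_mem_tors (TJ p) x.2⟩ = (xi n x).comp (uT M p).toAddMonoidHom := by
  have : Fact p.Prime := ⟨hp⟩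
  obtain ⟨t, ht⟩ := h n p hpM hpS
  apply peRes_injective (Gamma1pm M) ℤ (ZMod (ℓ ^ n))
  rw [ht x, peRes_comp_uT M hpM t ℤ (ZMod (ℓ ^ n))]

theorem XiD.xi_comp (h : XiD DJ xi) (n : ℕ) (d : (ZMod M)ˣ) (x : tors J (ℓ ^ n)) :
    xi n ⟨DJ d x, map_mem_tors (DJ d) x.2⟩ = (xi n x).comp (uD M d).toAddMonoidHom := by
  obtain ⟨τ, hτ, h⟩ := h n d
  apply peRes_injective (Gamma1pm M) ℤ (ZMod (ℓ ^ n))
  rw [h x, peRes_comp_uD M d τ hτ ℤ (ZMod (ℓ ^ n))]

/-- **On torsion the diamond operators commute with the Hecke correspondences**, from the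
compatibilities of `xi` and the commutation on the lattice. -/
theorem DJ_TJ_comm_of_xi (hT : XiT TJ xi S) (hD : XiD DJ xi) (n : ℕ) {p : ℕ} (hp : p.Prime)
    (hpM : ¬ p ∣ M) (hpS : p ∉ S) (d : (ZMod M)ˣ) (x : J) (hx : ℓ ^ n • x = 0) :
    DJ d (TJ p x) = TJ p (DJ d x) := by
  set x' : tors J (ℓ ^ n) := ⟨x, hx⟩ with hx'
  set y : tors J (ℓ ^ n) := ⟨TJ p x', map_mem_tors (TJ p) x'.2⟩ with hy
  set z : tors J (ℓ ^ n) := ⟨DJ d x', map_mem_tors (DJ d) x'.2⟩ with hz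
  have h1 : xi n ⟨DJ d y, map_mem_tors (DJ d) y.2⟩
      = ((xi n x').comp (uT M p).toAddMonoidHom).comp (uD M d).toAddMonoidHom := by
    rw [hD.xi_comp n d y, hy, hT.xi_comp n hp hpM hpS x']
  have h2 : xi n ⟨TJ p z, map_mem_tors (TJ p) z.2⟩
      = ((xi n x').comp (uD M d).toAddMonoidHom).comp (uT M p).toAddMonoidHom := by
    rw [hT.xi_comp n hp hpM hpS z, hz, hD.xi_comp n d x']
  have h3 : ((xi n x').comp (uT M p).toAddMonoidHom).comp (uD M d).toAddMonoidHom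
      = ((xi n x').comp (uD M d).toAddMonoidHom).comp (uT M p).toAddMonoidHom := by
    refine AddMonoidHom.ext fun q => ?_
    show xi n x' ((uT M p) ((uD M d) q)) = xi n x' ((uD M d) ((uT M p) q))
    have := LinearMap.congr_fun (uT_uD_comm M p d) q
    rw [Module.End.mul_apply, Module.End.mul_apply] at this
    rw [this]
  have h4 := (xi n).injective (h1.trans (h3.trans h2.symm))
  exact congrArg Subtype.val h4

end XiComm

/-! ### The Kummer half for the concrete Jacobian side -/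

variable {M : ℕ} [NeZero M] (I : JData M) {ℓ : ℕ} {S : Finset ℕ}

/-- `gal_D`: the Galois action commutes with the diamond automorphisms. -/
theorem galJ1_DJ1 (σ : Γℚ) (d : (ZMod M)ˣ) (x : J1 M) :
    galJ1 M σ (DJ1 I d x) = DJ1 I d (galJ1 M σ x) :=
  galois_smul_diamondPic I.hζ I.D σ d x

/-- The Galois action commutes with the naive Hecke correspondence. -/
theorem galJ1_heckeJ1 (σ : Γℚ) (p : ℕ) (hp : p.Prime) (x : J1 M) :
    galJ1 M σ (heckeJ1 I p hp x) = heckeJ1 I p hp (galJ1 M σ x) := by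
  haveI : NeZero p := ⟨hp.ne_zero⟩
  haveI := I.fin
  exact galois_heckeL_comm Qb p hp (hj1 M) σ x

/-- `gal_T`: the Galois action commutes with the Hecke correspondences. -/
theorem galJ1_TJ1 (σ : Γℚ) (p : ℕ) (x : J1 M) :
    galJ1 M σ (TJ1 I p x) = TJ1 I p (galJ1 M σ x) := by
  by_cases h : p.Prime ∧ ¬ p ∣ M
  · rw [TJ1_apply I h.1 h.2, TJ1_apply I h.1 h.2, galJ1_heckeJ1, galJ1_DJ1]
  · unfold TJ1
    rw [dif_neg h]
    simp

/-- `gal_level`: finite level of the torsion points. -/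
theorem galJ1_level (hℓ : ℓ ≠ 0) (n : ℕ) (x : J1 M) (hx : ℓ ^ n • x = 0) :
    ∃ L : IntermediateField ℚ Qb, FiniteDimensional ℚ L ∧
      ∀ σ : Γℚ, (∀ a ∈ L, σ a = a) → galJ1 M σ x = x :=
  by
  haveI : Algebra.IsAlgebraic ℚ Qb := AlgebraicClosure.isAlgebraic ℚ
  have hx' : ((ℓ ^ n : ℕ) : ℤ) • x = 0 := by rw [natCast_zsmul]; exact hx
  exact exists_finiteDimensional_fixing_class (L := Qb) (gamma1Field M) (pow_ne_zero n hℓ) hx'

/-- (C1') at the prime `p`: the `q`-expansion norm formula with diamond twist, for the degeneracy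
maps `alphaL`, `betaL` of the level field and `δ = ⟨p⟩⁻¹`. -/
def NormFormulaAt (I : JData M) (p : ℕ) (hp : p.Prime) (hpM : ¬ p ∣ M) : Prop :=
  haveI : NeZero p := ⟨hp.ne_zero⟩
  ∃ ζ : Qbˣ, IsPrimitiveRoot ζ p ∧
    NormQExpFormulaD (gamma1Field M) (alphaL (gamma1Field M) p Qb) (betaL (gamma1Field M) p Qb) p
      (diamondHom I.hζ I.D (unitOfPrime hp hpM)⁻¹) ζ

/-- The deep inputs of the Kummer half. -/
structure KummerInputs (I : JData M) (ℓ : ℕ) (S : Finset ℕ) : Prop where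
  /-- (Hnorm) at the primes outside `S` -/
  hnorm : ∀ q : ℕ, q.Prime → q ∉ S → ∀ A : ValuationSubring Qb, A.LiesOverPrime q →
    GaussNormalisable (gamma1Field M) A
  /-- (C0) at the primes outside `S` -/
  hC0 : ∀ n q : ℕ, q.Prime → q ∉ S → ∀ A : ValuationSubring Qb, A.LiesOverPrime q →
    KummerRedInj (gamma1Field M) A (ℓ ^ n)
  /-- (C1') at the primes outside `S` not dividing `M` -/
  hC1 : ∀ (p : ℕ) (hp : p.Prime) (hpM : ¬ p ∣ M), p ∉ S → NormFormulaAt I p hp hpM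

variable {I}

/-- `unram`: the inertia groups at the primes outside `S` act trivially on `ℓ`-power torsion. -/
theorem galJ1_unram (K : KummerInputs I ℓ S) (hℓ : ℓ ≠ 0) :
    ∀ (n q : ℕ), q.Prime → q ∉ S → ∀ A : ValuationSubring Qb, A.LiesOverPrime q →
      ∀ τ ∈ A.inertiaSubgroupIn ℚ, ∀ x : J1 M, ℓ ^ n • x = 0 → galJ1 M τ x = x := by
  intro n q hq hqS A hA τ hτ x hx
  have hx' : ((ℓ ^ n : ℕ) : ℤ) • x = 0 := by rw [natCast_zsmul]; exact hx
  exact inertia_smul_eq_of_torsion (gamma1Field M) A (pow_ne_zero n hℓ) (K.hnorm q hq hqS A hA)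
    (K.hC0 n q hq hqS A hA) τ hτ hx'

/-- **The NAIVE Eichler-Shimura relation** `⟨p⟩⁻¹ σ² - (incl_* V_p^*) σ + p = 0` on `ℓ`-power
torsion, from (Hnorm), (C0), (C1'). -/
theorem naiveES (K : KummerInputs I ℓ S) (hℓ : ℓ ≠ 0) (n p : ℕ) (hp : p.Prime) (hpM : ¬ p ∣ M)
    (hpS : p ∉ S) (A : ValuationSubring Qb) (hA : A.LiesOverPrime p) (σ : Γℚ)
    (hσ : A.IsFrobeniusAt σ p) (x : J1 M) (hx : ℓ ^ n • x = 0) :
    DJ1 I (unitOfPrime hp hpM)⁻¹ (σ • σ • x) - heckeJ1 I p hp (σ • x) + p • x = 0 := by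
  haveI : NeZero p := ⟨hp.ne_zero⟩
  haveI : Fact p.Prime := ⟨hp⟩
  haveI := I.fin
  obtain ⟨ζ, hζ, hC1⟩ := K.hC1 p hp hpM hpS
  have II := ffInputs_levelField Qb p hp (hj1 M)
  haveI := II.pd'
  have hx' : ((ℓ ^ n : ℕ) : ℤ) • x = 0 := by rw [natCast_zsmul]; exact hx
  have hδ : DiamondGaloisCommute (gamma1Field M) (diamondHom I.hζ I.D (unitOfPrime hp hpM)⁻¹) :=
    fun τ u => ((diamondSys I.hζ I.D).galois_comm (unitOfPrime hp hpM)⁻¹ τ u).symm
  exact frobenius_quadratic_of_torsion_diamond_root (gamma1Field M)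
    (alphaL (gamma1Field M) p Qb) (betaL (gamma1Field M) p Qb) p
    (diamondHom I.hζ I.D (unitOfPrime hp hpM)⁻¹) (pow_ne_zero n hℓ) A hA II.intφ II.intψ II.fiφ
    II.finψ II.nfψ ζ hζ hC1 hδ (K.hnorm p hp hpS A hA) (K.hC0 n p hp hpS A hA) σ hσ hx'

/-- Torsion is preserved by the Galois action. -/
theorem galJ1_torsion (σ : Γℚ) {m : ℕ} {x : J1 M} (hx : m • x = 0) : m • galJ1 M σ x = 0 := by
  rw [← map_nsmul, hx, map_zero]

/-- **`eichlerShimura`, standard shape** `σ² - T'_p σ + p ⟨p⟩ = 0` (`diamInv = false`): the naive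
relation at `⟨p⟩ x`, using only that the diamond operators commute with the Galois action
(helper38's pattern, `HeckeFF/StdHecke.lean`). -/
theorem eichlerShimura_standard (K : KummerInputs I ℓ S) (hℓ : ℓ ≠ 0)
    (n p : ℕ) (hp : p.Prime) (hpM : ¬ p ∣ M) (hpS : p ∉ S)
    (A : ValuationSubring Qb) (hA : A.LiesOverPrime p) (σ : Γℚ) (hσ : A.IsFrobeniusAt σ p)
    (x : J1 M) (hx : ℓ ^ n • x = 0) :
    galJ1 M σ (galJ1 M σ x) - TJ1 I p (galJ1 M σ x) + p • DJ1 I (unitOfPrime hp hpM) x = 0 := by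
  set u := unitOfPrime hp hpM with hu
  have hy : ℓ ^ n • DJ1 I u x = 0 := by rw [← map_nsmul, hx, map_zero]
  have h := naiveES K hℓ n p hp hpM hpS A hA σ hσ (DJ1 I u x) hy
  have e2 : ∀ z : J1 M, (σ • DJ1 I u z : J1 M) = DJ1 I u (σ • z) := fun z =>
    galJ1_DJ1 I σ u z
  rw [e2 x, e2 (σ • x), DJ1_inv_cancel, ← TJ1_apply I hp hpM] at h
  exact h

/-! ### The constructor of `JSide1` -/

/-- **The Jacobian side of the `Γ₁`-gateway** from the three `xi`-fields and the Kummer inputs,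
in the pinned normalisation `diamInv = false`. -/
def jSide1 (I : JData M) (hℓ : ℓ ≠ 0)
    (xi : ∀ n : ℕ, tors (J1 M) (ℓ ^ n) ≃+ (QLat1 M →+ ZMod (ℓ ^ n)))
    (xi_T : XiT (TJ1 I) xi S) (xi_D : XiD (DJ1 I) xi) (K : KummerInputs I ℓ S) :
    JSide1 M ℓ S where
  J := J1 M
  galJ := galJ1 M
  TJ := TJ1 I
  DJ := DJ1 I
  xi := xi
  xi_T := xi_T
  xi_D := xi_D
  gal_T := fun σ p _ _ _ x => galJ1_TJ1 I σ p x
  gal_D := fun σ d x => galJ1_DJ1 I σ d x
  gal_level := fun n x hx => galJ1_level hℓ n x hx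
  diamInv := false
  eichlerShimura := fun n p hp hpM hpS A hA σ hσ x hx =>
    eichlerShimura_standard K hℓ n p hp hpM hpS A hA σ hσ x hx
  unram := galJ1_unram K hℓ

@[simp]
theorem jSide1_diamInv (I : JData M) (hℓ : ℓ ≠ 0)
    (xi : ∀ n : ℕ, tors (J1 M) (ℓ ^ n) ≃+ (QLat1 M →+ ZMod (ℓ ^ n)))
    (xi_T : XiT (TJ1 I) xi S) (xi_D : XiD (DJ1 I) xi) (K : KummerInputs I ℓ S) :
    (jSide1 I hℓ xi xi_T xi_D K).diamInv = false := rfl

/-- the shape consumed by `G1.Final.exists_torsionHeckeData1`. -/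
theorem exists_jSide1 (I : JData M) (hℓ : ℓ ≠ 0)
    (xi : ∀ n : ℕ, tors (J1 M) (ℓ ^ n) ≃+ (QLat1 M →+ ZMod (ℓ ^ n)))
    (xi_T : XiT (TJ1 I) xi S) (xi_D : XiD (DJ1 I) xi) (K : KummerInputs I ℓ S) :
    ∃ Jd : JSide1 M ℓ S, Jd.diamInv = false :=
  ⟨jSide1 I hℓ xi xi_T xi_D K, rfl⟩

end Fermat.Agent.S48x.G1.JSide
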