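/-
P-S48 (Deligne-Serre), G1 final glue (helper91): the CLOSED instance of `JSide.JData M` (`8 ≤ M`)
and of the input (C1') of `JSide.KummerInputs`.

* `iotaQb = S24.Setup.iota : Qb →+* ℂ`, `zeta1 M : Qb` a primitive `M`-th root of unity with
  `iotaQb (zeta1 M) = zetaM M` (`Ana/Emb1Inst.exists_zeta`);
* `jData1 hM : JData M` : `D := Emb1.slashData1 ..` (helper8, `Ana/Emb1Slash.lean`),
  `fin := LevelP.finiteDimensional_gamma1 ..` (helper48, `Ana/LevelPInst.lean`);
* `normFormulaAt_jData1 hM p hp hpM : NormFormulaAt (jData1 hM) p hp hpM` from helper48's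
  `LevelP.normQExpFormulaD_gamma1`.
-/
import Fermat.Agent.S48x.G1.JSideKummer
import Fermat.Agent.S48x.Ana.LevelPInst

set_option autoImplicit false
set_option linter.unusedSectionVars false
set_option linter.style.haveILetI false

noncomputable section

open ModularCurve AlgebraicCurve HahnSeries IntermediateField
open scoped MatrixGroups

namespace Fermat.Agent.S48x.G1.JSide

open Fermat.Agent.S48x.Model Fermat.Agent.S48x.HeckeFF Fermat.Agent.S48x.Ana.Diamond
  Fermat.Agent.S48x.G1.Export Fermat.Agent.S48x.PPack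

local notation "Γℚ" => (AlgebraicClosure ℚ ≃ₐ[ℚ] AlgebraicClosure ℚ)
local notation "Qb" => AlgebraicClosure ℚ

/-- The fixed embedding `Qb → ℂ`. -/
def iotaQb : Qb →+* ℂ := Fermat.Agent.S24.Setup.iota

theorem exists_zeta1 (M : ℕ) [NeZero M] :
    ∃ ζ : Qb, IsPrimitiveRoot ζ M ∧ iotaQb ζ = zetaM M :=
  haveI : CharZero Qb := algebraRat.charZero Qb
  Fermat.Agent.S48x.Ana.Emb1.exists_zeta iotaQb M

/-- A primitive `M`-th root of unity of `Qb` mapping to `exp(2πi/M)`. -/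
def zeta1 (M : ℕ) [NeZero M] : Qb := Classical.choose (exists_zeta1 M)

theorem isPrimitiveRoot_zeta1 (M : ℕ) [NeZero M] : IsPrimitiveRoot (zeta1 M) M :=
  (Classical.choose_spec (exists_zeta1 M)).1

theorem iotaQb_zeta1 (M : ℕ) [NeZero M] : iotaQb (zeta1 M) = zetaM M :=
  (Classical.choose_spec (exists_zeta1 M)).2

variable {M : ℕ} [NeZero M]

/-- **The closed `JData`** of `X₁(M)`, `8 ≤ M`. -/
def jData1 (hM : 8 ≤ M) : JData M where
  ζ := zeta1 M
  hζ := isPrimitiveRoot_zeta1 M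
  ι := iotaQb
  D := Fermat.Agent.S48x.Ana.Emb1.slashData1 iotaQb (zeta1 M) hM (isPrimitiveRoot_zeta1 M)
    (iotaQb_zeta1 M)
  fin := Fermat.Agent.S48x.Ana.LevelP.finiteDimensional_gamma1 iotaQb hM

@[simp] theorem jData1_ζ (hM : 8 ≤ M) : (jData1 hM).ζ = zeta1 M := rfl

@[simp] theorem jData1_ι (hM : 8 ≤ M) : (jData1 hM).ι = iotaQb := rfl

theorem jData1_D (hM : 8 ≤ M) : (jData1 hM).D =
    Fermat.Agent.S48x.Ana.Emb1.slashData1 iotaQb (zeta1 M) hM (isPrimitiveRoot_zeta1 M)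
      (iotaQb_zeta1 M) := rfl

/-- the embedding of the slash dictionary is the analytic uniformisation `embData1` -/
theorem jData1_emb (hM : 8 ≤ M) : (jData1 hM).D.emb =
    (Fermat.Agent.S48x.Ana.Emb1.embData1 iotaQb (zeta1 M) hM (isPrimitiveRoot_zeta1 M)
      (iotaQb_zeta1 M)).emb := rfl

/-- **(C1') for the closed `JData`**, at every prime `p ∤ M`. -/
theorem normFormulaAt_jData1 (hM : 8 ≤ M) (p : ℕ) (hp : p.Prime) (hpM : ¬ p ∣ M) :
    NormFormulaAt (jData1 hM) p hp hpM := by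
  haveI : NeZero p := ⟨hp.ne_zero⟩
  haveI : CharZero Qb := algebraRat.charZero Qb
  obtain ⟨ζp, hζp⟩ := Fermat.Agent.Gateway.HK1.exists_primitiveRoot_unit Qb p
  exact ⟨ζp, hζp, Fermat.Agent.S48x.Ana.LevelP.normQExpFormulaD_gamma1 p iotaQb hM hp hpM
    (isPrimitiveRoot_zeta1 M) (iotaQb_zeta1 M) hζp⟩

end Fermat.Agent.S48x.G1.JSide
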