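/-
P-S48 (Deligne-Serre), G1 final glue, ROUTE 1 (helper64): the producers of the fields of helper23's
`G1.Final.G1Inputs M l` (note `S48-IFACE-G1/Final`), one standalone lemma per field, for the
CANONICAL data of layer (a), `8 ≤ M`:

* `ι = JSide.iotaQb = S24.Setup.iota : Qb →+* ℂ` (the embedding behind the local instance
  `algKbarC`), `ζ = JSide.zeta1 M : Qb` a primitive `M`-th root of unity with `ι ζ = zetaM M`
  (helper91, `G1/JDataInst.lean`);
* `D = Emb1.embDataC hM8` (helper8: analytic uniformisation of `X₁(M)` over `ℂ`), `yC = jF1R ℂ M`,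
  cusp level `M`;
* `diamK hM8`, `diamC hM8` : the diamond automorphisms over `Qb` and over `ℂ`
  (helper77's `Ana/Diamond.diamondHom` for helper8's `Emb1.slashData1` / `Emb1.slashDataC`).

Fields: `hjM`, `finK`, `finC`, `diam_iota` (helper62 `Emb1BC.iotaG_diamond`), `diam_emb`
(`Emb1BC.embDataC_emb_diamond`), `diam_commute`/`diam_gal` (`Diamond.arithmeticRingAut_diamond`),
`normConjAt`/`d5` (helper4 `ThetaInst.normConjFormula_levelField` + helper23 `D5Std`),
`c1At`/`es` (helper48 `LevelP.normQExpFormulaD_gamma1` + helper23 `ESInst.es_of_C1`).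
The two fields of layer (c) stay hypotheses: `RedInputs M l` (constructor from the three producer
outputs `Full`/`hsep`/`hgenus` of `Red1/Gamma1Assemble.lean`: `G1/InputsRed.lean`).
-/
import Fermat.Agent.S48x.G1.ESInst
import Fermat.Agent.S48x.G1.D5Std
import Fermat.Agent.S48x.G1.JDataInst
import Fermat.Agent.S48x.Ana.Emb1BaseChange
import Fermat.Agent.S48x.Ana.DiamondSysInst
import Fermat.Agent.S48x.HeckeFF.ThetaInst

set_option autoImplicit false
set_option linter.unusedSectionVars false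
set_option linter.style.haveILetI false

noncomputable section

open CongruenceSubgroup ModularCurve AlgebraicCurve IntermediateField
open scoped MatrixGroups

namespace Fermat.Agent.S48x.G1.InputsParts

open Fermat.Agent.S24 Fermat.Agent.S24.CuspOrd
open Fermat.Agent.Gateway.Dict.ConjAbs Fermat.Agent.Gateway.Dict.QExpMer
open Fermat.Agent.Gateway.Kummer
open Fermat.Agent.S48x.Model Fermat.Agent.S48x.PPack
open Fermat.Agent.S48x.G1 Fermat.Agent.S48x.G1.Export Fermat.Agent.S48x.G1.Final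
open Fermat.Agent.S48x.HeckeFF Fermat.Agent.S48x.HeckeFF.ThetaEq Fermat.Agent.S48x.Kummer1
open Fermat.Agent.S48x.Ana Fermat.Agent.S48x.Ana.Emb1

attribute [local instance] Fermat.Agent.Gateway.BaseChange.Modular.algKbarC

local notation "Γℚ" => (AlgebraicClosure ℚ ≃ₐ[ℚ] AlgebraicClosure ℚ)
local notation "Qb" => AlgebraicClosure ℚ

variable {M : ℕ} [NeZero M]

/-! ### The model fields -/

/-- `j ∈ gamma1Field M`. -/
theorem hjM (M : ℕ) [NeZero M] : jq ∈ gamma1Field M := LevelP.jq_mem_gamma1Field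

/-- `F1_ℂ` is finite over `ℂ(j)`. -/
theorem finC (hM8 : 8 ≤ M) : FiniteDimensional ℂ⟮jG ℂ (hjM M)⟯ (F1 M ℂ) := by
  have h := finiteDimensional_C hM8
  rw [LevelP.jF1R_eq_jG] at h
  exact h

/-- `F1_ℚ̄` is finite over `ℚ̄(j)`. -/
theorem finK (hM8 : 8 ≤ M) : FiniteDimensional Qb⟮jG Qb (hjM M)⟯ (F1 M Qb) :=
  LevelP.finiteDimensional_gamma1 JSide.iotaQb hM8

/-! ### The diamond automorphisms -/

/-- the slash dictionary over `Qb`. -/
def slashK (hM8 : 8 ≤ M) : Diamond.SlashData M Qb (JSide.zeta1 M) JSide.iotaQb :=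
  slashData1 JSide.iotaQb (JSide.zeta1 M) hM8 (JSide.isPrimitiveRoot_zeta1 M)
    (JSide.iotaQb_zeta1 M)

/-- the diamond automorphisms over `Qb`. -/
def diamK (hM8 : 8 ≤ M) : (ZMod M)ˣ →* (F1 M Qb ≃ₐ[Qb] F1 M Qb) :=
  Diamond.diamondHom (JSide.isPrimitiveRoot_zeta1 M) (slashK hM8)

/-- the diamond automorphisms over `ℂ`. -/
def diamC (hM8 : 8 ≤ M) : (ZMod M)ˣ →* (F1 M ℂ ≃ₐ[ℂ] F1 M ℂ) :=
  Diamond.diamondHom (CycloUnit.isPrimitiveRoot_zetaM M) (slashDataC hM8)

theorem diamK_apply (hM8 : 8 ≤ M) (d : (ZMod M)ˣ) (f : F1 M Qb) :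
    diamK hM8 d f = Diamond.diamond (JSide.isPrimitiveRoot_zeta1 M) (slashK hM8) d f := rfl

theorem diamC_apply (hM8 : 8 ≤ M) (d : (ZMod M)ˣ) (f : F1 M ℂ) :
    diamC hM8 d f
      = Diamond.diamond (CycloUnit.isPrimitiveRoot_zetaM M) (slashDataC hM8) d f := rfl

/-- **`diam_iota`**: the two diamond systems are intertwined by the coefficientwise embedding. -/
theorem diam_iota (hM8 : 8 ≤ M) (d : (ZMod M)ˣ) (f : F1 M Qb) :
    diamC hM8 d (iotaF1 M f) = iotaF1 M (diamK hM8 d f) :=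
  Emb1BC.iotaG_diamond (K := Qb) hM8 (JSide.isPrimitiveRoot_zeta1 M) (JSide.iotaQb_zeta1 M) d f

/-- **`diam_emb`**: `emb (δ_d f) = τ⁻¹ • emb f` for some `τ ∈ Γ₀(M)` with lower right entry `d`. -/
theorem diam_emb (hM8 : 8 ≤ M) (d : (ZMod M)ˣ) : ∃ τ : Gamma0 M,
    lr M (τ : SL(2, ℤ)) = (d : ZMod M) ∧
    ∀ f : F1 M ℂ, (embDataC hM8).emb (diamC hM8 d f) = (τ : SL(2, ℤ))⁻¹ • (embDataC hM8).emb f := by
  obtain ⟨τ, hτ, hd⟩ := Diamond.exists_mem_Gamma0_lr_eq d
  exact ⟨⟨τ, hτ⟩, hd, fun f => Emb1BC.embDataC_emb_diamond hM8 d hτ hd f⟩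

/-- the diamonds over `Qb` commute with the coefficientwise Galois action. -/
theorem diam_commute (hM8 : 8 ≤ M) (d : (ZMod M)ˣ) :
    DiamondGaloisCommute (gamma1Field M) (diamK hM8 d) := fun τ u =>
  ((Diamond.diamondSys (JSide.isPrimitiveRoot_zeta1 M) (slashK hM8)).galois_comm d τ u).symm

/-- **`diam_gal`**. -/
theorem diam_gal (hM8 : 8 ≤ M) (σ : Γℚ) (d : (ZMod M)ˣ) (x : Final.J1 M) :
    σ • picAut (diamK hM8 d) x = picAut (diamK hM8 d) (σ • x) :=
  diam_gal_of_commute (diamK hM8) (diam_commute hM8) σ d x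

/-! ### (D5) -/

/-- helper4's analytic norm formula at `p`, in helper23's vocabulary. -/
theorem normConjAt (hM8 : 8 ≤ M) (p : ℕ) (hp : p.Prime) (hpM : ¬ p ∣ M) :
    NormConjAt (hjM M) (finK hM8) (finC hM8) (embDataC hM8) (NeZero.pos M)
      (hcusp_embDataC hM8) p hp hpM := by
  haveI : Fact p.Prime := ⟨hp⟩
  haveI : NeZero p := ⟨hp.ne_zero⟩
  haveI := finK hM8
  haveI := finC hM8
  haveI := LevelP.isAlgebraic_levelField_C p hM8 hp
  haveI := G1a.isCurveOver_FC (transcendental_jG Qb (hjM M))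
  exact normConjFormula_levelField hpM (embDataC hM8) (NeZero.pos M) (hcusp_embDataC hM8)
    (LevelP.hasQ_embDataC' hM8) (Dvd.intro _ rfl) _

/-- **`d5`**. -/
theorem d5 (hM8 : 8 ≤ M) (p : ℕ) (hp : p.Prime) (hpM : ¬ p ∣ M) :
    D5At (hjM M) (finK hM8) (finC hM8) (embDataC hM8) (NeZero.pos M) (hcusp_embDataC hM8)
      (diamC hM8 (unitOfPrime hp hpM)) p hp hpM :=
  d5_of_normConjAt (hjM M) (finK hM8) (finC hM8) (embDataC hM8) (NeZero.pos M)
    (hcusp_embDataC hM8) (diamC hM8) (diam_emb hM8) (normConjAt hM8) p hp hpM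

/-! ### (C1') and Eichler-Shimura -/

/-- helper48's (C1') at `p`, in helper23's vocabulary. -/
theorem c1At (hM8 : 8 ≤ M) (p : ℕ) (hp : p.Prime) (hpM : ¬ p ∣ M) :
    C1At (diamK hM8 (unitOfPrime hp hpM)⁻¹) p hp :=
  JSide.normFormulaAt_jData1 hM8 p hp hpM

/-- the two outputs of layer (c) (reduction of `X₁(M)` at the primes `q ∤ M`), the only fields of
`G1Inputs` without a landed producer. -/
structure RedInputs (M : ℕ) [NeZero M] (l : ℕ) : Prop where
  /-- (Hnorm) -/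
  hnorm : ∀ q : ℕ, q.Prime → ¬ q ∣ M → ∀ A : ValuationSubring Qb, A.LiesOverPrime q →
    GaussNormalisable (gamma1Field M) A
  /-- (C0) -/
  hC0 : ∀ n q : ℕ, q.Prime → ¬ q ∣ M → ∀ A : ValuationSubring Qb, A.LiesOverPrime q →
    KummerRedInj (gamma1Field M) A (l ^ n)

/-- **`es`**. -/
theorem es {l : ℕ} (hl : l ≠ 0) (hM8 : 8 ≤ M) (R : RedInputs M l)
    (n p : ℕ) (hp : p.Prime) (hpM : ¬ p ∣ M) (A : ValuationSubring Qb)
    (hA : A.LiesOverPrime p) (σ : Γℚ) (hσ : A.IsFrobeniusAt σ p) (x : Final.J1 M)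
    (hx : l ^ n • x = 0) :
    picAut (diamK hM8 (unitOfPrime hp hpM)⁻¹) (σ • σ • x)
      - heckeNaive Qb (hjM M) (finK hM8) p hp (σ • x) + p • x = 0 :=
  es_of_C1 hl (hjM M) (finK hM8) (diamK hM8) (diam_commute hM8) (c1At hM8) R.hnorm R.hC0
    n p hp hpM A hA σ hσ x hx

end Fermat.Agent.S48x.G1.InputsParts
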