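/-
P-S48 (Deligne-Serre), G1 final glue, ROUTE 1 (helper64): the two fields of layer (c) of
`G1.Final.G1Inputs`, i.e. `InputsParts.RedInputs M l`, from the three producer outputs of
`Red1/Gamma1Assemble.lean` at every valuation subring `A` of `Qb` over a prime `q ∤ M`:

* `Full`   : full residue degree of the Gauss valuation ((R6) Igusa);
* `hsep`   : separability of the residue extension `κ / k(j̄)`;
* `hgenus` : the genus inequality ((R8));

for SOME primitive `M`-th root of unity `ζ ∈ A` (`FullAt A`; a producer for all `ζ` gives it by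
`fullAt_of_forall`), and `l ∣ M` prime.  Consequence: `exists_jSide1_of_fullAt`, the Jacobian side
`∃ Jd : JSide1 M l M.primeFactors, Jd.diamInv = false` modulo ONLY these three outputs.
-/
import Fermat.Agent.S48x.G1.Inputs
import Fermat.Agent.S48x.Red1.Gamma1Assemble

set_option autoImplicit false
set_option linter.unusedSectionVars false
set_option linter.style.haveILetI false

noncomputable section

open CongruenceSubgroup ModularCurve AlgebraicCurve IntermediateField IsLocalRing
open scoped MatrixGroups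

namespace Fermat.Agent.S48x.G1.InputsParts

open Fermat.Agent.S48x.Model Fermat.Agent.S48x.Red1 Fermat.Agent.S48x.Red1.ModelInt
open Fermat.Agent.S48x.Red1.ModelTransport Fermat.Agent.S48x.Red1.Gamma1Assemble
open Fermat.Agent.S48x.G1 Fermat.Agent.S48x.G1.Final
open scoped Fermat.Agent.S48x.Red1.Shortcuts

local notation "Qb" => AlgebraicClosure ℚ

variable {M : ℕ} [NeZero M] {l : ℕ}

/-- the three producer outputs of layer (c) at the valuation subring `A`, for some primitive
`M`-th root of unity of `A`. -/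
def FullAt (M : ℕ) [NeZero M] (A : ValuationSubring Qb) : Prop :=
  ∃ ζ : A, IsPrimitiveRoot ζ M ∧ (gamma1IntGen A M ζ).Full (residue A) ∧
    Algebra.IsSeparable (ResidueField A)⟮(gamma1IntGen A M ζ).xκ (residue A)⟯
      ((gamma1IntGen A M ζ).κ (residue A)) ∧
    genusFF Qb (gamma1IntGen A M ζ).F ≤
      genusFF (ResidueField A) ((gamma1IntGen A M ζ).κ (residue A))

/-- `FullAt` from producers quantified over all primitive roots of unity. -/
theorem fullAt_of_forall (A : ValuationSubring Qb)
    (h : ∀ ζ : A, IsPrimitiveRoot ζ M → (gamma1IntGen A M ζ).Full (residue A))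
    (hsep : ∀ ζ : A, IsPrimitiveRoot ζ M →
      Algebra.IsSeparable (ResidueField A)⟮(gamma1IntGen A M ζ).xκ (residue A)⟯
        ((gamma1IntGen A M ζ).κ (residue A)))
    (hgenus : ∀ ζ : A, IsPrimitiveRoot ζ M → genusFF Qb (gamma1IntGen A M ζ).F ≤
      genusFF (ResidueField A) ((gamma1IntGen A M ζ).κ (residue A))) : FullAt M A := by
  haveI : CharZero Qb := algebraRat.charZero Qb
  obtain ⟨ζ, hζ⟩ := exists_primitiveRoot_mem A M
  exact ⟨ζ, hζ, h ζ hζ, hsep ζ hζ, hgenus ζ hζ⟩

/-- **(Hnorm) and (C0) from the three outputs of layer (c)**, `l ∣ M` prime. -/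
theorem redInputs_of_fullAt (hl : l.Prime) (hlM : l ∣ M)
    (h : ∀ q : ℕ, q.Prime → ¬ q ∣ M → ∀ A : ValuationSubring Qb, A.LiesOverPrime q →
      FullAt M A) : RedInputs M l where
  hnorm := fun q hq hqM A hA => by
    obtain ⟨ζ, hζ, hfull, -, -⟩ := h q hq hqM A hA
    exact gaussNormalisable_of_full A hq hA hqM hζ hfull
  hC0 := fun n q hq hqM A hA => by
    haveI : Algebra.IsAlgebraic ℚ Qb := AlgebraicClosure.isAlgebraic ℚ
    obtain ⟨ζ, hζ, hfull, hsep, hgenus⟩ := h q hq hqM A hA
    refine kummerRedInj_of_full A hq hA hqM hζ hfull hsep hgenus ?_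
    intro hdvd
    have h1 : q ∣ l := hq.dvd_of_dvd_pow hdvd
    have h2 : q = l := (Nat.prime_dvd_prime_iff_eq hq hl).mp h1
    exact hqM (h2 ▸ hlM)

/-- **The Jacobian side of the `Γ₁`-gateway** modulo ONLY the three outputs of layer (c). -/
theorem exists_jSide1_of_fullAt (hM8 : 8 ≤ M) (hl : l.Prime) (hlM : l ∣ M)
    (h : ∀ q : ℕ, q.Prime → ¬ q ∣ M → ∀ A : ValuationSubring Qb, A.LiesOverPrime q →
      FullAt M A) : ∃ Jd : JSide1 M l M.primeFactors, Jd.diamInv = false :=
  exists_jSide1_of_red hM8 hl.ne_zero (redInputs_of_fullAt hl hlM h)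

end Fermat.Agent.S48x.G1.InputsParts
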