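/-
P-S48 (Deligne-Serre), G1 final glue (helper91): `JSide.KummerInputs (jData1 hM) ℓ M.primeFactors`
from the three remaining outputs of layer (c) (`Red1`), via helper15's `Red1/Gamma1Assemble.lean`,
and (C1') from `G1/JDataInst.lean`.

`RedInputs M` : at every prime `q ∤ M`, every valuation subring `A` of `Qb` over `q` and every
primitive `M`-th root of unity `ζ ∈ A`:
* `full`   : `(gamma1IntGen A M ζ).Full (residue A)`   ((R6) Igusa);
* `hsep`   : separability of the residue field extension `κ / k(j̄)`;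
* `hgenus` : the genus inequality `g(F) ≤ g(κ)`   ((R8)).
-/
import Fermat.Agent.S48x.G1.JDataInst
import Fermat.Agent.S48x.Red1.Gamma1Assemble

set_option autoImplicit false
set_option linter.unusedSectionVars false
set_option linter.style.haveILetI false

noncomputable section

open ModularCurve AlgebraicCurve HahnSeries IntermediateField IsLocalRing
open scoped MatrixGroups

namespace Fermat.Agent.S48x.G1.JSide

open Fermat.Agent.S48x.Model Fermat.Agent.S48x.Red1 Fermat.Agent.S48x.Red1.ModelInt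
  Fermat.Agent.S48x.Red1.Gamma1Assemble

local notation "Γℚ" => (AlgebraicClosure ℚ ≃ₐ[ℚ] AlgebraicClosure ℚ)
local notation "Qb" => AlgebraicClosure ℚ

/-- The three remaining outputs of layer (c) for `X₁(M)`. -/
structure RedInputs (M : ℕ) [NeZero M] : Prop where
  full : ∀ q : ℕ, q.Prime → ¬ q ∣ M → ∀ A : ValuationSubring Qb, A.LiesOverPrime q →
    ∀ ζ : A, IsPrimitiveRoot ζ M → (gamma1IntGen A M ζ).Full (residue A)
  hsep : ∀ q : ℕ, q.Prime → ¬ q ∣ M → ∀ A : ValuationSubring Qb, A.LiesOverPrime q →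
    ∀ ζ : A, IsPrimitiveRoot ζ M →
      Algebra.IsSeparable (ResidueField A)⟮(gamma1IntGen A M ζ).xκ (residue A)⟯
        ((gamma1IntGen A M ζ).κ (residue A))
  hgenus : ∀ q : ℕ, q.Prime → ¬ q ∣ M → ∀ A : ValuationSubring Qb, A.LiesOverPrime q →
    ∀ ζ : A, IsPrimitiveRoot ζ M →
      genusFF Qb (gamma1IntGen A M ζ).F ≤
        genusFF (ResidueField A) ((gamma1IntGen A M ζ).κ (residue A))

variable {M : ℕ} [NeZero M]

theorem not_dvd_of_notMem_primeFactors {q : ℕ} (hq : q.Prime) (h : q ∉ M.primeFactors) :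
    ¬ q ∣ M := fun hd => h (Nat.mem_primeFactors.mpr ⟨hq, hd, NeZero.ne M⟩)

/-- **The Kummer inputs of the Jacobian side of `X₁(M)`** for `S = M.primeFactors`, `ℓ ∣ M`. -/
theorem kummerInputs1 (hM : 8 ≤ M) (R : RedInputs M) {ℓ : ℕ} (hℓ : ℓ.Prime) (hℓM : ℓ ∣ M) :
    KummerInputs (jData1 hM) ℓ M.primeFactors where
  hnorm q hq hqS A hA := by
    have hqM := not_dvd_of_notMem_primeFactors hq hqS
    exact gaussNormalisable_gamma1 A hq hA hqM (R.full q hq hqM A hA)
  hC0 n q hq hqS A hA := by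
    have hqM := not_dvd_of_notMem_primeFactors hq hqS
    haveI : Algebra.IsAlgebraic ℚ Qb := AlgebraicClosure.isAlgebraic ℚ
    have hm : ¬ q ∣ ℓ ^ n := by
      intro hd
      have h1 : q ∣ ℓ := hq.dvd_of_dvd_pow hd
      have h2 : q = ℓ := (Nat.prime_dvd_prime_iff_eq hq hℓ).mp h1
      exact hqM (h2 ▸ hℓM)
    exact kummerRedInj_gamma1 A hq hA hqM (R.full q hq hqM A hA) (R.hsep q hq hqM A hA)
      (R.hgenus q hq hqM A hA) hm
  hC1 p hp hpM _ := normFormulaAt_jData1 hM p hp hpM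

/-- **The Jacobian side of the `Γ₁`-gateway**, from the `xi`-fields and layer (c). -/
theorem exists_jSide1_of_red (hM : 8 ≤ M) (R : RedInputs M) {ℓ : ℕ} (hℓ : ℓ.Prime)
    (hℓM : ℓ ∣ M)
    (xi : ∀ n : ℕ, Fermat.Agent.S48x.G1.Export.tors (J1 M) (ℓ ^ n) ≃+
      (Fermat.Agent.S48x.Coh.QLat1 M →+ ZMod (ℓ ^ n)))
    (xi_T : XiT (TJ1 (jData1 hM)) xi M.primeFactors) (xi_D : XiD (DJ1 (jData1 hM)) xi) :
    ∃ Jd : Fermat.Agent.S48x.G1.Final.JSide1 M ℓ M.primeFactors, Jd.diamInv = false :=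
  exists_jSide1 (jData1 hM) hℓ.ne_zero xi xi_T xi_D (kummerInputs1 hM R hℓ hℓM)

end Fermat.Agent.S48x.G1.JSide
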