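import Mathlib
import Fermat.Agent.Gateway.A2.CountPE
import Fermat.Agent.S48x.G1.Hecke.CohChar1

/-!
# P-S48, G1 [XI], generic half: from `θ : T ≃+ Hom_pe(Γ, μ_m)` to `xi : T ≃+ Hom(Q, ℤ/m)`
(helper4)

`Q = Additive (PEQuot Γ)` the universal quotient of `Γ` killing parabolic and elliptic elements.
Clone of the generic part of `Gateway/Export/Core.lean` (which cannot be imported cheaply), plus
the Hecke/diamond compatibilities for `Γ = ±Γ₁(M)` in `peRes` form, i.e. exactly the shape of the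
fields `xi_T`, `xi_D` of `G1.Final.JSide1` (`G1/LatticeOfCoh.lean`):

* `xiOfTheta Γ m Θ : T ≃+ (Additive (PEQuot Γ) →+ ZMod m)`;
* `peRes_xiOfTheta` : `peRes (xi y) = rootsEquiv ∘ toAdditive (θ y)`;
* `peRes_xiOfTheta_hecke` : `θ y' = heckeCharHom1 (θ y) → peRes (xi y') = heckeHom1 (peRes (xi y))`;
* `peRes_xiOfTheta_diam` : `θ y' = diamCharHom τ (θ y) → peRes (xi y') = diamHom τ (peRes (xi y))`;
* `peRes_xiOfTheta_hecke_twisted` : the composite.
-/

set_option autoImplicit false
set_option linter.unusedSectionVars false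

namespace Fermat.Agent.S48x.G1.Xi

open CongruenceSubgroup Fermat.Agent.Gateway.A2 Fermat.Agent.Gateway.A2.Count
open Fermat.Agent.S48x.G1
open scoped MatrixGroups

section Generic

variable (Γ : Subgroup SL(2, ℤ)) (C : Type) [CommGroup C]

/-- homomorphisms out of the universal quotient, as characters. -/
noncomputable def homToChar : (Additive (PEQuot Γ) →+ Additive C) →+ Additive (charPE Γ C) where
  toFun φ := Additive.ofMul ⟨MonoidHom.toAdditive.symm (peRes Γ ℤ (Additive C) φ), by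
    intro γ hγ
    have h := (range_peRes Γ ℤ (Additive C)).le (LinearMap.mem_range_self _ φ) γ hγ
    exact congrArg Additive.toMul h⟩
  map_zero' := rfl
  map_add' _ _ := rfl

theorem toAdditive_homToChar (φ : Additive (PEQuot Γ) →+ Additive C) :
    MonoidHom.toAdditive ((Additive.toMul (homToChar Γ C φ) : charPE Γ C) : Γ →* C)
      = peRes Γ ℤ (Additive C) φ := rfl

theorem homToChar_bijective : Function.Bijective (homToChar Γ C) := by
  constructor
  · intro φ ψ h
    apply peRes_injective Γ ℤ (Additive C)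
    rw [← toAdditive_homToChar, ← toAdditive_homToChar, h]
  · intro χ
    have hmem : MonoidHom.toAdditive ((Additive.toMul χ : charPE Γ C) : Γ →* C)
        ∈ homPE ℤ Γ (Additive C) := by
      intro γ hγ
      exact congrArg Additive.ofMul ((Additive.toMul χ).2 γ hγ)
    refine ⟨peLift Γ ℤ (Additive C) _ hmem, ?_⟩
    apply Additive.toMul.injective
    apply Subtype.ext
    apply MonoidHom.toAdditive.injective
    rw [toAdditive_homToChar, peRes_peLift]

/-- characters in `charPE` as homomorphisms out of the universal quotient. -/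
noncomputable def charToHom : Additive (charPE Γ C) ≃+ (Additive (PEQuot Γ) →+ Additive C) :=
  (AddEquiv.ofBijective (homToChar Γ C) (homToChar_bijective Γ C)).symm

theorem peRes_charToHom (χ : Additive (charPE Γ C)) :
    peRes Γ ℤ (Additive C) (charToHom Γ C χ)
      = MonoidHom.toAdditive ((Additive.toMul χ : charPE Γ C) : Γ →* C) := by
  rw [← toAdditive_homToChar]
  congr 3
  exact (AddEquiv.ofBijective (homToChar Γ C) (homToChar_bijective Γ C)).apply_symm_apply χ

/-- post-composition with an additive equivalence. -/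
def postcompEquiv {Q A B : Type*} [AddCommGroup Q] [AddCommGroup A] [AddCommGroup B] (e : A ≃+ B) :
    (Q →+ A) ≃+ (Q →+ B) where
  toFun φ := e.toAddMonoidHom.comp φ
  invFun ψ := e.symm.toAddMonoidHom.comp ψ
  left_inv φ := by
    refine AddMonoidHom.ext fun x => ?_
    show e.symm (e (φ x)) = φ x
    exact e.symm_apply_apply _
  right_inv ψ := by
    refine AddMonoidHom.ext fun x => ?_
    show e (e.symm (ψ x)) = ψ x
    exact e.apply_symm_apply _
  map_add' φ ψ := by
    refine AddMonoidHom.ext fun x => ?_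
    show e (φ x + ψ x) = e (φ x) + e (ψ x)
    exact map_add e _ _

end Generic

/-- an identification of the additive group of `m`-th roots of unity with `ℤ/m`. -/
noncomputable def rootsEquiv (m : ℕ) [NeZero m] : Additive (rootsOfUnity m ℂ) ≃+ ZMod m :=
  (zmodAddCyclicAddEquiv (G := Additive (rootsOfUnity m ℂ)) inferInstance).symm.trans
    (ZMod.ringEquivCongr (by
      rw [Nat.card_congr Additive.toMul]
      exact Complex.card_rootsOfUnity m)).toAddEquiv

section Xi

variable (Γ : Subgroup SL(2, ℤ)) (m : ℕ) [NeZero m] {T : Type*} [AddCommGroup T]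
  (Θ : T ≃+ Additive (charPE Γ (rootsOfUnity m ℂ)))

/-- **`xi` from `θ`.** -/
noncomputable def xiOfTheta : T ≃+ (Additive (PEQuot Γ) →+ ZMod m) :=
  Θ.trans ((charToHom Γ (rootsOfUnity m ℂ)).trans (postcompEquiv (rootsEquiv m)))

/-- The character of `Γ` attached to `y`. -/
def thetaChar (y : T) : Γ →* rootsOfUnity m ℂ :=
  ((Additive.toMul (Θ y) : charPE Γ (rootsOfUnity m ℂ)) : Γ →* rootsOfUnity m ℂ)

theorem peRes_xiOfTheta (y : T) :
    peRes Γ ℤ (ZMod m) (xiOfTheta Γ m Θ y)
      = (rootsEquiv m).toAddMonoidHom.comp (MonoidHom.toAdditive (thetaChar Γ m Θ y)) := by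
  have h1 : peRes Γ ℤ (ZMod m) (xiOfTheta Γ m Θ y)
      = (rootsEquiv m).toAddMonoidHom.comp
          (peRes Γ ℤ (Additive (rootsOfUnity m ℂ))
            (charToHom Γ (rootsOfUnity m ℂ) (Θ y))) := rfl
  rw [h1, peRes_charToHom]
  rfl

end Xi

section Gamma1pm

variable {M p : ℕ} [NeZero M] [Fact p.Prime] (hpM : ¬ p ∣ M) (t : Twist M p)
  (m : ℕ) [NeZero m] {T : Type*} [AddCommGroup T]
  (Θ : T ≃+ Additive (charPE (Gamma1pm M) (rootsOfUnity m ℂ)))

/-- `xi` turns `heckeCharHom1` into `heckeHom1`. -/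
theorem peRes_xiOfTheta_hecke (y y' : T)
    (h : thetaChar (Gamma1pm M) m Θ y' =
      heckeCharHom1 hpM t (rootsOfUnity m ℂ) (thetaChar (Gamma1pm M) m Θ y)) :
    peRes (Gamma1pm M) ℤ (ZMod m) (xiOfTheta (Gamma1pm M) m Θ y')
      = heckeHom1 hpM t (ZMod m) (peRes (Gamma1pm M) ℤ (ZMod m) (xiOfTheta (Gamma1pm M) m Θ y)) := by
  rw [peRes_xiOfTheta, peRes_xiOfTheta, h, toAdditive_heckeCharHom1, heckeHom1_comp]

/-- `xi` turns `diamCharHom τ` into `diamHom τ`. -/
theorem peRes_xiOfTheta_diam (τ : Gamma0 M) (y y' : T)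
    (h : thetaChar (Gamma1pm M) m Θ y' =
      diamCharHom τ (rootsOfUnity m ℂ) (thetaChar (Gamma1pm M) m Θ y)) :
    peRes (Gamma1pm M) ℤ (ZMod m) (xiOfTheta (Gamma1pm M) m Θ y')
      = diamHom τ (ZMod m) (peRes (Gamma1pm M) ℤ (ZMod m) (xiOfTheta (Gamma1pm M) m Θ y)) := by
  rw [peRes_xiOfTheta, peRes_xiOfTheta, h, toAdditive_diamCharHom, diamHom_comp]

/-- `xi` turns `heckeCharHom1 ∘ diamCharHom τ` into `heckeHom1 ∘ diamHom τ`. -/
theorem peRes_xiOfTheta_hecke_twisted (τ : Gamma0 M) (y y' : T)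
    (h : thetaChar (Gamma1pm M) m Θ y' =
      heckeCharHom1 hpM t (rootsOfUnity m ℂ)
        (diamCharHom τ (rootsOfUnity m ℂ) (thetaChar (Gamma1pm M) m Θ y))) :
    peRes (Gamma1pm M) ℤ (ZMod m) (xiOfTheta (Gamma1pm M) m Θ y')
      = heckeHom1 hpM t (ZMod m) (diamHom τ (ZMod m)
          (peRes (Gamma1pm M) ℤ (ZMod m) (xiOfTheta (Gamma1pm M) m Θ y))) := by
  rw [peRes_xiOfTheta, peRes_xiOfTheta, h, toAdditive_heckeCharHom1, toAdditive_diamCharHom,
    diamHom_comp, heckeHom1_comp]

end Gamma1pm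

end Fermat.Agent.S48x.G1.Xi
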