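import Mathlib
import Fermat.Agent.S48x.G1.XiGeneric

/-!
# P-S48, G1 [XI]: the standard Hecke operator `T_p = T_p^naive ∘ ⟨p⟩` under `xi` (helper4)

On characters of `±Γ₁(M)` with values in a commutative group the diamond operator `diamCharHom τ`
only depends on the lower right entry of `τ` (up to sign), is multiplicative in `τ`, and is trivial
for `τ ∈ ±Γ₁(M)`.  Consequently, if `θ` turns

* the diamond automorphism `D` into `diamCharHom τ` (`lr τ = p`), and
* the naive Hecke correspondence `T^naive = incl_* V_p^*` into `heckeCharHom1 ∘ diamCharHom δ`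
  (`lr δ = p⁻¹`; `HeckeFF/NormProd1.lean`),

then it turns `T^naive ∘ D` into `heckeCharHom1`, and `xi` turns it into `heckeHom1`: this is the
field `xi_T` of `G1.Final.JSide1` for `TJ p := heckeL ∘ DJ ⟨p⟩`.
-/

set_option autoImplicit false
set_option linter.unusedSectionVars false

namespace Fermat.Agent.S48x.G1.Xi

open CongruenceSubgroup Fermat.Agent.Gateway.A2 Fermat.Agent.Gateway.A2.Count
open Fermat.Agent.S48x.G1
open scoped MatrixGroups

section DiamChar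

variable {M : ℕ} [NeZero M] (C : Type*) [CommGroup C]

theorem diamCharHom_mul' (τ τ' : Gamma0 M) (χ : Gamma1pm M →* C) :
    diamCharHom (τ * τ') C χ = diamCharHom τ' C (diamCharHom τ C χ) := by
  refine MonoidHom.ext fun γ => ?_
  rw [diamCharHom_apply, diamCharHom_apply, diamCharHom_apply]
  congr 1
  apply Subtype.ext
  simp [conjBy_coe, mul_assoc]

/-- Conjugation by an element of `±Γ₁(M)` acts trivially on characters. -/
theorem diamCharHom_of_mem (τ : Gamma0 M) (hτ : (τ : SL(2, ℤ)) ∈ Gamma1pm M)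
    (χ : Gamma1pm M →* C) : diamCharHom τ C χ = χ := by
  refine MonoidHom.ext fun γ => ?_
  rw [diamCharHom_apply]
  have h : conjBy τ γ = (⟨(τ : SL(2, ℤ)), hτ⟩ : Gamma1pm M) * γ * (⟨(τ : SL(2, ℤ)), hτ⟩)⁻¹ := by
    apply Subtype.ext
    simp [conjBy_coe]
  rw [h, map_mul, map_mul, map_inv, mul_comm, inv_mul_cancel_left]

/-- `lr τ = ±1` means `τ ∈ ±Γ₁(M)`. -/
theorem diamCharHom_of_lr (τ : Gamma0 M)
    (h : lr M (τ : SL(2, ℤ)) = 1 ∨ lr M (τ : SL(2, ℤ)) = -1)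
    (χ : Gamma1pm M →* C) : diamCharHom τ C χ = χ :=
  diamCharHom_of_mem C τ (mem_Gamma1pm_iff.mpr ⟨τ.2, h⟩) χ

/-- Two diamond operators whose lower right entries are inverse to each other (up to sign)
cancel. -/
theorem diamCharHom_diamCharHom_of_lr (δ τ : Gamma0 M)
    (h : lr M (δ : SL(2, ℤ)) * lr M (τ : SL(2, ℤ)) = 1 ∨
      lr M (δ : SL(2, ℤ)) * lr M (τ : SL(2, ℤ)) = -1)
    (χ : Gamma1pm M →* C) : diamCharHom δ C (diamCharHom τ C χ) = χ := by
  rw [← diamCharHom_mul']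
  apply diamCharHom_of_lr
  show lr M ((τ : SL(2, ℤ)) * (δ : SL(2, ℤ))) = 1 ∨ lr M ((τ : SL(2, ℤ)) * (δ : SL(2, ℤ))) = -1
  rw [lr_mul τ.2, mul_comm]
  exact h

end DiamChar

section Std

variable {M p : ℕ} [NeZero M] [Fact p.Prime] (hpM : ¬ p ∣ M) (t : Twist M p)
  (m : ℕ) [NeZero m] {T : Type*} [AddCommGroup T]
  (Θ : T ≃+ Additive (charPE (Gamma1pm M) (rootsOfUnity m ℂ)))

/-- **`xi_T` for the standard Hecke operator.**  If `y' = D y` with `θ (D y) = ⟨τ⟩ θ y` and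
`y'' = T^naive y'` with `θ (T^naive y') = T_p (⟨δ⟩ θ y')`, `lr δ * lr τ = ±1`, then
`peRes (xi y'') = heckeHom1 (peRes (xi y))`. -/
theorem peRes_xiOfTheta_std (δ τ : Gamma0 M)
    (hδτ : lr M (δ : SL(2, ℤ)) * lr M (τ : SL(2, ℤ)) = 1 ∨
      lr M (δ : SL(2, ℤ)) * lr M (τ : SL(2, ℤ)) = -1)
    (y y' y'' : T)
    (h1 : thetaChar (Gamma1pm M) m Θ y' =
      diamCharHom τ (rootsOfUnity m ℂ) (thetaChar (Gamma1pm M) m Θ y))
    (h2 : thetaChar (Gamma1pm M) m Θ y'' =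
      heckeCharHom1 hpM t (rootsOfUnity m ℂ)
        (diamCharHom δ (rootsOfUnity m ℂ) (thetaChar (Gamma1pm M) m Θ y'))) :
    peRes (Gamma1pm M) ℤ (ZMod m) (xiOfTheta (Gamma1pm M) m Θ y'')
      = heckeHom1 hpM t (ZMod m)
          (peRes (Gamma1pm M) ℤ (ZMod m) (xiOfTheta (Gamma1pm M) m Θ y)) := by
  apply peRes_xiOfTheta_hecke hpM t m Θ y y''
  rw [h2, h1, diamCharHom_diamCharHom_of_lr (rootsOfUnity m ℂ) δ τ hδτ]

end Std

end Fermat.Agent.S48x.G1.Xi
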