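import Mathlib
import Fermat.Agent.S48x.HeckeFF.ThetaInst
import Fermat.Agent.S48x.G1.XiStd
import Fermat.Agent.S48x.Ana.Emb1Slash
import Fermat.Agent.S48x.Ana.DegreeF1
import Fermat.Agent.S48x.Ana.DiamondPic

/-!
# P-S48, G1 [XI]: `θ_ℂ` for `X₁(M)` intertwines Hecke and diamond operators (helper4)

Concrete instance of `HeckeFF/ThetaInst.lean` and `HeckeFF/Theta.lean` for
`F₀ = Model.gamma1Field M`, with the analytic uniformisation `Ana.Emb1.embDataC hM` (helper8),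
its slash data `Ana.Emb1.slashDataC hM` and the diamond automorphisms `Ana.Diamond.diamond`
(helper77).  `θ_ℂ := S27x.Theta.theta (dictC hM) : Pic⁰(F1 ℂ M)[m] →+ Hom_pe(±Γ₁(M), μ_m)` is the
underlying map of `G1a.thetaEquivC` (for `D := embDataC hM`, `hn := NeZero.pos M`,
`hcusp := hcusp_embDataC hM`).

* `theta_heckeL_C` : `θ (heckeL x) = T_p (⟨δ⟩ θ x)`, `δ = twDelta hpM` (`lr δ * p = 1`);
* `theta_diamond_C` : `θ (⟨d⟩ x) = ⟨τ⟩ θ x` for `τ ∈ Γ₀(M)`, `lr τ = d`;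
* `theta_heckeStd_C` : `θ (heckeL (⟨p⟩ x)) = T_p (θ x)`  (standard Hecke operator, no twist);
* the same three in `xi`-form (`peRes`), i.e. the shapes of `JSide1.xi_T`, `JSide1.xi_D`.
-/

set_option autoImplicit false
set_option linter.unusedSectionVars false
set_option linter.style.haveILetI false

open UpperHalfPlane CongruenceSubgroup Matrix.SpecialLinearGroup
open scoped MatrixGroups
open AlgebraicCurve ModularCurve IntermediateField

namespace Fermat.Agent.S48x.G1.ThetaC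

open Fermat.Agent.S24 Fermat.Agent.S24.CuspOrd
open Fermat.Agent.Gateway.A2 Fermat.Agent.Gateway.A2.Count
open Fermat.Agent.Gateway.Dict.ConjAbs Fermat.Agent.Gateway.Dict.QExpMer
open Fermat.Agent.S27x Fermat.Agent.S27x.Theta
open Fermat.Agent.S48x.G1 Fermat.Agent.S48x.HeckeFF Fermat.Agent.S48x.HeckeFF.ThetaEq
open Fermat.Agent.S48x.Model Fermat.Agent.S48x.Ana Fermat.Agent.S48x.Ana.Emb1
open Fermat.Agent.S48x.Ana.DegreeF1 Fermat.Agent.S48x.PPack

variable {M : ℕ} [NeZero M] (hM : 8 ≤ M)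
  [IsCurveOver ℂ ↥(laurentBaseChange ℂ (gamma1Field M))]

/-- The dictionary input of `S27x/Theta` for `X₁(M)` over `ℂ`. -/
noncomputable def dictC :
    DictInputG (Gamma1pm M) M ↥(laurentBaseChange ℂ (gamma1Field M)) :=
  A.dictInput (embDataC hM) (NeZero.pos M) (hcusp_embDataC hM)

@[simp] theorem dictC_emb : (dictC hM).emb = (embDataC hM).emb := rfl

/-- `θ_ℂ : Pic⁰(F1 ℂ M)[m] →+ Hom_pe(±Γ₁(M), μ_m)` (the underlying map of `G1a.thetaEquivC`). -/
noncomputable def thetaC (m : ℕ) [NeZero m] :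
    Pic0.torsion ℂ ↥(laurentBaseChange ℂ (gamma1Field M)) m →+
      Additive (charPE (Gamma1pm M) (rootsOfUnity m ℂ)) :=
  theta (dictC hM) (NeZero.pos M)

theorem thetaC_eq (m : ℕ) [NeZero m] :
    thetaC hM m = theta (A.dictInput (embDataC hM) (NeZero.pos M) (hcusp_embDataC hM))
      (NeZero.pos M) := rfl

theorem hasQ_embDataC' (f : ↥(laurentBaseChange ℂ (gamma1Field M))) :
    HasQ ((embDataC hM).emb f) (coeffMap (RingHom.id ℂ) (f : LaurentSeries ℂ)) :=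
  hasQ_embData1 (ι := RingHom.id ℂ) hM (CycloUnit.isPrimitiveRoot_zetaM M) rfl f

section Hecke

variable {p : ℕ} [Fact p.Prime] (hpM : ¬ p ∣ M) (t : Twist M p) {m : ℕ} [NeZero m]
  [FiniteDimensional ℂ⟮jG ℂ (jq_mem_gamma1Field M)⟯ ↥(laurentBaseChange ℂ (gamma1Field M))]

/-- **`θ_ℂ (heckeL x) = T_p (⟨δ⟩ θ_ℂ x)`** for the naive Hecke correspondence
`heckeL = incl_* V_p^*` of `X₁(M)`, `δ = twDelta hpM` (`lr δ * p = 1`). -/
theorem thetaC_heckeL (x : Pic0.torsion ℂ ↥(laurentBaseChange ℂ (gamma1Field M)) m) :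
    thetaC hM m (torsionMap (heckeL ℂ p (Fact.out : p.Prime) (jq_mem_gamma1Field M)) m x) =
      Additive.ofMul (heckeChar1 hpM t (rootsOfUnity m ℂ)
        (diamChar (twDelta hpM) (rootsOfUnity m ℂ) (Additive.toMul (thetaC hM m x)))) :=
  theta_heckeL hpM (NeZero.pos M) (jq_mem_gamma1Field M) (embDataC hM) (hasQ_embDataC' hM)
    (hcusp_embDataC hM) (dvd_mul_right M p) t x

end Hecke

section Diamond

variable {m : ℕ} [NeZero m]

/-- The diamond automorphism `⟨d⟩` of `F1 ℂ M` as a semilinear automorphism. -/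
noncomputable def diamC (d : (ZMod M)ˣ) :
    SemilinearAut ℂ ↥(laurentBaseChange ℂ (gamma1Field M)) :=
  Diamond.diamondSemi (CycloUnit.isPrimitiveRoot_zetaM M) (slashDataC hM) d

theorem diamC_smul_pic (d : (ZMod M)ˣ) (x : Pic0 ℂ ↥(laurentBaseChange ℂ (gamma1Field M))) :
    diamC hM d • x =
      Diamond.diamondPic (CycloUnit.isPrimitiveRoot_zetaM M) (slashDataC hM) d x := rfl

/-- **`θ_ℂ (⟨d⟩ x) = ⟨τ⟩ θ_ℂ x`** for every `τ ∈ Γ₀(M)` with lower right entry `d`. -/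
theorem thetaC_diamond (d : (ZMod M)ˣ) (τ : Gamma0 M)
    (hτ : lr M (τ : SL(2, ℤ)) = (d : ZMod M))
    (x : Pic0.torsion ℂ ↥(laurentBaseChange ℂ (gamma1Field M)) m) :
    thetaC hM m (diamC hM d • x) =
      Additive.ofMul (diamChar τ (rootsOfUnity m ℂ) (Additive.toMul (thetaC hM m x))) :=
  theta_smul (dictC hM) (NeZero.pos M) τ (diamC hM d)
    (fun f => Diamond.emb_diamond_inv (CycloUnit.isPrimitiveRoot_zetaM M) (slashDataC hM) d τ.2
      hτ f) x

end Diamond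

section Std

variable {p : ℕ} [Fact p.Prime] (hpM : ¬ p ∣ M) (t : Twist M p) {m : ℕ} [NeZero m]
  [FiniteDimensional ℂ⟮jG ℂ (jq_mem_gamma1Field M)⟯ ↥(laurentBaseChange ℂ (gamma1Field M))]

/-- **`θ_ℂ (heckeL (⟨p⟩ x)) = T_p (θ_ℂ x)`**: the standard Hecke operator
`T_p = T_p^naive ∘ ⟨p⟩` corresponds to `heckeChar1` with NO diamond twist. -/
theorem thetaC_heckeStd (d : (ZMod M)ˣ) (hd : (d : ZMod M) = (p : ZMod M))
    (x : Pic0.torsion ℂ ↥(laurentBaseChange ℂ (gamma1Field M)) m) :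
    thetaC hM m (torsionMap (heckeL ℂ p (Fact.out : p.Prime) (jq_mem_gamma1Field M)) m
        (diamC hM d • x)) =
      Additive.ofMul (heckeChar1 hpM t (rootsOfUnity m ℂ) (Additive.toMul (thetaC hM m x))) := by
  rw [thetaC_heckeL hM hpM t, thetaC_diamond hM d ⟨t.σ, t.mem⟩ (t.lr_eq.trans hd.symm) x]
  congr 2
  apply Subtype.ext
  rw [toMul_ofMul, diamChar_coe, diamChar_coe]
  apply Xi.diamCharHom_diamCharHom_of_lr
  left
  show lr M ((twDelta hpM : Gamma0 M) : SL(2, ℤ)) * lr M t.σ = 1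
  rw [t.lr_eq]
  exact lr_twDelta_mul hpM

end Std

end Fermat.Agent.S48x.G1.ThetaC
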