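import Fermat.Agent.Gateway.Export.Core
import Fermat.Agent.S48x.G1a.Transfer
import Fermat.Agent.S48x.HeckeFF.Theta
import Fermat.Agent.S48x.HeckeFF.BaseChange
import Fermat.Agent.S48x.HeckeFF.Twist
import Fermat.Agent.S48x.Coh.TT1

/-!
# P-S48, G1 final glue, part 1 (helper23): `xi : J₁(M)[m] ≃ Hom(Q, ℤ/m)` and its equivariance

* complex side, generic in a dictionary input `I : DictInputG (±Γ₁(M)) N F` with classified places:
  `xiC I hN hP m : Pic⁰(F)[m] ≃+ (QLat1 M →+ ZMod m)` (`θ`, then `charToHom`, then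
  `rootsEquiv`), with
  `peRes_xiC`, `peRes_xiC_corrOf` (Hecke correspondence, from `ThetaEq.thetaFun_corrOf`),
  `peRes_xiC_smul` (diamond automorphisms, from `ThetaEq.thetaFun_smul`);
* transfer to `ℚ̄`, generic in a rational model field `Fq ⊆ ℚ((q))`:
  `xiK hx D hn hcusp m : Pic⁰(Fq_ℚ̄)[m] ≃+ (QLat1 M →+ ZMod m)` with
  `peRes_xiK_of_bc_corrOf`, `peRes_xiK_of_bc_smul`: an additive operator on `Pic⁰(Fq_ℚ̄)` whose base
  change to `ℂ` is a correspondence with the norm-product formula (resp. a semilinear automorphism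
  inducing `τ⁻¹` on `MerFun`) acts through `heckeHom1` (resp. `diamHom τ`) on `Hom(±Γ₁(M), ℤ/m)`.
-/

set_option autoImplicit false
set_option linter.unusedSectionVars false
set_option linter.style.haveILetI false

noncomputable section

open scoped MatrixGroups
open CongruenceSubgroup ModularCurve AlgebraicCurve IntermediateField

namespace Fermat.Agent.S48x.G1.Xi

open Fermat.Agent.S24 Fermat.Agent.S24.Setup Fermat.Agent.S24.CuspOrd
open Fermat.Agent.Gateway.A2 Fermat.Agent.Gateway.A2.Count Fermat.Agent.Gateway.Export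
open Fermat.Agent.Gateway.Dict.ConjAbs
open Fermat.Agent.S27x Fermat.Agent.S27x.Theta
open Fermat.Agent.S48x.G1 Fermat.Agent.S48x.HeckeFF Fermat.Agent.S48x.HeckeFF.ThetaEq
open Fermat.Agent.S48x.Coh

/-! ### The complex side -/

section Complex

variable {M : ℕ} [NeZero M] {N : ℕ} {F : Type*} [Field F] [Algebra ℂ F]
  (I : DictInputG (Gamma1pm M) N F) (hN : 0 < N) (hP : PlaceCases I) [HasPrincipalDivisors ℂ F]

/-- the complex side: `Pic⁰(F)[m] ≃ Hom(Q, ℤ/m)`. -/
def xiC (m : ℕ) [NeZero m] : Pic0.torsion ℂ F m ≃+ (QLat1 M →+ ZMod m) :=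
  (thetaEquivG m hN hP).trans
    ((charToHom (Gamma1pm M) (rootsOfUnity m ℂ)).trans (postcompEquiv (rootsEquiv m)))

theorem peRes_xiC (m : ℕ) [NeZero m] (y : Pic0.torsion ℂ F m) :
    peRes (Gamma1pm M) ℤ (ZMod m) (xiC I hN hP m y)
      = (rootsEquiv m).toAddMonoidHom.comp (MonoidHom.toAdditive (thetaFun I m y)) := by
  have h1 : peRes (Gamma1pm M) ℤ (ZMod m) (xiC I hN hP m y)
      = (rootsEquiv m).toAddMonoidHom.comp
          (peRes (Gamma1pm M) ℤ (Additive (rootsOfUnity m ℂ))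
            (charToHom (Gamma1pm M) (rootsOfUnity m ℂ) (theta I hN y))) := rfl
  rw [h1, peRes_charToHom, theta_apply]

/-- **Hecke equivariance of `xiC`**: a class `y'` which is the image of `y` under a correspondence
satisfying the norm-product formula. -/
theorem peRes_xiC_corrOf {p : ℕ} [Fact p.Prime] (hpM : ¬ p ∣ M) (t : Twist M p)
    {F' : Type*} [Field F'] [Algebra ℂ F'] {φ ψ : F →ₐ[ℂ] F'} (J : FFInputs φ ψ)
    (hD5 : NormProdFormula1 t I J) (m : ℕ) [NeZero m] (y y' : Pic0.torsion ℂ F m)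
    (hy : (y' : Pic0 ℂ F) = corrOf J (y : Pic0 ℂ F)) :
    peRes (Gamma1pm M) ℤ (ZMod m) (xiC I hN hP m y')
      = heckeHom1 hpM t (ZMod m) (peRes (Gamma1pm M) ℤ (ZMod m) (xiC I hN hP m y)) := by
  rw [peRes_xiC, peRes_xiC, thetaFun_corrOf hpM t I J hD5 y y' hy, toAdditive_heckeCharHom1,
    heckeHom1_comp]

/-- **Diamond equivariance of `xiC`**. -/
theorem peRes_xiC_smul (τ : Gamma0 M) (g : SemilinearAut ℂ F)
    (hg : ∀ f : F, I.emb (g • f) = (τ : SL(2, ℤ))⁻¹ • I.emb f) (m : ℕ) [NeZero m]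
    (y y' : Pic0.torsion ℂ F m) (hy : (y' : Pic0 ℂ F) = g • (y : Pic0 ℂ F)) :
    peRes (Gamma1pm M) ℤ (ZMod m) (xiC I hN hP m y')
      = diamHom τ (ZMod m) (peRes (Gamma1pm M) ℤ (ZMod m) (xiC I hN hP m y)) := by
  rw [peRes_xiC, peRes_xiC, thetaFun_smul I τ g hg y y' hy, toAdditive_diamCharHom,
    diamHom_comp]

end Complex

/-! ### Transfer to `ℚ̄` -/

section Transfer

attribute [local instance] Fermat.Agent.Gateway.BaseChange.Modular.algKbarC

variable {M : ℕ} [NeZero M] {Fq : IntermediateField ℚ (LaurentSeries ℚ)}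
  {x : laurentBaseChange Kbar Fq} (hx : Transcendental Kbar x)
  [FiniteDimensional Kbar⟮x⟯ (laurentBaseChange Kbar Fq)]
  {y : laurentBaseChange ℂ Fq}
  (D : EmbData ℂ (laurentBaseChange ℂ Fq) (RingHom.id ℂ) y (Gamma1pm M)) {n : ℕ} (hn : 0 < n)
  (hcusp : ∀ (f : laurentBaseChange ℂ Fq) (g : SL(2, ℤ)), IsCuspMer n (g • D.emb f))

/-- The dictionary input of `S27x/Theta` attached to the analytic realisation `D`. -/
def dictOf : DictInputG (Gamma1pm M) n (laurentBaseChange ℂ Fq) :=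
  haveI := G1a.isCurveOver_FC hx
  A.dictInput D hn hcusp

@[simp] theorem dictOf_emb : (dictOf hx D hn hcusp).emb = D.emb := rfl

theorem placeCases_dictOf : PlaceCases (dictOf hx D hn hcusp) :=
  haveI := G1a.isCurveOver_FC hx
  A.placeCases D hn hcusp

include hx in
theorem hasPrincipalDivisors_FC : HasPrincipalDivisors ℂ (laurentBaseChange ℂ Fq) :=
  haveI := G1a.isCurveOver_FC hx
  inferInstance

/-- `Pic⁰(Fq_ℚ̄)[m] ≃ Hom(Q, ℤ/m)`: base change to `ℂ`, then `xiC`. -/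
def xiK (m : ℕ) [NeZero m] :
    Pic0.torsion Kbar (laurentBaseChange Kbar Fq) m ≃+ (QLat1 M →+ ZMod m) :=
  haveI := hasPrincipalDivisors_FC hx
  haveI := G1a.finite_torsion_C hx D hn hcusp (Nat.pos_of_ne_zero (NeZero.ne m))
  (G1a.torsionEquiv hx m).trans
    (xiC (dictOf hx D hn hcusp) hn (placeCases_dictOf hx D hn hcusp) m)

/-- **Hecke equivariance of `xiK`**: `z'` is the image of `z` under an operator whose base change
to `ℂ` is a correspondence with the norm-product formula. -/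
theorem peRes_xiK_of_bc_corrOf {p : ℕ} [Fact p.Prime] (hpM : ¬ p ∣ M) (t : Twist M p)
    {F' : Type*} [Field F'] [Algebra ℂ F'] {φ ψ : laurentBaseChange ℂ Fq →ₐ[ℂ] F'}
    (J : FFInputs φ ψ) (hD5 : NormProdFormula1 t (dictOf hx D hn hcusp) J)
    (m : ℕ) [NeZero m] (z z' : Pic0.torsion Kbar (laurentBaseChange Kbar Fq) m)
    (hz : G1a.bcPic0 hx (z' : Pic0 Kbar (laurentBaseChange Kbar Fq))
      = corrOf J (G1a.bcPic0 hx (z : Pic0 Kbar (laurentBaseChange Kbar Fq)))) :
    peRes (Gamma1pm M) ℤ (ZMod m) (xiK hx D hn hcusp m z')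
      = heckeHom1 hpM t (ZMod m) (peRes (Gamma1pm M) ℤ (ZMod m) (xiK hx D hn hcusp m z)) := by
  haveI := hasPrincipalDivisors_FC hx
  haveI := G1a.finite_torsion_C hx D hn hcusp (Nat.pos_of_ne_zero (NeZero.ne m))
  exact peRes_xiC_corrOf (dictOf hx D hn hcusp) hn (placeCases_dictOf hx D hn hcusp) hpM t J hD5 m
    (G1a.torsionEquiv hx m z) (G1a.torsionEquiv hx m z')
    (by rw [G1a.coe_torsionEquiv, G1a.coe_torsionEquiv]; exact hz)

/-- **Diamond equivariance of `xiK`**: `z'` is the image of `z` under an operator whose base change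
to `ℂ` is a semilinear automorphism inducing `τ⁻¹` on `MerFun`. -/
theorem peRes_xiK_of_bc_smul (τ : Gamma0 M) (g : SemilinearAut ℂ (laurentBaseChange ℂ Fq))
    (hg : ∀ f : laurentBaseChange ℂ Fq, D.emb (g • f) = (τ : SL(2, ℤ))⁻¹ • D.emb f)
    (m : ℕ) [NeZero m] (z z' : Pic0.torsion Kbar (laurentBaseChange Kbar Fq) m)
    (hz : G1a.bcPic0 hx (z' : Pic0 Kbar (laurentBaseChange Kbar Fq))
      = g • G1a.bcPic0 hx (z : Pic0 Kbar (laurentBaseChange Kbar Fq))) :
    peRes (Gamma1pm M) ℤ (ZMod m) (xiK hx D hn hcusp m z')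
      = diamHom τ (ZMod m) (peRes (Gamma1pm M) ℤ (ZMod m) (xiK hx D hn hcusp m z)) := by
  haveI := hasPrincipalDivisors_FC hx
  haveI := G1a.finite_torsion_C hx D hn hcusp (Nat.pos_of_ne_zero (NeZero.ne m))
  exact peRes_xiC_smul (dictOf hx D hn hcusp) hn (placeCases_dictOf hx D hn hcusp) τ g hg m
    (G1a.torsionEquiv hx m z) (G1a.torsionEquiv hx m z')
    (by rw [G1a.coe_torsionEquiv, G1a.coe_torsionEquiv]; exact hz)

end Transfer

end Fermat.Agent.S48x.G1.Xi
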