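/-
P-S48 (Deligne-Serre), G1 final glue, the DIAMOND field `xi_D` of `G1.Final.JSide1` (helper77).

Everything is a composite of landed pieces:

* `G1a/ThetaHecke.thetaChar_thetaEquivKbar_smul` (helper79): `θ_K (g₀ • z) = diamChar τ (θ_K z)`
  for semilinear automorphisms `g₀` of `F₀ ⊗ ℚ̄`, `g₁` of `F₀ ⊗ ℂ` intertwined by the base change,
  with `emb (g₁ • f) = τ⁻¹ • emb f`;
* `Ana/DiamondBC.diamondSemi_smul_setupG_ι` : the diamond automorphisms are so intertwined;
* `Ana/Diamond.emb_diamond_inv` at `Ana/DiamondInst.slashData1` over `ℂ` (whose `emb` is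
  `(Emb1.embDataC hM).emb` by `rfl`): `emb (δ_d f) = τ⁻¹ • emb f` for `τ ∈ Γ₀(M)`, `lr M τ = d`;
* `G1/XiGeneric.peRes_xiOfTheta_diam` (helper4): from characters to `peRes ∘ xi`.

RESULTS (local instance `algKbarC : Algebra ℚ̄ ℂ`; `θ_K := thetaEquivKbar hx (embDataC hM)
(NeZero.pos M) (hcusp_embDataC hM) m`; `ζ : ℚ̄` primitive with `algebraMap ℚ̄ ℂ ζ = zetaM M`; ANY
`SlashData M ℚ̄ ζ ιK` over `ℚ̄`):

* `thetaChar_diamondSemi` : `thetaChar θ_K (diamondSemi hζ D d • z) = diamCharHom τ (thetaChar θ_K z)`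
  for `τ : Gamma0 M`, `lr M τ = d`;
* `peRes_xiOfTheta_diamondSemi` : the same after `Xi.xiOfTheta`;
* `xiD_of_torsEquiv` : the field `xi_D` of `JSide1` in EXACTLY its shape, for `DJ := DJ1 I`
  (`G1/JDefs.lean`) and `xi := Xi.xiOfTheta _ m (e.trans θ_K)`, `e : tors (J1 M) m ≃+
  Pic0.torsion ℚ̄ (F1Qb M) m` any additive equivalence which is the identity on underlying points;
* `torsEquiv m : tors (J1 M) m ≃+ Pic0.torsion ..` such an equivalence, and `xiD_torsEquiv`.
-/
import Fermat.Agent.S48x.G1a.ThetaHecke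
import Fermat.Agent.S48x.Ana.DiamondBC
import Fermat.Agent.S48x.G1.JDefs

set_option autoImplicit false
set_option linter.unusedSectionVars false
set_option linter.style.haveILetI false

noncomputable section

open ModularCurve AlgebraicCurve IntermediateField
open scoped MatrixGroups

namespace Fermat.Agent.S48x.G1.XiD

open CongruenceSubgroup
open Fermat.Agent.S24.Setup Fermat.Agent.Gateway.BaseChange.Modular
open Fermat.Agent.Gateway.A2 Fermat.Agent.Gateway.A2.Count
open Fermat.Agent.S48x.Model Fermat.Agent.S48x.G1 Fermat.Agent.S48x.G1a Fermat.Agent.S48x.HeckeFF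
  Fermat.Agent.S48x.Ana.Diamond Fermat.Agent.S48x.Ana.Emb1 Fermat.Agent.S48x.PPack
  Fermat.Agent.S48x.PPack.CycloUnit Fermat.Agent.S48x.G1.Export Fermat.Agent.S48x.G1.JSide

attribute [local instance] Fermat.Agent.Gateway.BaseChange.Modular.algKbarC

/-! ### The `θ`-level statement -/

section Theta

variable {M : ℕ} [NeZero M] (hM : 8 ≤ M) {ζ : Kbar} (hζ : IsPrimitiveRoot ζ M)
  {ιK : Kbar →+* ℂ} (D : SlashData M Kbar ζ ιK) (hι : algebraMap Kbar ℂ ζ = zetaM M)
  {x : ↥(laurentBaseChange Kbar (gamma1Field M))} (hx : Transcendental Kbar x)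
  [FiniteDimensional Kbar⟮x⟯ ↥(laurentBaseChange Kbar (gamma1Field M))]

/-- The slash dictionary over `ℂ` whose embedding is `(embDataC hM).emb`. -/
def slashDataC1 : SlashData M ℂ (zetaM M) (RingHom.id ℂ) :=
  slashData1 (ι := RingHom.id ℂ) hM (isPrimitiveRoot_zetaM M) rfl

theorem slashDataC1_emb : (slashDataC1 hM).emb = (embDataC hM).emb := rfl

include hι in
/-- **`θ_K (⟨d⟩ z) = ⟨τ⟩ (θ_K z)`** for `τ ∈ Γ₀(M)` with lower right entry `d`. -/
theorem thetaChar_diamondSemi (d : (ZMod M)ˣ) (τ : Gamma0 M)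
    (hτ : lr M (τ : SL(2, ℤ)) = (d : ZMod M)) (m : ℕ) [NeZero m]
    (z : Pic0.torsion Kbar ↥(laurentBaseChange Kbar (gamma1Field M)) m) :
    Xi.thetaChar (Gamma1pm M) m
        (thetaEquivKbar hx (embDataC hM) (NeZero.pos M) (hcusp_embDataC hM) m)
        (diamondSemi hζ D d • z)
      = diamCharHom τ (rootsOfUnity m ℂ)
          (Xi.thetaChar (Gamma1pm M) m
            (thetaEquivKbar hx (embDataC hM) (NeZero.pos M) (hcusp_embDataC hM) m) z) :=
  thetaChar_thetaEquivKbar_smul hx (embDataC hM) (NeZero.pos M) (hcusp_embDataC hM) τ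
    (diamondSemi hζ D d) (diamondSemi (isPrimitiveRoot_zetaM M) (slashDataC1 hM) d)
    (diamondSemi_smul_setupG_ι hζ D (isPrimitiveRoot_zetaM M) (slashDataC1 hM) hι d)
    (fun f => emb_diamond_inv (isPrimitiveRoot_zetaM M) (slashDataC1 hM) d τ.2 hτ f) m z

include hι in
/-- The same after `Xi.xiOfTheta`, for `θ_K` precomposed with any additive equivalence. -/
theorem peRes_xiOfTheta_diamondSemi (d : (ZMod M)ˣ) (τ : Gamma0 M)
    (hτ : lr M (τ : SL(2, ℤ)) = (d : ZMod M)) (m : ℕ) [NeZero m]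
    {T : Type*} [AddCommGroup T]
    (e : T ≃+ Pic0.torsion Kbar ↥(laurentBaseChange Kbar (gamma1Field M)) m) (y y' : T)
    (hy : e y' = diamondSemi hζ D d • e y) :
    peRes (Gamma1pm M) ℤ (ZMod m)
        (Xi.xiOfTheta (Gamma1pm M) m
          (e.trans (thetaEquivKbar hx (embDataC hM) (NeZero.pos M) (hcusp_embDataC hM) m)) y')
      = diamHom τ (ZMod m) (peRes (Gamma1pm M) ℤ (ZMod m)
          (Xi.xiOfTheta (Gamma1pm M) m
            (e.trans (thetaEquivKbar hx (embDataC hM) (NeZero.pos M) (hcusp_embDataC hM) m)) y)) := by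
  apply Xi.peRes_xiOfTheta_diam
  show Xi.thetaChar (Gamma1pm M) m
      (thetaEquivKbar hx (embDataC hM) (NeZero.pos M) (hcusp_embDataC hM) m) (e y') = _
  rw [hy, thetaChar_diamondSemi hM hζ D hι hx d τ hτ m (e y)]
  rfl

end Theta

/-! ### The field `xi_D` -/

section Field

variable {M : ℕ} [NeZero M]

/-- The two descriptions of the `m`-torsion of `J1 M`. -/
def torsEquiv (m : ℕ) : tors (J1 M) m ≃+ Pic0.torsion Kbar (F1Qb M) m where
  toFun y := ⟨y.1, Pic0.mem_torsion.mpr (by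
    have h : m • (y.1 : J1 M) = 0 := y.2
    rw [natCast_zsmul]; exact h)⟩
  invFun z := ⟨z.1, by
    have h : ((m : ℕ) : ℤ) • (z.1 : J1 M) = 0 := Pic0.mem_torsion.mp z.2
    rw [natCast_zsmul] at h
    exact h⟩
  left_inv _ := rfl
  right_inv _ := rfl
  map_add' _ _ := rfl

@[simp]
theorem coe_torsEquiv (m : ℕ) (y : tors (J1 M) m) :
    ((torsEquiv m y : Pic0.torsion Kbar (F1Qb M) m) : J1 M) = y := rfl

variable (I : JData M) (hI : algebraMap Kbar ℂ I.ζ = zetaM M) (hM : 8 ≤ M)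
  {x : ↥(laurentBaseChange Kbar (gamma1Field M))} (hx : Transcendental Kbar x)
  [FiniteDimensional Kbar⟮x⟯ ↥(laurentBaseChange Kbar (gamma1Field M))]

include hI in
/-- **The field `xi_D` of `JSide1`**, for `DJ := DJ1 I` and `xi := xiOfTheta (e.trans θ_K)` with `e`
the identity on underlying points. -/
theorem xiD_of_torsEquiv (m : ℕ) [NeZero m]
    (e : tors (J1 M) m ≃+ Pic0.torsion Kbar (F1Qb M) m)
    (he : ∀ y, ((e y : Pic0.torsion Kbar (F1Qb M) m) : J1 M) = y) (d : (ZMod M)ˣ) :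
    ∃ τ : Gamma0 M,
      (lr M (τ : SL(2, ℤ)) = (d : ZMod M) ∨ lr M (τ : SL(2, ℤ)) = -(d : ZMod M)) ∧
      ∀ y : tors (J1 M) m,
        peRes (Gamma1pm M) ℤ (ZMod m)
            (Xi.xiOfTheta (Gamma1pm M) m
              (e.trans (thetaEquivKbar hx (embDataC hM) (NeZero.pos M) (hcusp_embDataC hM) m))
              ⟨DJ1 I d y, map_mem_tors (DJ1 I d) y.2⟩)
          = diamHom τ (ZMod m) (peRes (Gamma1pm M) ℤ (ZMod m)
              (Xi.xiOfTheta (Gamma1pm M) m
                (e.trans (thetaEquivKbar hx (embDataC hM) (NeZero.pos M) (hcusp_embDataC hM) m))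
                y)) := by
  obtain ⟨g, hg, hd⟩ := exists_mem_Gamma0_lr_eq d
  refine ⟨⟨g, hg⟩, Or.inl hd, fun y => ?_⟩
  refine peRes_xiOfTheta_diamondSemi hM I.hζ I.D hI hx d ⟨g, hg⟩ hd m e y _ ?_
  apply Subtype.ext
  rw [he, SemilinearAut.coe_torsion_smul, he]
  rfl

include hI in
/-- `xi_D` for the canonical `torsEquiv`. -/
theorem xiD_torsEquiv (m : ℕ) [NeZero m] (d : (ZMod M)ˣ) :
    ∃ τ : Gamma0 M,
      (lr M (τ : SL(2, ℤ)) = (d : ZMod M) ∨ lr M (τ : SL(2, ℤ)) = -(d : ZMod M)) ∧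
      ∀ y : tors (J1 M) m,
        peRes (Gamma1pm M) ℤ (ZMod m)
            (Xi.xiOfTheta (Gamma1pm M) m
              ((torsEquiv m).trans
                (thetaEquivKbar hx (embDataC hM) (NeZero.pos M) (hcusp_embDataC hM) m))
              ⟨DJ1 I d y, map_mem_tors (DJ1 I d) y.2⟩)
          = diamHom τ (ZMod m) (peRes (Gamma1pm M) ℤ (ZMod m)
              (Xi.xiOfTheta (Gamma1pm M) m
                ((torsEquiv m).trans
                  (thetaEquivKbar hx (embDataC hM) (NeZero.pos M) (hcusp_embDataC hM) m))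
                y)) :=
  xiD_of_torsEquiv I hI hM hx m (torsEquiv m) (coe_torsEquiv m) d

end Field

end Fermat.Agent.S48x.G1.XiD
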