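/-
P-S48 (Deligne-Serre), G1 [XI], CONCRETE INSTANCE (helper16): the three `xi`-fields of
`G1.Final.JSide1 M ℓ S` for the concrete Jacobian side of `G1/JDefs.lean`
(`J1 M = Pic0 Qb (laurentBaseChange Qb (gamma1Field M))`, `TJ1 I`, `DJ1 I`).

Composition of the landed pieces

* `Ana/Emb1Count.thetaEquivKbar hM m : Pic0.torsion Qb (F1K M) m ≃+ Hom_pe(±Γ₁(M), μ_m)` (helper24,
  on top of helper79's `G1a/Transfer` and helper8's `Ana/Emb1Inst.embDataC`);
* `G1/XiGeneric.xiOfTheta`, `peRes_xiOfTheta_diam`, `G1/XiStd.peRes_xiOfTheta_std` (helper4);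
* `G1a/ThetaHecke.thetaChar_thetaEquivKbar_smul`, `..._heckeG_twisted_smul` (helper79);
* `Ana/DiamondBC.diamondSemi_smul_setupG_ι` (helper77): base change `Qb → ℂ` of the diamonds;
* `HeckeFF/ThetaInst.normConjFormula_levelField` (helper4, from helper48's level-`(M; p)`
  dictionary);
* `G1/Adapt/TorsPic.torsPicEquiv` (`tors J m` versus `Pic0.torsion`).

RESULT, for `I : JData M` whose root of unity is sent to `zetaM M` by `S24.Setup.iota`
(`hIζ : algebraMap Qb ℂ I.ζ = zetaM M`; NO other condition on `I`):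

* `xi1 hM hℓ n : tors (J1 M) (ℓ ^ n) ≃+ (QLat1 M →+ ZMod (ℓ ^ n))`;
* `xiD1 : XiD (DJ1 I) (xi1 hM hℓ)`;
* `xiT1 : XiT (TJ1 I) (xi1 hM hℓ) S`;
* `exists_jSide1_of_kummer` : `∃ Jd : JSide1 M ℓ S, Jd.diamInv = false` from `KummerInputs I ℓ S`.
-/
import Fermat.Agent.S48x.G1.JSideKummer
import Fermat.Agent.S48x.G1.XiStd
import Fermat.Agent.S48x.G1.Adapt.TorsPic
import Fermat.Agent.S48x.G1a.ThetaHecke
import Fermat.Agent.S48x.Ana.Emb1Count
import Fermat.Agent.S48x.Ana.DiamondBC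
import Fermat.Agent.S48x.Ana.LevelPInst
import Fermat.Agent.S48x.HeckeFF.ThetaInst

set_option autoImplicit false
set_option linter.unusedSectionVars false
set_option linter.style.haveILetI false

noncomputable section

open CongruenceSubgroup ModularCurve AlgebraicCurve IntermediateField
open scoped MatrixGroups

namespace Fermat.Agent.S48x.G1.XiJ1

open Fermat.Agent.S24 Fermat.Agent.S24.Setup
open Fermat.Agent.Gateway.BaseChange Fermat.Agent.Gateway.BaseChange.Modular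
open Fermat.Agent.Gateway.A2 Fermat.Agent.Gateway.A2.Count
open Fermat.Agent.Gateway.Dict.ConjAbs
open Fermat.Agent.S48x.Model Fermat.Agent.S48x.G1 Fermat.Agent.S48x.G1.Export
  Fermat.Agent.S48x.G1.JSide Fermat.Agent.S48x.G1.Xi Fermat.Agent.S48x.G1.Adapt
  Fermat.Agent.S48x.Coh Fermat.Agent.S48x.HeckeFF Fermat.Agent.S48x.Ana Fermat.Agent.S48x.Ana.Emb1
  Fermat.Agent.S48x.Ana.Emb1Count Fermat.Agent.S48x.Ana.Diamond Fermat.Agent.S48x.PPack

attribute [local instance] Fermat.Agent.Gateway.BaseChange.Modular.algKbarC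

local notation "Qb" => AlgebraicClosure ℚ

variable {M : ℕ} [NeZero M]

/-! ### `θ` on `tors (J1 M) m` -/

/-- `θ` on the `m`-torsion of `J1 M` (in the `tors` form of the export contract). -/
def thetaTors (hM : 8 ≤ M) (m : ℕ) [NeZero m] :
    tors (J1 M) m ≃+ Additive (charPE (Gamma1pm M) (rootsOfUnity m ℂ)) :=
  (torsPicEquiv Qb (F1Qb M) m).trans (Emb1Count.thetaEquivKbar hM m)

/-- `xi` at level `m`. -/
def xiM (hM : 8 ≤ M) (m : ℕ) [NeZero m] : tors (J1 M) m ≃+ (QLat1 M →+ ZMod m) :=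
  xiOfTheta (Gamma1pm M) m (thetaTors hM m)

/-- The character attached to a torsion point by `thetaTors` is the one attached by helper79's
`G1a.thetaEquivKbar` to the same point in `Pic0.torsion`. -/
theorem thetaChar_thetaTors (hM : 8 ≤ M) (m : ℕ) [NeZero m] (y : tors (J1 M) m) :
    haveI := finiteDimensional_jK (M := M) hM
    thetaChar (Gamma1pm M) m (thetaTors hM m) y =
      thetaChar (Gamma1pm M) m
        (G1a.thetaEquivKbar (transcendental_jK (M := M)) (embDataC hM) (NeZero.pos M)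
          (hcusp_embDataC hM) m) (torsPicEquiv Qb (F1Qb M) m y) := rfl

/-! ### Diamonds -/

section Diamond

variable (hM : 8 ≤ M) (I : JData M) (hIζ : algebraMap Kbar ℂ I.ζ = zetaM M)

include hIζ in
/-- **`θ` and the diamond automorphisms of `J1 M`.** -/
theorem thetaChar_thetaTors_DJ1 (m : ℕ) [NeZero m] (d : (ZMod M)ˣ) (τ : Gamma0 M)
    (hτ : lr M (τ : SL(2, ℤ)) = (d : ZMod M)) (x : tors (J1 M) m) :
    thetaChar (Gamma1pm M) m (thetaTors hM m) ⟨DJ1 I d x, map_mem_tors (DJ1 I d) x.2⟩ =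
      diamCharHom τ (rootsOfUnity m ℂ) (thetaChar (Gamma1pm M) m (thetaTors hM m) x) := by
  haveI := finiteDimensional_jK (M := M) hM
  rw [thetaChar_thetaTors, thetaChar_thetaTors]
  have h1 : torsPicEquiv Qb (F1Qb M) m ⟨DJ1 I d x, map_mem_tors (DJ1 I d) x.2⟩ =
      diamondSemi I.hζ I.D d • torsPicEquiv Qb (F1Qb M) m x := by
    apply Subtype.ext
    rw [SemilinearAut.coe_torsion_smul]
    rfl
  rw [h1]
  exact G1a.thetaChar_thetaEquivKbar_smul (transcendental_jK (M := M)) (embDataC hM)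
    (NeZero.pos M) (hcusp_embDataC hM) τ (diamondSemi I.hζ I.D d)
    (diamondSemi (CycloUnit.isPrimitiveRoot_zetaM M) (slashDataC hM) d)
    (diamondSemi_smul_setupG_ι I.hζ I.D (CycloUnit.isPrimitiveRoot_zetaM M) (slashDataC hM) hIζ d)
    (fun f => by
      rw [diamondSemi_smul]
      exact emb_diamond_inv (CycloUnit.isPrimitiveRoot_zetaM M) (slashDataC hM) d τ.2 hτ f)
    m _

include hIζ in
/-- **`xi_D` at level `m`.** -/
theorem peRes_xiM_DJ1 (m : ℕ) [NeZero m] (d : (ZMod M)ˣ) (τ : Gamma0 M)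
    (hτ : lr M (τ : SL(2, ℤ)) = (d : ZMod M)) (x : tors (J1 M) m) :
    peRes (Gamma1pm M) ℤ (ZMod m) (xiM hM m ⟨DJ1 I d x, map_mem_tors (DJ1 I d) x.2⟩) =
      diamHom τ (ZMod m) (peRes (Gamma1pm M) ℤ (ZMod m) (xiM hM m x)) :=
  peRes_xiOfTheta_diam m (thetaTors hM m) τ x _ (thetaChar_thetaTors_DJ1 hM I hIζ m d τ hτ x)

end Diamond

/-! ### Hecke correspondences -/

section Hecke

variable (hM : 8 ≤ M) (I : JData M) (hIζ : algebraMap Kbar ℂ I.ζ = zetaM M)
  {p : ℕ} [Fact p.Prime] (hpM : ¬ p ∣ M) (t : Twist M p)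

theorem coe_unitOfPrime {p : ℕ} (hp : p.Prime) (hpM : ¬ p ∣ M) :
    ((unitOfPrime hp hpM : (ZMod M)ˣ) : ZMod M) = (p : ZMod M) := rfl

set_option maxHeartbeats 800000 in
include hIζ in
/-- **`θ` and the standard Hecke correspondence `TJ1 I p = heckeL ∘ ⟨p⟩` of `J1 M`.** -/
theorem thetaChar_thetaTors_TJ1 (m : ℕ) [NeZero m] (x : tors (J1 M) m) :
    thetaChar (Gamma1pm M) m (thetaTors hM m) ⟨TJ1 I p x, map_mem_tors (TJ1 I p) x.2⟩ =
      heckeCharHom1 hpM t (rootsOfUnity m ℂ)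
        (thetaChar (Gamma1pm M) m (thetaTors hM m) x) := by
  have hp : p.Prime := Fact.out
  haveI : NeZero p := ⟨hp.ne_zero⟩
  haveI := finiteDimensional_jK (M := M) hM
  haveI := I.fin
  haveI := finiteDimensional_levelField Qb p hp (hj1 M)
  haveI := G1a.isCurveOver_FC (transcendental_jK (M := M))
  haveI := LevelP.isAlgebraic_levelField_C (M := M) p hM hp
  -- the inputs of the correspondence over `Qb` and over `ℂ`
  have IK : FFInputs (betaG Kbar p (qExpand_mem_levelField (gamma1Field M) p))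
      (alphaG Kbar (le_levelField (gamma1Field M) p)) := ffInputs_levelField Qb p hp (hj1 M)
  have IC : FFInputs (betaG ℂ p (qExpand_mem_levelField (gamma1Field M) p))
      (alphaG ℂ (le_levelField (gamma1Field M) p)) :=
    LevelP.ffInputs_gamma1 (M := M) p (RingHom.id ℂ) hM hp
  have hK' : ∀ v : Place Kbar ↥(laurentBaseChange Kbar (levelField (gamma1Field M) p)),
      Function.Surjective (algebraMap Kbar v.ResidueField) := fun v =>
    PD.residue_surjective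
      (transcendental_jG Qb (le_levelField (gamma1Field M) p (hj1 M))) v
  have hconj : ThetaEq.NormConjFormula hpM
      (G1a.dictInputC (transcendental_jK (M := M)) (embDataC hM) (NeZero.pos M)
        (hcusp_embDataC hM)) IC :=
    ThetaEq.normConjFormula_levelField hpM (embDataC hM) (NeZero.pos M) (hcusp_embDataC hM)
      (LevelP.hasQ_embDataC' hM) (dvd_mul_right M p) IC
  -- the diamond `⟨p⟩`
  set u : (ZMod M)ˣ := unitOfPrime hp hpM with hu
  have hτ : lr M ((tauOf M u : Gamma0 M) : SL(2, ℤ)) = (u : ZMod M) := lr_tauOf M u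
  have hδτ : lr M ((ThetaEq.twDelta hpM : Gamma0 M) : SL(2, ℤ)) *
      lr M ((tauOf M u : Gamma0 M) : SL(2, ℤ)) = 1 := by
    rw [hτ, hu, coe_unitOfPrime]
    exact ThetaEq.lr_twDelta_mul hpM
  have hg := diamondSemi_smul_setupG_ι I.hζ I.D (CycloUnit.isPrimitiveRoot_zetaM M)
    (slashDataC hM) hIζ u
  have hemb : ∀ f, (embDataC hM).emb
      (diamondSemi (CycloUnit.isPrimitiveRoot_zetaM M) (slashDataC hM) u • f) =
        ((tauOf M u : Gamma0 M) : SL(2, ℤ))⁻¹ • (embDataC hM).emb f := fun f => by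
    rw [diamondSemi_smul]
    exact emb_diamond_inv (CycloUnit.isPrimitiveRoot_zetaM M) (slashDataC hM) u
      (tauOf M u).2 hτ f
  -- `θ_K (T^naive (⟨p⟩ z)) = T_p (⟨δ⟩ (⟨τ⟩ (θ_K z)))` (helper79), and `⟨δ⟩ ⟨τ⟩ = 1` (helper4)
  have key := G1a.thetaChar_thetaEquivKbar_heckeG_twisted_smul (transcendental_jK (M := M))
    (embDataC hM) (NeZero.pos M) (hcusp_embDataC hM) hpM t hK' IK IC hconj (tauOf M u)
    (diamondSemi I.hζ I.D u)
    (diamondSemi (CycloUnit.isPrimitiveRoot_zetaM M) (slashDataC hM) u)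
    hg hemb m (torsPicEquiv Qb (F1Qb M) m x)
  rw [diamCharHom_diamCharHom_of_lr (rootsOfUnity m ℂ) (ThetaEq.twDelta hpM) (tauOf M u)
    (Or.inl hδτ)] at key
  have h1 : torsPicEquiv Qb (F1Qb M) m ⟨TJ1 I p x, map_mem_tors (TJ1 I p) x.2⟩ =
      heckeTorsionG IK m (diamondSemi I.hζ I.D u • torsPicEquiv Qb (F1Qb M) m x) := by
    apply Subtype.ext
    rw [coe_heckeTorsionG, SemilinearAut.coe_torsion_smul]
    show TJ1 I p (x : J1 M) = _
    rw [TJ1_apply I hp hpM]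
    rfl
  rw [thetaChar_thetaTors, thetaChar_thetaTors, h1]
  exact key

include hIζ in
/-- **`xi_T` at level `m`.** -/
theorem peRes_xiM_TJ1 (m : ℕ) [NeZero m] (x : tors (J1 M) m) :
    peRes (Gamma1pm M) ℤ (ZMod m) (xiM hM m ⟨TJ1 I p x, map_mem_tors (TJ1 I p) x.2⟩) =
      heckeHom1 hpM t (ZMod m) (peRes (Gamma1pm M) ℤ (ZMod m) (xiM hM m x)) :=
  peRes_xiOfTheta_hecke hpM t m (thetaTors hM m) x _
    (thetaChar_thetaTors_TJ1 hM I hIζ hpM t m x)

end Hecke

/-! ### The three `xi`-fields -/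

section Fields

variable (hM : 8 ≤ M) (I : JData M) (hIζ : algebraMap Kbar ℂ I.ζ = zetaM M)
  {ℓ : ℕ} (hℓ : ℓ ≠ 0) (S : Finset ℕ)

/-- **`xi`**: `J1(M)[ℓ ^ n] ≃+ Hom(QLat1 M, ℤ/ℓ ^ n)`. -/
def xi1 (n : ℕ) : tors (J1 M) (ℓ ^ n) ≃+ (QLat1 M →+ ZMod (ℓ ^ n)) :=
  haveI : NeZero (ℓ ^ n) := ⟨pow_ne_zero n hℓ⟩
  xiM hM (ℓ ^ n)

include hIζ in
/-- **`xi_D`** for the concrete Jacobian side. -/
theorem xiD1 : XiD (DJ1 I) (xi1 hM hℓ) := by
  intro n d
  haveI : NeZero (ℓ ^ n) := ⟨pow_ne_zero n hℓ⟩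
  exact ⟨tauOf M d, Or.inl (lr_tauOf M d), fun x =>
    peRes_xiM_DJ1 hM I hIζ (ℓ ^ n) d (tauOf M d) (lr_tauOf M d) x⟩

include hIζ in
/-- **`xi_T`** for the concrete Jacobian side. -/
theorem xiT1 : XiT (TJ1 I) (xi1 hM hℓ) S := by
  intro n p _ hpM _
  haveI : NeZero (ℓ ^ n) := ⟨pow_ne_zero n hℓ⟩
  exact ⟨someTwist M p hpM, fun x =>
    peRes_xiM_TJ1 hM I hIζ hpM (someTwist M p hpM) (ℓ ^ n) x⟩

include hM hℓ hIζ in
/-- **The Jacobian side of the `Γ₁`-gateway from the Kummer inputs alone.** -/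
theorem exists_jSide1_of_kummer (K : KummerInputs I ℓ S) :
    ∃ Jd : Final.JSide1 M ℓ S, Jd.diamInv = false :=
  exists_jSide1 I hℓ (xi1 hM hℓ) (xiT1 hM I hIζ hℓ S) (xiD1 hM I hIζ hℓ) K

/-- The same with the hypothesis on the root of unity stated for `S24.Setup.iota` (no local
instance needed by the consumer: `algebraMap Kbar ℂ = S24.Setup.iota` by `rfl`). -/
theorem exists_jSide1_of_kummer_iota (hM : 8 ≤ M) (I : JData M)
    (hIζ : Fermat.Agent.S24.Setup.iota I.ζ = zetaM M) {ℓ : ℕ} (hℓ : ℓ ≠ 0) (S : Finset ℕ)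
    (K : KummerInputs I ℓ S) : ∃ Jd : Final.JSide1 M ℓ S, Jd.diamInv = false :=
  exists_jSide1_of_kummer hM I hIζ hℓ S K

end Fields

end Fermat.Agent.S48x.G1.XiJ1
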